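import Fermat.Agent.BAD.X0.Uniformizer
import Fermat.Agent.RED.Model.GenusEq
import Fermat.Agent.FF.PoleOrd
import Fermat.Agent.JAC.X0.HeckeTrace

/-!
# The number of glued points

The reduction of `Δ (z) / Δ (q z)` is a polynomial of degree `q - 1` in `j` and vanishes to order
at most `12` at each glued point; if `X₀ (M)` has no elliptic points there are therefore at least
`g (X₀ (M q)) + 1 - 2 g (X₀ (M))` of them.
-/

set_option autoImplicit false
set_option linter.unusedSectionVars false

attribute [local instance 10000] SubalgebraClass.toAlgebra HahnSeries.powerSeriesAlgebra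

noncomputable section

open ModularCurve AlgebraicCurve

namespace Fermat.BAD.X0

open Fermat.FF Fermat.MC Fermat.JAC.X0 Fermat.RED Fermat.RED.Model

local notation "Qb" => AlgebraicClosure ℚ

/-- `X₀ (M)` has no elliptic points. -/
structure NoElliptic (M : ℕ) : Prop where
  /-- There are no elliptic points of order `2`. -/
  two : nuTwo M = 0
  /-- There are no elliptic points of order `3`. -/
  three : nuThree M = 0

/-- Levels divisible by `4` or `9` have no elliptic points. -/
theorem NoElliptic.of_dvd49 {M : ℕ} (h : 4 ∣ M ∨ 9 ∣ M) : NoElliptic M :=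
  ⟨nuTwo_eq_zero h, nuThree_eq_zero h⟩

/-- Multiples of a level without elliptic points have none. -/
theorem NoElliptic.of_dvd {M N : ℕ} [NeZero M] (h : NoElliptic M) (hMN : M ∣ N) : NoElliptic N := by
  have h2 : IsEmpty {x : ZMod M // x ^ 2 + 1 = 0} :=
    (Nat.card_eq_zero.mp h.two).resolve_right fun hi => not_finite_iff_infinite.mpr hi inferInstance
  have h3 : IsEmpty {x : ZMod M // x ^ 2 + x + 1 = 0} :=
    (Nat.card_eq_zero.mp h.three).resolve_right fun hi =>
      not_finite_iff_infinite.mpr hi inferInstance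
  constructor
  · rw [nuTwo, Nat.card_eq_zero]
    refine Or.inl ⟨fun x => h2.false ⟨ZMod.castHom hMN (ZMod M) x.1, ?_⟩⟩
    rw [← map_pow, ← map_one (ZMod.castHom hMN (ZMod M)), ← map_add, x.2, map_zero]
  · rw [nuThree, Nat.card_eq_zero]
    refine Or.inl ⟨fun x => h3.false ⟨ZMod.castHom hMN (ZMod M) x.1, ?_⟩⟩
    rw [← map_pow, ← map_one (ZMod.castHom hMN (ZMod M)), ← map_add, ← map_add, x.2, map_zero]

/-- A prime `11` modulo `12` in the level kills both kinds of elliptic points. -/
theorem NoElliptic.of_prime_dvd {M r : ℕ} (hr : r.Prime) (h12 : r % 12 = 11) (h : r ∣ M) :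
    NoElliptic M := by
  have := Fact.mk hr
  constructor
  · rw [nuTwo, Nat.card_eq_zero]
    refine Or.inl ⟨fun ⟨z, hz⟩ => ?_⟩
    have h1 := congrArg (ZMod.castHom h (ZMod r)) hz
    simp only [map_add, map_pow, map_one, map_zero] at h1
    have h2 : r % 4 ≠ 3 := ZMod.mod_four_ne_three_of_sq_eq_neg_one (eq_neg_of_add_eq_zero_left h1)
    omega
  · rw [nuThree, Nat.card_eq_zero]
    refine Or.inl ⟨fun ⟨z, hz⟩ => ?_⟩
    have h1 := congrArg (ZMod.castHom h (ZMod r)) hz
    simp only [map_add, map_pow, map_one, map_zero] at h1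
    generalize ZMod.castHom h (ZMod r) z = w at h1
    have h3 : w ^ 3 = 1 := by linear_combination (w - 1) * h1
    have hw0 : w ≠ 0 := fun h0 => by
      rw [h0, zero_pow (by norm_num : (3 : ℕ) ≠ 0)] at h3
      exact zero_ne_one h3
    have hw1 : w ≠ 1 := fun h0 => by
      rw [h0] at h1
      have : ((3 : ℕ) : ZMod r) = 0 := by push_cast; linear_combination h1
      rw [ZMod.natCast_eq_zero_iff] at this
      have := (Nat.prime_dvd_prime_iff_eq hr Nat.prime_three).mp this
      omega
    have hdvd :=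
      (orderOf_eq_prime h3 hw1) ▸ orderOf_dvd_of_pow_eq_one (ZMod.pow_card_sub_one_eq_one hw0)
    omega

section Generic

variable {K F : Type*} [Field K] [Field F] [Algebra K F] [IsAlgClosed K] [FF.IsFunctionField K F]

/-- If `h` times a function regular at `v` is `(z - z ^ q²) ^ m` for a uniformiser `z - c`, then
`h` vanishes to order at most `m` at `v`. -/
theorem ord_le_of_uniformizer {q : ℕ} [Fact q.Prime] [CharP F q]
    {v : Place K F} {z h : F} {c : K} (hh : 0 < v.ord h) (hh0 : h ≠ 0)
    (hne : z - algebraMap K F c ≠ 0)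
    (hord : v.ord (z - algebraMap K F c) = 1) {m : ℕ} {w : F} (hw : OrdGE v w 0)
    (he : w * h = (z - z ^ q ^ 2) ^ m) : v.ord h ≤ m := by
  set u := z - algebraMap K F c
  set d := c - c ^ q ^ 2
  have hq2 : 2 ≤ q ^ 2 := by
    have := (Fact.out : q.Prime).two_le
    calc 2 ≤ q := this
      _ = q ^ 1 := (pow_one q).symm
      _ ≤ q ^ 2 := Nat.pow_le_pow_right (by omega) (by norm_num)
  -- `z - z ^ q²` is `u - u ^ q²`, of order one, plus a constant `d`
  have hz : z - z ^ q ^ 2 = (u - u ^ q ^ 2) + algebraMap K F d := by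
    simp only [u, d, sub_pow_char_pow, map_sub, map_pow]
    ring
  have huq : v.ord (u - u ^ q ^ 2) = 1 := by
    rw [sub_eq_add_neg, (ord_add_of_lt v (g := -(u ^ q ^ 2)) hne (by
      rw [ord_neg, ord_pow, hord]
      have : (2 : ℤ) ≤ ((q ^ 2 : ℕ) : ℤ) := by exact_mod_cast hq2
      linarith)).1, hord]
  have huq0 : u - u ^ q ^ 2 ≠ 0 := fun h0 => by rw [h0, Place.ord_zero] at huq; omega
  -- if `d = 0`, take orders in the equation
  rcases eq_or_ne d 0 with hd | hd
  · rw [hd, map_zero, add_zero] at hz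
    have hw0 : w ≠ 0 := fun h0 => pow_ne_zero m (hz ▸ huq0) (by rw [← he, h0, zero_mul])
    have h1 := congrArg v.ord he
    rw [v.ord_mul hw0 hh0, ord_pow, hz, huq, mul_one] at h1
    have := hw.le_ord hw0
    omega
  -- otherwise the right side has order zero, against `0 < ord h`
  · exfalso
    have hdF : algebraMap K F d ≠ 0 := (_root_.map_ne_zero _).mpr hd
    have h1 : v.ord (z - z ^ q ^ 2) = 0 := by
      rw [hz, add_comm, (ord_add_of_lt v (g := u - u ^ q ^ 2) hdF
        (by rw [ord_algebraMap, huq]; norm_num)).1, ord_algebraMap]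
    have hz0 : z - z ^ q ^ 2 ≠ 0 := fun h0 => by
      rw [hz, add_eq_zero_iff_eq_neg] at h0
      rw [h0, ord_neg, ord_algebraMap] at huq
      omega
    have hw0 : w ≠ 0 := fun h0 => pow_ne_zero m hz0 (by rw [← he, h0, zero_mul])
    have h2 := congrArg v.ord he
    rw [v.ord_mul hw0 hh0, ord_pow, h1, mul_zero] at h2
    have := hw.le_ord hw0
    omega

end Generic

/-- Every cusp of level `M` has at least two cusps of level `M q` above it, `q ∤ M`. -/
theorem two_mul_cuspCount_le (M q : ℕ) [NeZero M] (hq : q.Prime) (hqM : ¬ q ∣ M) :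
    2 * cuspCount M ≤ cuspCount (M * q) := by
  classical
  -- for `d ∣ M` the gcd with the codivisor is the same for `d` and `d q` in `M q` as for `d` in `M`
  have hc : ∀ d ∈ M.divisors, Nat.gcd d (M * q / d) = Nat.gcd d (M / d) ∧
      Nat.gcd (d * q) (M * q / (d * q)) = Nat.gcd d (M / d) := fun d hd => by
    have hdM := Nat.dvd_of_mem_divisors hd
    have hcd : Nat.Coprime q d := hq.coprime_iff_not_dvd.mpr fun h => hqM (h.trans hdM)
    have hcd' : Nat.Coprime q (M / d) :=
      hq.coprime_iff_not_dvd.mpr fun h => hqM (h.trans (Nat.div_dvd_of_dvd hdM))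
    constructor
    · rw [mul_comm M q, Nat.mul_div_assoc q hdM, Nat.Coprime.gcd_mul_left_cancel_right (M / d) hcd]
    · rw [Nat.mul_div_mul_right _ _ hq.pos, mul_comm d q, Nat.Coprime.gcd_mul_left_cancel d hcd']
  rw [cuspCount, cuspCount, two_mul]
  have hinj : Set.InjOn (fun d => d * q) M.divisors := fun a _ b _ h =>
    Nat.eq_of_mul_eq_mul_right hq.pos h
  -- so the count doubles over these two disjoint families of divisors of `M q`
  calc ∑ d ∈ M.divisors, Nat.totient (Nat.gcd d (M / d)) + ∑ d ∈ M.divisors,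
         Nat.totient (Nat.gcd d (M / d))
      = ∑ d ∈ M.divisors, Nat.totient (Nat.gcd d (M * q / d)) +
        ∑ d ∈ M.divisors.image (fun d => d * q), Nat.totient (Nat.gcd d (M * q / d)) := by
        rw [Finset.sum_image hinj]
        refine congrArg₂ (· + ·) (Finset.sum_congr rfl fun d hd => ?_)
          (Finset.sum_congr rfl fun d hd => ?_)
        · rw [(hc d hd).1]
        · rw [(hc d hd).2]
    _ = ∑ d ∈ M.divisors ∪ M.divisors.image (fun d => d * q),
          Nat.totient (Nat.gcd d (M * q / d)) := by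
        rw [Finset.sum_union]
        refine Finset.disjoint_left.mpr fun a ha hb => ?_
        obtain ⟨b, -, rfl⟩ := Finset.mem_image.mp hb
        exact hqM ((dvd_mul_left q b).trans (Nat.dvd_of_mem_divisors ha))
    _ ≤ _ := by
        refine Finset.sum_le_sum_of_subset fun a ha => ?_
        rw [Nat.mem_divisors]
        refine ⟨?_, mul_ne_zero (NeZero.ne M) hq.ne_zero⟩
        rcases Finset.mem_union.mp ha with h | h
        · exact (Nat.dvd_of_mem_divisors h).trans (dvd_mul_right M q)
        · obtain ⟨b, hb, rfl⟩ := Finset.mem_image.mp h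
          exact mul_dvd_mul_right (Nat.dvd_of_mem_divisors hb) q

section Residue

variable {q : ℕ} [Fact q.Prime] (hq : q.Prime) {A : ValuationSubring (AlgebraicClosure ℚ)}
  (hA : A.LiesOverPrime q) [CharP (IsLocalRing.ResidueField A) q]
include hq hA

/-- The residue of a rational element is fixed by Frobenius, and if it vanishes the element is
divisible by `q`. -/
theorem rat_residue_frobenius {a : A} (ha : (a : Qb) ∈ Set.range (algebraMap ℚ Qb)) :
    frobenius (IsLocalRing.ResidueField A) q (IsLocalRing.residue A a) = IsLocalRing.residue A a ∧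
      (IsLocalRing.residue A a = 0 → ∃ b : A, a = (q : A) * b) := by
  obtain ⟨r, hr⟩ := ha
  rw [eq_ratCast] at hr
  -- the denominator is prime to `q`, as `a` is integral
  have hden : ¬ q ∣ r.den := fun hd => by
    have hnum : ¬ q ∣ r.num.natAbs := fun hn =>
      hq.one_lt.ne' (Nat.eq_one_of_dvd_coprimes r.reduced hn hd)
    have hv : A.valuation (r.num : Qb) = 1 := by
      rcases Int.natAbs_eq r.num with h | h <;> rw [h]
      · rw [Int.cast_natCast]; exact valuation_natCast hq hA hnum
      · rw [Int.cast_neg, Int.cast_natCast, Valuation.map_neg]; exact valuation_natCast hq hA hnum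
    have hlt : A.valuation (r.den : Qb) < 1 := by
      obtain ⟨e, he⟩ := hd
      rw [he, Nat.cast_mul, map_mul]
      exact mul_lt_one_of_nonneg_of_lt_one_left zero_le (valuation_q_lt_one hA)
        ((A.valuation_le_one_iff _).mpr (natCast_mem A e))
    have h1 : (a : Qb) * (r.den : Qb) = (r.num : Qb) := by
      rw [← hr, Rat.cast_def, div_mul_cancel₀ _ (Nat.cast_ne_zero.mpr r.den_ne_zero)]
    have h2 := congrArg A.valuation h1
    rw [map_mul, hv] at h2
    exact lt_irrefl (1 : _) (lt_of_eq_of_lt h2.symm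
      (mul_lt_one_of_nonneg_of_lt_one_right ((A.valuation_le_one_iff _).mpr a.2) zero_le hlt))
  -- so modulo the maximal ideal `a` is a ratio of integers, fixed by Frobenius
  have h1 : a * (r.den : A) = (r.num : A) := Subtype.ext (by
    push_cast
    rw [← hr, Rat.cast_def, div_mul_cancel₀ _ (Nat.cast_ne_zero.mpr r.den_ne_zero)])
  have h1k := congrArg (IsLocalRing.residue A) h1
  rw [map_mul, map_natCast, map_intCast] at h1k
  have hden0 : (r.den : IsLocalRing.ResidueField A) ≠ 0 := fun h =>
    hden ((CharP.cast_eq_zero_iff _ q _).mp h)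
  refine ⟨mul_right_cancel₀ hden0 ?_, fun h0 => ?_⟩
  · have h2 := congrArg (frobenius (IsLocalRing.ResidueField A) q) h1k
    rw [map_mul, map_natCast, map_intCast] at h2
    exact h2.trans h1k.symm
  -- if it reduces to zero then `q` divides the numerator
  · rw [h0, zero_mul, eq_comm, CharP.intCast_eq_zero_iff _ q] at h1k
    obtain ⟨e, he⟩ := h1k
    obtain ⟨c, hc⟩ : ∃ c : A, (r.den : A) * c = 1 := by
      refine IsUnit.exists_right_inv (A.valuation_eq_one_iff _ |>.mpr ?_)
      push_cast
      exact valuation_natCast hq hA hden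
    refine ⟨(e : A) * c, ?_⟩
    rw [← mul_one a, ← hc, ← mul_assoc, h1, he, Int.cast_mul, Int.cast_natCast, mul_assoc]

/-- The reduction of a rational integral series is fixed by Frobenius. -/
theorem rat_series_frobenius {y : LaurentSeries A}
    (hy : ∀ n, ((y.coeff n : A) : Qb) ∈ Set.range (algebraMap ℚ Qb)) :
    coeffMap (frobenius (IsLocalRing.ResidueField A) q) (coeffMap (IsLocalRing.residue A) y) =
      coeffMap (IsLocalRing.residue A) y := by
  ext n
  rw [coeffMap_coeff, coeffMap_coeff]
  exact (rat_residue_frobenius hq hA (hy n)).1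

/-- A rational integral series reducing to zero is divisible by `q`. -/
theorem exists_eq_q_mul {y : LaurentSeries A}
    (hy : ∀ n, ((y.coeff n : A) : Qb) ∈ Set.range (algebraMap ℚ Qb))
    (h0 : coeffMap (IsLocalRing.residue A) y = 0) :
    ∃ z : LaurentSeries A, y = (q : LaurentSeries A) * z := by
  choose b hb using fun n => (rat_residue_frobenius hq hA (hy n)).2 (by
    rw [← coeffMap_coeff, h0, HahnSeries.coeff_zero])
  have hbd : BddBelow (Function.support b) := ⟨y.order, fun n hn => le_of_not_gt fun hlt => hn (by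
    have h := (hb n).symm.trans (HahnSeries.coeff_eq_zero_of_lt_order hlt)
    refine (mul_eq_zero.mp h).resolve_left fun hq0 => hq.ne_zero ?_
    have := congrArg Subtype.val hq0
    push_cast at this
    exact_mod_cast this)⟩
  refine ⟨HahnSeries.ofSuppBddBelow b hbd, ?_⟩
  ext n
  rw [← nsmul_eq_mul, HahnSeries.coeff_smul, nsmul_eq_mul]
  exact congrArg Subtype.val (hb n)

/-- A series with rational `q`-integral coefficients is fixed by Frobenius modulo `q`, and
`y (t ^ q) - y (t) ^ q` is divisible by `q`. -/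
theorem exists_frobenius_congr [NeZero q] {y : LaurentSeries A}
    (hyQ : ∀ n, ((y.coeff n : A) : Qb) ∈ Set.range (algebraMap ℚ Qb)) :
    coeffMap (frobenius (IsLocalRing.ResidueField A) q) (coeffMap (IsLocalRing.residue A) y) =
        coeffMap (IsLocalRing.residue A) y ∧
      ∃ w : LaurentSeries A, qExpand A q y - y ^ q = (q : LaurentSeries A) * w := by
  obtain ⟨r, hr⟩ : ∃ r : LaurentSeries ℚ, coeffMap (algebraMap ℚ Qb) r = coeffMap A.subtype y := by
    choose s hs using hyQ
    refine ⟨HahnSeries.ofSuppBddBelow s ⟨y.order, fun n hn => le_of_not_gt fun hlt => hn ?_⟩, ?_⟩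
    · refine (algebraMap ℚ Qb).injective ?_
      rw [hs, HahnSeries.coeff_eq_zero_of_lt_order hlt, map_zero]
      rfl
    · ext n
      rw [coeffMap_coeff, coeffMap_coeff]
      exact hs n
  set yq := qExpand A q y - y ^ q
  have hyq : ∀ n, ((yq.coeff n : A) : Qb) ∈ Set.range (algebraMap ℚ Qb) := fun n => by
    refine ⟨(qExpand ℚ q r - r ^ q).coeff n, ?_⟩
    rw [← coeffMap_coeff (algebraMap ℚ Qb), map_sub, coeffMap_qExpand, map_pow, hr,
      ← coeffMap_qExpand, ← map_pow, ← map_sub, coeffMap_coeff]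
    rfl
  refine ⟨rat_series_frobenius hq hA hyQ, ?_⟩
  exact exists_eq_q_mul hq hA hyq (by
    rw [map_sub, map_pow, coeffMap_qExpand, laurent_pow_char q,
      rat_series_frobenius hq hA hyQ, sub_self])

end Residue

section SS

variable (M q : ℕ) [NeZero M] [NeZero q] [Fact q.Prime] (hq : q.Prime) (hqM : ¬ q ∣ M)
variable [FF.IsFunctionField Qb (FN (M * q) Qb)] [FF.IsFunctionField Qb (FN M Qb)]
variable {A : ValuationSubring (AlgebraicClosure ℚ)} (hA : A.LiesOverPrime q)
  [IsAlgClosed (IsLocalRing.ResidueField A)] [CharP (IsLocalRing.ResidueField A) q]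
  [FF.IsFunctionField (IsLocalRing.ResidueField A) (FX (IsLocalRing.ResidueField A) M)]

local notation "kA" => IsLocalRing.ResidueField A
local notation "jk" => jX (IsLocalRing.ResidueField A) M

/-- The reduction of `Δ (z) / Δ (q z)` vanishes to order at most `12` at a glued point. -/
theorem ord_hbar_le {s : Place kA (FX kA M)} (hs : s ∈ SS M q hq hqM hA) :
    s.ord (hbar M q hq hqM hA) ≤ 12 := by
  obtain ⟨hs1, hs2⟩ := (mem_SS M q hq hqM hA).mp hs
  obtain ⟨t, y, z, c, ht, hty, htQ, hz, hne, hord⟩ := exists_rat_uniformizer hq hqM hA hs1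
  have hyQ : ∀ n, ((y.coeff n : A) : Qb) ∈ Set.range (algebraMap ℚ Qb) := fun n => by
    have := htQ n
    rwa [hty, coeffMap_coeff] at this
  obtain ⟨hfrob, w, hw⟩ := exists_frobenius_congr hq hA hyQ
  set yq := qExpand A q y - y ^ q
  -- `G = t (z) - t (q z) ^ q` is divisible by `q` at `0`, so `hbar` divides `(z - z ^ q²) ^ 12`
  set G := heckeAlphaBar Qb M q t - heckeBetaBar Qb M q t ^ q
  have hG : G ∈ intClosure Qb (aj M q) :=
    sub_mem (map_mem_intClosure (heckeAlphaBar Qb M q) ht)
      (pow_mem (mem_intClosure_trans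
        (bj_mem_intClosure M q hq hqM) (map_mem_intClosure (heckeBetaBar Qb M q) ht)) q)
  have hG1 : emb M q hq hqM true G = coeffMap A.subtype (y - qExpand A q y ^ q) := by
    rw [map_sub, map_pow, emb_true_alpha, emb_true_beta, hty, map_sub, map_pow, coeffMap_qExpand]
  have hG0 : emb M q hq hqM false G = (q : LaurentSeries Qb) * coeffMap A.subtype w := by
    rw [map_sub, map_pow, emb_false_alpha, emb_false_beta, hty, ← coeffMap_qExpand, ← map_pow,
      ← map_sub]
    change coeffMap A.subtype yq = _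
    rw [hw, map_mul, map_natCast]
  obtain ⟨z', hz', hzh⟩ := exists_mul_hSer_eq M q hq hqM hA (G ^ 12) (pow_mem hG 12)
    (by rw [map_pow, hG1]; exact pow_mem (show coeffMap A.subtype _ ∈ intSeries A from ⟨_, rfl⟩) 12)
    (w := coeffMap A.subtype w ^ 12)
    (pow_mem (show coeffMap A.subtype w ∈ intSeries A from ⟨_, rfl⟩) 12)
      (by rw [map_pow, hG0, mul_pow])
  have hzh' : z' * hbar M q hq hqM hA = (z - z ^ q ^ 2) ^ 12 := Subtype.ext (by
    rw [MulMemClass.coe_mul, SubmonoidClass.coe_pow, AddSubgroupClass.coe_sub,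
      SubmonoidClass.coe_pow, hz]
    refine hzh.trans ?_
    have hi : emb M q hq hqM true G ∈ intSeries A := by rw [hG1]; exact ⟨_, rfl⟩
    rw [redF_pow hi, redF_of_mem hi]
    refine congrArg (· ^ 12) ((congrArg _ (Subtype.ext hG1)).trans
      ((redHom_coeffMap (IsLocalRing.residue A) _ ⟨_, rfl⟩).trans ?_))
    rw [map_sub, map_pow, coeffMap_qExpand, pow_two q, pow_mul, laurent_pow_char q
      (coeffMap (IsLocalRing.residue A) y), hfrob])
  have : CharP (FX kA M) q := charP_of_injective_algebraMap (algebraMap kA (FX kA M)).injective q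
  exact ord_le_of_uniformizer (q := q) hs2 (hbar_ne_zero M q hq hqM hA) hne hord
    (mem_intClosure_iff.mp hz' s hs1) hzh'

end SS

section LevelOne

variable (q : ℕ) [NeZero q] [Fact q.Prime] (hq : q.Prime)
variable {A : ValuationSubring (AlgebraicClosure ℚ)} (hA : A.LiesOverPrime q)
  [IsAlgClosed (IsLocalRing.ResidueField A)]

local notation "kA" => IsLocalRing.ResidueField A

include hq hA in
/-- The series `hSer` is a polynomial of degree `q - 1` in `j` in characteristic `q`. -/
theorem exists_hSer_eq_aeval :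
    ∃ g : Polynomial kA, g ≠ 0 ∧ g.natDegree = q - 1 ∧
      hSer kA q = Polynomial.aeval (jqModC kA) g := by
  have hq1 : ¬ q ∣ 1 := fun h => hq.ne_one (Nat.dvd_one.mp h)
  have : FF.IsFunctionField Qb (FN (1 * q) Qb) := MC.isFunctionField_FN (1 * q) embC
  have : FF.IsFunctionField Qb (FN 1 Qb) := MC.isFunctionField_FN 1 embC
  have : FF.IsFunctionField kA (FX kA 1) :=
    Cusps.isFunctionField (natCast_ne_zero_residue A hq hA hq1)
  have hwi := emb_wn_int 1 q hq hq1 (A := A)
  set z : FX kA 1 := ⟨hSer kA q, hSer_mem 1 q hq hq1 hA⟩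
  have hz : z ∈ intClosure kA (jX kA 1) :=
    redF_true_mem_intClosure 1 q hq hq1 hA (wn 1 q hq hq1) hwi (wn_mem_intClosure 1 q hq hq1) z
      (redF_wn 1 q hq hq1).symm
  have hfield : hSer kA q ∈ jField kA := by
    have h1 : modularFunctionFieldFullC kA 1 ≤ jField kA := by
      refine IntermediateField.adjoin_le_iff.mpr ?_
      rintro _ ⟨d, hd, hdvd, rfl⟩
      have := hd
      obtain rfl := Nat.dvd_one.mp hdvd
      rw [qExpand_one_apply]
      exact jqModC_mem_jField kA
    exact h1 z.2
  -- `hSer` is integral over `k[j]` and lies in `k(j)`, so is a polynomial in `j`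
  obtain ⟨P, hP, hPz⟩ := mem_intClosure.mp hz
  have hlift : P.map (algebraMap (Algebra.adjoin kA {jX kA 1}) (FX kA 1))
      ∈ Polynomial.lifts (Polynomial.aeval (jX kA 1) : Polynomial kA →ₐ[kA] FX kA 1).toRingHom := by
    refine (Polynomial.lifts_iff_coeff_lifts _).mpr fun n => ?_
    rw [Polynomial.coeff_map]
    obtain ⟨p, hp⟩ := (AlgHom.mem_range _).mp
      ((Algebra.adjoin_singleton_eq_range_aeval kA (jX kA 1)).le (P.coeff n).2)
    exact ⟨p, hp⟩
  obtain ⟨Q, hQ, -, hQm⟩ := Polynomial.lifts_and_natDegree_eq_and_monic hlift (hP.map _)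
  have hQz : Q.eval₂ (Polynomial.aeval (jX kA 1)).toRingHom z = 0 := by
    rw [← Polynomial.eval_map, hQ, Polynomial.eval_map]; exact hPz
  obtain ⟨g, hg⟩ := exists_eq_aeval_of_monic hfield Q hQm (by
    have h0 := congrArg (expX kA 1) hQz
    rw [map_zero, Polynomial.hom_eval₂] at h0
    refine Eq.trans ?_ h0
    congr 1
    exact RingHom.ext fun p => (expX_aeval 1 p).symm)
  have hg0 : g ≠ 0 := fun h => hSer_ne_zero kA q (by rw [hg, h, map_zero])
  refine ⟨g, hg0, ?_, hg⟩
  have h := order_hSer kA q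
  rw [hg, order_aeval_jqModC hg0] at h
  omega

end LevelOne

/-- A polynomial of degree `d` in `j` has `d` times as many zeros as `j` has poles, all over the
finite part of the `j`-line. -/
theorem degree_zeroDiv_of_eq_aeval {L E : Type*} [Field L] [Field E] [Algebra L E] [IsAlgClosed L]
    [FF.IsFunctionField L E] {j h : E} {g : Polynomial L} {d : ℕ} (hd : 1 ≤ d) (hg0 : g ≠ 0)
    (hgd : g.natDegree = d) (he : h = Polynomial.aeval j g) (hh0 : h ≠ 0) :
    Divisor.degree (zeroDiv L h) = d * Divisor.degree (poleDiv L j) ∧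
      ∀ v : Place L E, 0 < v.ord h → OrdGE v j 0 := by
  have hpole : poleDiv L h = d • poleDiv L j := by
    ext v
    rw [poleDiv_apply, Finsupp.smul_apply, poleDiv_apply, nsmul_eq_mul]
    rcases lt_or_ge (v.ord j) 0 with hv | hv
    · have h0 : (0 : ℤ) ≤ -((d : ℤ) * v.ord j) := by
        have : (0 : ℤ) ≤ (d : ℤ) := Nat.cast_nonneg _
        nlinarith
      rw [he, ord_aeval_of_neg hv hg0, hgd, max_eq_left h0,
        max_eq_left (by omega : (0 : ℤ) ≤ -v.ord j)]
      ring
    · rw [max_eq_right (by omega : -v.ord j ≤ 0), mul_zero, max_eq_right]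
      have := (ordGE_aeval (v := v) (x := j) (ordGE_iff.mpr (.inr hv)) g)
      have := this.le_ord (he ▸ hh0)
      rw [he]
      omega
  refine ⟨?_, fun v hv => ?_⟩
  · have h1 : Divisor.degree (divOf L h) = 0 := degree_divOf h
    rw [divOf_eq_sub, map_sub, hpole, map_nsmul, sub_eq_zero] at h1
    rw [h1, nsmul_eq_mul]
  · by_contra hneg
    have hj : v.ord j < 0 := by
      by_contra hge
      push Not at hge
      exact hneg (ordGE_iff.mpr (.inr hge))
    have := congrArg (fun D : Divisor L E => D v) hpole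
    simp only [poleDiv_apply, Finsupp.smul_apply, nsmul_eq_mul] at this
    rw [max_eq_right (by omega : -v.ord h ≤ 0), max_eq_left (by omega : (0 : ℤ) ≤ -v.ord j)] at this
    nlinarith

section Count

variable (M q : ℕ) [NeZero M] [NeZero q] [Fact q.Prime] (hq : q.Prime) (hqM : ¬ q ∣ M)
variable [FF.IsFunctionField Qb (FN (M * q) Qb)] [FF.IsFunctionField Qb (FN M Qb)]
variable {A : ValuationSubring (AlgebraicClosure ℚ)} (hA : A.LiesOverPrime q)
  [IsAlgClosed (IsLocalRing.ResidueField A)] [CharP (IsLocalRing.ResidueField A) q]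
  [FF.IsFunctionField (IsLocalRing.ResidueField A) (FX (IsLocalRing.ResidueField A) M)]

local notation "kA" => IsLocalRing.ResidueField A
local notation "jk" => jX (IsLocalRing.ResidueField A) M

/-- `hbar` has `(q - 1) ψ (M)` zeros, all of them glued points. -/
theorem degree_zeroDiv_hbar :
    Divisor.degree (zeroDiv kA (hbar M q hq hqM hA)) = ((q - 1) * dedekindPsi M : ℕ) ∧
      ∀ v, 0 < v.ord (hbar M q hq hqM hA) → v ∈ SS M q hq hqM hA := by
  obtain ⟨g, hg0, hgd, hg⟩ := exists_hSer_eq_aeval q hq hA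
  obtain ⟨h1, h2⟩ := degree_zeroDiv_of_eq_aeval (j := jk) (by have := hq.two_le; omega : 1 ≤ q - 1)
    hg0 hgd (h := hbar M q hq hqM hA) (by
      refine (expX kA M).injective ?_
      rw [expX_aeval]
      exact hg) (hbar_ne_zero M q hq hqM hA)
  refine ⟨?_, fun v hv => (mem_SS M q hq hqM hA).mpr ⟨h2 v hv, hv⟩⟩
  rw [h1, degree_poleDiv Cusps.transcendental_jX,
    Cusps.finrank_jX (natCast_ne_zero_residue A hq hA hqM)]
  push_cast
  ring

include hq hqM hA in
/-- The reduced curve of level `M` has the genus of `X₀ (M)`. -/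
theorem genusFF_reduced :
    genusFF kA (FX kA M) = genusFF Qb (FN M Qb) := by
  have hM := natCast_ne_zero_residue A hq hA hqM
  obtain ⟨i1, i2⟩ := isFunctionField_X0 (L := Qb) (A := A) (π := IsLocalRing.residue A)
    IsLocalRing.residue_surjective hM
  have := i1
  have := i2
  obtain ⟨h1, h2⟩ := normal_X0 (L := Qb) (A := A) embC IsLocalRing.residue_surjective hM
  rw [genusFF_congr (specField_X0 (L := Qb) (A := A) (π := IsLocalRing.residue A)
    IsLocalRing.residue_surjective hM).symm,
    (goodModel_level (M := M) hq hqM hA).genus_eq_of_normal h1 h2]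
  exact genusFF_congr (fullC_eq_baseChange Qb M).symm

/-- There are glued points. -/
theorem SS_nonempty : (SS M q hq hqM hA).Nonempty := by
  by_contra hempty
  obtain ⟨hdeg, hsub⟩ := degree_zeroDiv_hbar M q hq hqM hA
  have h0 : zeroDiv kA (hbar M q hq hqM hA) = 0 := Finsupp.ext fun v => by
    rw [zeroDiv_apply, Finsupp.coe_zero, Pi.zero_apply]
    by_contra hne
    exact hempty ⟨v, hsub v (by omega)⟩
  rw [h0, map_zero] at hdeg
  have hq2 := hq.two_le
  have : 0 < (q - 1) * dedekindPsi M :=
    Nat.mul_pos (by omega) (Fermat.RED.dedekindPsi_pos (NeZero.ne M))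
  omega

/-- Without elliptic points `g (X₀ (M q)) + 1 ≤ 2 g (X₀ (M)) + #SS`. -/
theorem count (hne : NoElliptic M) :
    genusFF Qb (FN (M * q) Qb) + 1 ≤ 2 * genusFF kA (FX kA M) + (SS M q hq hqM hA).card := by
  obtain ⟨hdeg, hsub⟩ := degree_zeroDiv_hbar M q hq hqM hA
  have h1 : Divisor.degree (zeroDiv kA (hbar M q hq hqM hA)) ≤
      12 * ((SS M q hq hqM hA).card : ℤ) := by
    classical
    rw [degree_eq_sum, Finsupp.sum]
    have hsupp : ∀ v ∈ (zeroDiv kA (hbar M q hq hqM hA)).support,
        v ∈ SS M q hq hqM hA := fun v hv => hsub v (by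
      simp only [Finsupp.mem_support_iff, zeroDiv_apply] at hv
      omega)
    refine (Finset.sum_le_card_nsmul _ _ 12 fun v hv => ?_).trans ?_
    · rw [zeroDiv_apply]
      exact max_le (ord_hbar_le M q hq hqM hA (hsupp v hv)) (by norm_num)
    · rw [nsmul_eq_mul, mul_comm (12 : ℤ)]
      exact mul_le_mul_of_nonneg_right (by exact_mod_cast Finset.card_le_card hsupp) (by norm_num)
  -- compare with the genus formulas of levels `M q` and `M`
  have hne' : NoElliptic (M * q) := hne.of_dvd (dvd_mul_right M q)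
  have hgF : (genusFF Qb (FN (M * q) Qb) : ℚ) = genusFormula (M * q) := MC.genusFF_FN (M * q) embC
  have hgM : (genusFF Qb (FN M Qb) : ℚ) = genusFormula M := MC.genusFF_FN M embC
  rw [genusFormula, hne'.two, hne'.three, dedekindPsi_mul_prime M q hq,
    if_neg hqM] at hgF
  rw [genusFormula, hne.two, hne.three, ← genusFF_reduced M q hq hqM hA] at hgM
  have h2 : (((q - 1) * dedekindPsi M : ℕ) : ℤ) ≤ 12 * ((SS M q hq hqM hA).card : ℤ) := hdeg ▸ h1
  have h3 : (((q - 1) * dedekindPsi M : ℕ) : ℚ) ≤ 12 * ((SS M q hq hqM hA).card : ℚ) := by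
    exact_mod_cast h2
  have hc : (2 : ℚ) * cuspCount M ≤ cuspCount (M * q) := by
    exact_mod_cast two_mul_cuspCount_le M q hq hqM
  push_cast [Nat.cast_sub hq.one_le] at hgF hgM h3
  have key : (genusFF Qb (FN (M * q) Qb) : ℚ) + 1 ≤
      2 * (genusFF kA (FX kA M) : ℚ) + ((SS M q hq hqM hA).card : ℚ) := by
    nlinarith
  exact_mod_cast key

end Count

end Fermat.BAD.X0

end
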