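import Fermat.Agent.BAD.X0.Value
import Fermat.Agent.RED.Model.IntSeries
import Fermat.Agent.RED.FullField
import Mathlib.RingTheory.Trace.Basic

/-!
# Rational series in a Galois stable space

A finite-dimensional space of series with algebraic coefficients which is stable under the Galois
group contains a nonzero rational series if it is nonzero; by induction the reductions of its
integral members are spanned by the reductions of its rational integral members.
-/

set_option autoImplicit false

noncomputable section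

open ModularCurve

namespace Fermat.BAD.X0

open Fermat.RED Fermat.RED.Model

local notation "Qb" => AlgebraicClosure ℚ

/-- All coefficients are rational. -/
def RatSeries (f : LaurentSeries Qb) : Prop := ∀ n, f.coeff n ∈ Set.range (algebraMap ℚ Qb)

/-- A Galois stable space of series containing a nonzero series with coefficients in a number
field contains a nonzero rational series. -/
theorem exists_ratSeries_ne_zero (V : Submodule Qb (LaurentSeries Qb))
    (hV : ∀ σ : Qb ≃ₐ[ℚ] Qb, ∀ f ∈ V, coeffMap (σ : Qb →+* Qb) f ∈ V)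
    {f : LaurentSeries Qb} (hf : f ∈ V) (hne : f ≠ 0)
    (hco : ∃ L₀ : IntermediateField ℚ Qb, FiniteDimensional ℚ L₀ ∧ ∀ n, f.coeff n ∈ L₀) :
    ∃ r ∈ V, r ≠ 0 ∧ RatSeries r := by
  classical
  obtain ⟨L₀, hfin, hL⟩ := hco
  have := hfin
  obtain ⟨n, hn⟩ : ∃ n, f.coeff n ≠ 0 := by
    by_contra! h
    exact hne (HahnSeries.ext (funext fun n => by simpa using h n))
  set a : L₀ := (⟨_, hL n⟩ : L₀)⁻¹
  have hlift : ∀ e : L₀ →ₐ[ℚ] Qb, ∃ σ : Qb ≃ₐ[ℚ] Qb, ∀ z : L₀, σ (z : Qb) = e z := fun e =>
    ⟨AlgEquiv.ofBijective (e.liftNormal Qb) (Algebra.IsAlgebraic.algHom_bijective _),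
      fun z => e.liftNormal_commutes Qb z⟩
  choose σ hσ using hlift
  have : Nonempty (L₀ →ₐ[ℚ] Qb) := ⟨L₀.val⟩
  refine ⟨∑ e : L₀ →ₐ[ℚ] Qb, e a • coeffMap (σ e : Qb →+* Qb) f,
    sum_mem fun e _ => V.smul_mem _ (hV _ f hf), ?_,
    fun m => ⟨Algebra.trace ℚ L₀ (a * ⟨_, hL m⟩), ?_⟩⟩
  · intro h0
    have h1 := congrArg (fun r : LaurentSeries Qb => r.coeff n) h0
    simp only [HahnSeries.coeff_sum, HahnSeries.coeff_smul, coeffMap_coeff, smul_eq_mul,
      HahnSeries.coeff_zero] at h1
    have h2 : ∀ e : L₀ →ₐ[ℚ] Qb, e a * (σ e : Qb →+* Qb) (f.coeff n) = 1 := fun e => by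
      change e a * σ e (f.coeff n) = 1
      rw [show f.coeff n = ((⟨_, hL n⟩ : L₀) : Qb) from rfl, hσ e, ← map_mul,
        inv_mul_cancel₀ (fun h => hn (congrArg Subtype.val h)), map_one]
    rw [Finset.sum_congr rfl fun e _ => h2 e, Finset.sum_const, Finset.card_univ, nsmul_eq_mul,
      mul_one, Nat.cast_eq_zero] at h1
    exact Fintype.card_ne_zero h1
  · rw [HahnSeries.coeff_sum, trace_eq_sum_embeddings]
    refine Finset.sum_congr rfl fun e _ => ?_
    rw [HahnSeries.coeff_smul, smul_eq_mul, coeffMap_coeff, map_mul]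
    exact congrArg (e a * ·) (hσ e ⟨_, hL m⟩).symm

variable {q : ℕ} (hq : q.Prime) {A : ValuationSubring (AlgebraicClosure ℚ)} (hA : A.LiesOverPrime q)
include hq hA

/-- A nonzero rational series, bounded by an integral scalar, has a rational multiple which is
integral with a coefficient equal to `1`. -/
theorem exists_rat_scale {r : LaurentSeries Qb} (hr0 : r ≠ 0) (hrQ : RatSeries r)
    (hbdd : ∃ a : Qb, a ≠ 0 ∧ a ∈ A ∧ a • r ∈ intSeries A) :
    ∃ c : Qb, c ≠ 0 ∧ c ∈ Set.range (algebraMap ℚ Qb) ∧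
      ∃ n, (c • r).coeff n = 1 ∧ c • r ∈ intSeries A := by
  obtain ⟨n₀, hn₀⟩ : ∃ n, r.coeff n ≠ 0 := by
    by_contra! h
    exact hr0 (HahnSeries.ext (funext fun n => by simpa using h n))
  choose s hs using hrQ
  -- multiply by a power of `q`
  obtain ⟨a, ha0, haA, hai⟩ := hbdd
  obtain ⟨N, t, ht⟩ := arch hq hA (q : A) (by
    rw [IsLocalRing.residue_eq_zero_iff]
    exact (A.valuation_lt_one_iff _).mpr (by push_cast; exact valuation_q_lt_one hA))
    ⟨a, haA⟩ fun h => ha0 (congrArg Subtype.val h)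
  set b : Qb := (q : Qb) ^ N
  have hb0 : b ≠ 0 := pow_ne_zero _ (Nat.cast_ne_zero.mpr hq.ne_zero)
  have hbQ : b ∈ Set.range (algebraMap ℚ Qb) := ⟨(q : ℚ) ^ N, by rw [map_pow, map_natCast]⟩
  have hbi : b • r ∈ intSeries A := by
    have hb : b = (t : Qb) * a := by
      have := congrArg Subtype.val ht
      push_cast at this
      rw [mul_comm] at this
      exact this
    rw [hb, mul_smul, RED.laurent_smul_def]
    exact mul_mem (algebraMap_mem_intSeries t.2) hai
  obtain ⟨n, hn, hint⟩ := exists_scale_of_finite hq hA (⊥ : IntermediateField ℚ Qb) hbi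
    (smul_ne_zero hb0 hr0) (fun m => by
      obtain ⟨b', hb'⟩ := hbQ
      rw [← hb', HahnSeries.coeff_smul, smul_eq_mul, ← hs m, ← map_mul]
      exact IntermediateField.mem_bot.mpr ⟨_, rfl⟩)
  refine ⟨((b • r).coeff n)⁻¹ * b, mul_ne_zero (inv_ne_zero hn) hb0, ?_, n, ?_, ?_⟩
  · obtain ⟨b', hb'⟩ := hbQ
    refine ⟨(b' * s n)⁻¹ * b', ?_⟩
    rw [← hb', HahnSeries.coeff_smul, smul_eq_mul, ← hs n, map_mul, map_inv₀, map_mul]
  · rw [mul_smul, HahnSeries.coeff_smul, smul_eq_mul, inv_mul_cancel₀ hn]
  · rw [mul_smul]; exact hint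

/-- The reductions of the integral members are spanned by those of the rational integral ones. -/
theorem red_mem_span (V : Submodule Qb (LaurentSeries Qb)) [FiniteDimensional Qb V]
    (hV : ∀ σ : Qb ≃ₐ[ℚ] Qb, ∀ f ∈ V, coeffMap (σ : Qb →+* Qb) f ∈ V)
    (hco : ∀ f ∈ V, ∃ L₀ : IntermediateField ℚ Qb, FiniteDimensional ℚ L₀ ∧ ∀ n, f.coeff n ∈ L₀)
    (hbdd : ∀ f ∈ V, ∃ a : Qb, a ≠ 0 ∧ a ∈ A ∧ a • f ∈ intSeries A)
    {y : LaurentSeries A} (hy : coeffMap A.subtype y ∈ V) :
    coeffMap (IsLocalRing.residue A) y ∈ Submodule.span (IsLocalRing.ResidueField A)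
      {z | ∃ r : LaurentSeries A, coeffMap A.subtype r ∈ V ∧ RatSeries (coeffMap A.subtype r) ∧
        z = coeffMap (IsLocalRing.residue A) r} := by
  classical
  induction hd : Module.finrank Qb V using Nat.strong_induction_on generalizing V y with
  | _ d ih =>
  by_cases hy0 : coeffMap A.subtype y = 0
  · have : y = 0 := Model.coeffMap_subtype_injective A (by rw [hy0, map_zero])
    rw [this, map_zero]
    exact zero_mem _
  obtain ⟨r, hrV, hr0, hrQ⟩ := exists_ratSeries_ne_zero V hV hy hy0 (hco _ hy)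
  -- scale so that all coefficients are integral and one of them is `1`
  -- scale so that all coefficients are integral and one of them is `1`
  obtain ⟨c, -, hcQ, n, hvn, hvi⟩ := exists_rat_scale hq hA hr0 hrQ (hbdd r hrV)
  obtain ⟨v, hv⟩ := hvi
  have hvV : coeffMap A.subtype v ∈ V := hv ▸ V.smul_mem c hrV
  have hvQ : RatSeries (coeffMap A.subtype v) := fun m => by
    obtain ⟨c', rfl⟩ := hcQ
    obtain ⟨s, hs⟩ := hrQ m
    exact ⟨c' * s, by rw [hv, HahnSeries.coeff_smul, smul_eq_mul, map_mul, hs]⟩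
  have hvn' : v.coeff n = 1 := Subtype.ext (by
    have h1 := hvn
    rw [← hv, coeffMap_coeff] at h1
    exact h1)
  -- the members with coefficient zero at `n`
  set W : Submodule Qb (LaurentSeries Qb) :=
    V ⊓ { carrier := {w | w.coeff n = 0}
          add_mem' := fun {a b} ha hb => by
            change (a + b).coeff n = 0
            rw [HahnSeries.coeff_add, show a.coeff n = 0 from ha,
              show b.coeff n = 0 from hb, add_zero]
          zero_mem' := HahnSeries.coeff_zero
          smul_mem' := fun a w hw => by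
            change (a • w).coeff n = 0
            rw [HahnSeries.coeff_smul, show w.coeff n = 0 from hw, smul_zero] }
  have hWV : W < V := lt_of_le_of_ne inf_le_left fun h => by
    have h1 : coeffMap A.subtype v ∈ W := h ▸ hvV
    have h2 : (coeffMap A.subtype v).coeff n = 0 := h1.2
    rw [coeffMap_coeff, hvn', map_one] at h2
    exact one_ne_zero h2
  have : FiniteDimensional Qb W := Submodule.finiteDimensional_of_le hWV.le
  have hy' : coeffMap A.subtype (y - HahnSeries.C (y.coeff n) * v) ∈ W := by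
    refine ⟨?_, ?_⟩
    · rw [map_sub, map_mul]
      refine sub_mem hy ?_
      rw [show coeffMap A.subtype (HahnSeries.C (y.coeff n)) * coeffMap A.subtype v =
        ((y.coeff n : A) : Qb) • coeffMap A.subtype v by
          rw [HahnSeries.C_apply, coeffMap_single, ← HahnSeries.C_apply,
            HahnSeries.C_mul_eq_smul]; rfl]
      exact V.smul_mem _ hvV
    · change (coeffMap A.subtype (y - HahnSeries.C (y.coeff n) * v)).coeff n = 0
      rw [coeffMap_coeff, HahnSeries.coeff_sub, HahnSeries.C_apply,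
        HahnSeries.coeff_single_zero_mul, hvn', mul_one, sub_self, map_zero]
  have hsub := ih (Module.finrank Qb W) (hd ▸ Submodule.finrank_lt_finrank_of_lt hWV) W
    (fun σ w hw => ⟨hV σ w hw.1, by
      change (coeffMap (σ : Qb →+* Qb) w).coeff n = 0
      rw [coeffMap_coeff, show w.coeff n = 0 from hw.2, map_zero]⟩)
    (fun w hw => hco w hw.1) (fun w hw => hbdd w hw.1) hy' rfl
  have hmono : Submodule.span (IsLocalRing.ResidueField A)
      {z | ∃ r : LaurentSeries A, coeffMap A.subtype r ∈ W ∧ RatSeries (coeffMap A.subtype r) ∧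
        z = coeffMap (IsLocalRing.residue A) r} ≤ Submodule.span (IsLocalRing.ResidueField A)
      {z | ∃ r : LaurentSeries A, coeffMap A.subtype r ∈ V ∧ RatSeries (coeffMap A.subtype r) ∧
        z = coeffMap (IsLocalRing.residue A) r} :=
    Submodule.span_mono fun z ⟨r, hr, h2, h3⟩ => ⟨r, hr.1, h2, h3⟩
  have e : coeffMap (IsLocalRing.residue A) y =
      coeffMap (IsLocalRing.residue A) (y - HahnSeries.C (y.coeff n) * v) +
        IsLocalRing.residue A (y.coeff n) • coeffMap (IsLocalRing.residue A) v := by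
    rw [map_sub, map_mul, HahnSeries.C_apply, coeffMap_single, ← HahnSeries.C_apply,
      HahnSeries.C_mul_eq_smul, sub_add_cancel]
  rw [e]
  exact add_mem (hmono hsub) (Submodule.smul_mem _ _ (Submodule.subset_span ⟨v, hvV, hvQ, rfl⟩))

end Fermat.BAD.X0

end
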