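import Fermat.Agent.BAD.X0.Value
import Fermat.Agent.RED.FullField
import Fermat.Agent.RED.UnitArg

/-!
# Bounded expansions, for a function field with an expansion

Stated for an abstract field, so that the concrete modular function fields are never unfolded.
-/

set_option autoImplicit false

noncomputable section

open ModularCurve

namespace Fermat.BAD.X0

open Fermat.RED.Model

local notation "Qb" => AlgebraicClosure ℚ

variable {F : Type*} [Field F] [Algebra Qb F] {ι : F →+* LaurentSeries Qb}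
  {A : ValuationSubring (AlgebraicClosure ℚ)}
  (hι : ∀ c, ι (algebraMap Qb F c) = algebraMap Qb (LaurentSeries Qb) c)

include hι in
/-- An expansion fixing constants is linear. -/
theorem emb_smul (a : Qb) (f : F) : ι (a • f) = algebraMap Qb _ a * ι f := by
  rw [Algebra.smul_def, map_mul, hι]

include hι in
/-- Integral multiples of functions with integral expansion have integral expansion. -/
theorem emb_smul_int {a : Qb} {f : F} (ha : a ∈ A) (hf : ι f ∈ intSeries A) :
    ι (a • f) ∈ intSeries A := by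
  rw [emb_smul hι]; exact mul_mem (algebraMap_mem_intSeries ha) hf

include hι in
/-- Polynomials in functions with integral expansions have bounded expansions. -/
theorem bdd_adjoin (S : Set F) (hS : ∀ x ∈ S, ι x ∈ intSeries A) {P : F}
    (hP : P ∈ Algebra.adjoin Qb S) : ∃ a : Qb, a ≠ 0 ∧ ι (a • P) ∈ intSeries A := by
  induction hP using Algebra.adjoin_induction with
  | mem z hz => exact ⟨1, one_ne_zero, by rw [one_smul]; exact hS z hz⟩
  | algebraMap c =>
    rcases eq_or_ne c 0 with rfl | hc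
    · exact ⟨1, one_ne_zero, by rw [map_zero, smul_zero, map_zero]; exact zero_mem _⟩
    · refine ⟨c⁻¹, inv_ne_zero hc, ?_⟩
      rw [emb_smul hι, hι, ← map_mul, inv_mul_cancel₀ hc, map_one]
      exact one_mem _
  | add x y _ _ hx hy =>
    obtain ⟨a, ha, hax⟩ := hx
    obtain ⟨a', ha', hay⟩ := hy
    rcases A.mem_or_inv_mem (a / a') with h | h
    · refine ⟨a, ha, ?_⟩
      rw [smul_add, map_add, show a • y = (a / a') • a' • y by
        rw [smul_smul, div_mul_cancel₀ _ ha']]
      exact add_mem hax (emb_smul_int hι h hay)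
    · refine ⟨a', ha', ?_⟩
      rw [smul_add, map_add, show a' • x = (a / a')⁻¹ • a • x by
        rw [smul_smul, inv_div, div_mul_cancel₀ _ ha]]
      exact add_mem (emb_smul_int hι h hax) hay
  | mul x y _ _ hx hy =>
    obtain ⟨a, ha, hax⟩ := hx
    obtain ⟨a', ha', hay⟩ := hy
    refine ⟨a * a', mul_ne_zero ha ha', ?_⟩
    rw [← smul_mul_smul_comm, map_mul]
    exact mul_mem hax hay

variable {q : ℕ} (hq : q.Prime) (hA : A.LiesOverPrime q)
include hq hA

include hι in
/-- An integral expansion over a number field attains its maximum. -/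
theorem attained_of_coeff {f : F} (hf0 : f ≠ 0) (hf : ι f ∈ intSeries A)
    (L₀ : IntermediateField ℚ Qb) [FiniteDimensional ℚ L₀] (hL : ∀ n, (ι f).coeff n ∈ L₀) :
    ∃ a : Qb, ι (a • f) ∈ intSeries A ∧ redF (IsLocalRing.residue A) ι (a • f) ≠ 0 := by
  obtain ⟨n, hn, hint⟩ := exists_scale_of_finite hq hA L₀ hf
    ((map_ne_zero_iff _ ι.injective).mpr hf0) hL
  have he : ι (((ι f).coeff n)⁻¹ • f) = ((ι f).coeff n)⁻¹ • ι f := by
    rw [emb_smul hι, Fermat.RED.laurent_smul_def]
  refine ⟨((ι f).coeff n)⁻¹, by rw [he]; exact hint, fun h0 => ?_⟩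
  rw [redF_of_mem (by rw [he]; exact hint)] at h0
  have h1 := congrArg (fun z : LaurentSeries (IsLocalRing.ResidueField A) => z.coeff n) h0
  simp only [redHom_coeff, HahnSeries.coeff_zero] at h1
  refine one_ne_zero ((map_one (IsLocalRing.residue A)).symm.trans (Eq.trans (congrArg _ ?_) h1))
  refine Subtype.ext ?_
  change (1 : Qb) = (ι (((ι f).coeff n)⁻¹ • f)).coeff n
  rw [he, HahnSeries.coeff_smul, smul_eq_mul, inv_mul_cancel₀ hn]

include hι in
/-- A primitive denominator with bounded numerator. -/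
theorem denom_of_div (S : Set F) (hS : ∀ x ∈ S, ι x ∈ intSeries A)
    (hcoef : ∀ f : F, ∃ L₀ : IntermediateField ℚ Qb, FiniteDimensional ℚ L₀ ∧
      ∀ n, (ι f).coeff n ∈ L₀)
    {f P Q : F} (hP : P ∈ Algebra.adjoin Qb S) (hQ : Q ∈ Algebra.adjoin Qb S) (hQ0 : Q ≠ 0)
    (hfQ : f * Q = P) :
    ∃ (u : F) (a : Qb), u ∈ Algebra.adjoin Qb S ∧ f * u ∈ Algebra.adjoin Qb S ∧ a ≠ 0 ∧
      ι u ∈ intSeries A ∧ redF (IsLocalRing.residue A) ι u ≠ 0 ∧ ι (a • (f * u)) ∈ intSeries A := by
  obtain ⟨a₁, ha₁, hQi⟩ := bdd_adjoin hι S hS hQ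
  obtain ⟨L₀, hfin, hL⟩ := hcoef (a₁ • Q)
  have := hfin
  obtain ⟨a₂, ha₂i, ha₂⟩ := attained_of_coeff hι hq hA (smul_ne_zero ha₁ hQ0) hQi L₀ hL
  have hmem : f * (a₂ • a₁ • Q) ∈ Algebra.adjoin Qb S := by
    rw [mul_smul_comm, mul_smul_comm, hfQ]
    exact Subalgebra.smul_mem _ (Subalgebra.smul_mem _ hP a₁) a₂
  obtain ⟨a₃, ha₃, hPi⟩ := bdd_adjoin hι S hS hmem
  exact ⟨a₂ • a₁ • Q, a₃, Subalgebra.smul_mem _ (Subalgebra.smul_mem _ hQ a₁) a₂, hmem, ha₃,
    ha₂i, ha₂, hPi⟩

include hι in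
/-- The reductions of integral expansions lie in `K` if those of integral polynomials do. -/
theorem redF_mem_of_polys (S : Set F) (hS : ∀ x ∈ S, ι x ∈ intSeries A)
    (hcoef : ∀ f : F, ∃ L₀ : IntermediateField ℚ Qb, FiniteDimensional ℚ L₀ ∧
      ∀ n, (ι f).coeff n ∈ L₀)
    (hdiv : ∀ f : F, ∃ P ∈ Algebra.adjoin Qb S, ∃ Q ∈ Algebra.adjoin Qb S, Q ≠ 0 ∧ f * Q = P)
    (K : IntermediateField (IsLocalRing.ResidueField A)
      (LaurentSeries (IsLocalRing.ResidueField A)))
    (hK : ∀ z ∈ Algebra.adjoin Qb S, ι z ∈ intSeries A → redF (IsLocalRing.residue A) ι z ∈ K)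
    (f : F) (hf : ι f ∈ intSeries A) : redF (IsLocalRing.residue A) ι f ∈ K := by
  obtain ⟨P, hP, Q, hQ, hQ0, hfQ⟩ := hdiv f
  obtain ⟨u, a, hu, hfu, -, hui, hu0, -⟩ := denom_of_div hι hq hA S hS hcoef hP hQ hQ0 hfQ
  have hfui : ι (f * u) ∈ intSeries A := by rw [map_mul]; exact mul_mem hf hui
  have h1 := hK _ hfu hfui
  rw [redF_mul hf hui] at h1
  have h3 := div_mem h1 (hK u hu hui)
  rwa [mul_div_cancel_right₀ _ hu0] at h3

include hι in
/-- Multiplying by a power of a function with expansion divisible by `q` makes a bounded expansion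
integral. -/
theorem exists_pow_mul_int {s z : F} {w : LaurentSeries A}
    (hs : ι s = algebraMap Qb _ (q : Qb) * coeffMap A.subtype w) {a : Qb} (ha : a ≠ 0)
    (hz : ι (a • z) ∈ intSeries A) : ∃ N : ℕ, ι (s ^ N * z) ∈ intSeries A := by
  obtain ⟨c, hc, hca⟩ : ∃ c : A, c ≠ 0 ∧ ((c : Qb)) / a ∈ A := by
    rcases A.mem_or_inv_mem a with h | h
    · exact ⟨⟨a, h⟩, fun h0 => ha (congrArg Subtype.val h0), by rw [div_self ha]; exact one_mem A⟩
    · exact ⟨1, one_ne_zero, by rw [OneMemClass.coe_one, one_div]; exact h⟩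
  obtain ⟨N, t, ht⟩ := arch hq hA (q : A) (by
    rw [IsLocalRing.residue_eq_zero_iff]
    exact (A.valuation_lt_one_iff _).mpr (by push_cast; exact valuation_q_lt_one hA)) c hc
  have hcN : (q : Qb) ^ N / a ∈ A := by
    have h1 : (q : Qb) ^ N = (c : Qb) * (t : Qb) := by
      have := congrArg Subtype.val ht
      push_cast at this
      exact this
    rw [h1, mul_div_right_comm]
    exact mul_mem hca t.2
  refine ⟨N, ?_⟩
  rw [emb_smul hι] at hz
  have key : ι (s ^ N * z) = algebraMap Qb (LaurentSeries Qb) ((q : Qb) ^ N / a) *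
      coeffMap A.subtype w ^ N * (algebraMap Qb _ a * ι z) := by
    have hd : algebraMap Qb (LaurentSeries Qb) ((q : Qb) ^ N) =
        algebraMap Qb (LaurentSeries Qb) ((q : Qb) ^ N / a) * algebraMap Qb _ a := by
      rw [← map_mul, div_mul_cancel₀ _ ha]
    rw [map_mul, map_pow, hs, mul_pow, ← map_pow, hd]
    ring
  rw [key]
  exact mul_mem (mul_mem (algebraMap_mem_intSeries hcN)
    (pow_mem (show coeffMap A.subtype w ∈ intSeries A from ⟨w, rfl⟩) N)) hz

end Fermat.BAD.X0

end
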