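import Fermat.Agent.RED.Congruence.Norm

/-!
# Reduction of expansions of trace and norm type

A series `z` with `z (t ^ q)` equal to a series in `t ^ q` plus (or times) the `q` twists of another
series `yd` reduces to the first series (times the Frobenius transform of `yd`).
-/

set_option autoImplicit false
set_option linter.unusedSectionVars false

noncomputable section

open ModularCurve

namespace Fermat.BAD.X0

open Fermat.RED

variable {L : Type*} [Field L] {A : ValuationSubring L}
variable {k : Type*} [Field k] {π : A →+* k}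
variable {q : ℕ} [hqf : Fact q.Prime] [NeZero q] [CharP k q]

/-- The `q`-th roots of unity are units of the valuation ring with residue `1`. -/
theorem exists_unit_root {ζ : Lˣ} (hζ : IsPrimitiveRoot (ζ : L) q) :
    ∃ uu : Aˣ, (∀ i : ℕ, Units.map (A.subtype : A →* L) (uu ^ i) = ζ ^ i) ∧
      Units.map (π : A →* k) uu = 1 := by
  have hζA : (ζ : L) ∈ A := Model.mem_of_pow_eq_one (NeZero.ne q) hζ.pow_eq_one
  have hu : (⟨ζ, hζA⟩ : A) ^ q = 1 := Subtype.ext hζ.pow_eq_one
  refine ⟨Units.ofPowEqOne _ q hu (NeZero.ne q), fun i => ?_, Units.ext ?_⟩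
  · rw [map_pow]
    congr 1
    exact Units.ext rfl
  · change π ⟨ζ, hζA⟩ = 1
    refine sub_eq_zero.mp (pow_eq_zero_iff (n := q) (NeZero.ne q) |>.mp ?_)
    rw [sub_pow_char, ← map_pow, hu, map_one, one_pow, sub_self]

/-- Descending `q`-expanded series over `A`. -/
theorem exists_descend {z : LaurentSeries L} {w : LaurentSeries A}
    (hw : coeffMap A.subtype w = qExpand L q z) :
    ∃ y' : LaurentSeries A, z = coeffMap A.subtype y' ∧ qExpand A q y' = w := by
  have hint : ∀ n, z.coeff n ∈ A := fun n => by
    rw [← qExpand_coeff_mul q z n, ← hw, coeffMap_coeff]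
    exact SetLike.coe_mem _
  obtain ⟨y', hy'⟩ := Model.mem_intSeries_iff.mpr hint
  exact ⟨y', hy'.symm, Model.coeffMap_subtype_injective A
    (by rw [ModularCurve.coeffMap_qExpand, hy', hw])⟩

/-- The reduction of an expansion of trace type: the `q` conjugate branches cancel. -/
theorem exists_reduction_of_trace {ζ : Lˣ} (hζ : IsPrimitiveRoot (ζ : L) q) {z : LaurentSeries L}
    {y yd : LaurentSeries A}
    (hz : qExpand L q z = qExpand L q (coeffMap A.subtype y) +
      ∑ i : Fin q, twist (ζ ^ (i : ℕ)) (coeffMap A.subtype yd)) :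
    ∃ y' : LaurentSeries A, z = coeffMap A.subtype y' ∧ coeffMap π y' = coeffMap π y := by
  obtain ⟨uu, hmap, hπu⟩ := exists_unit_root (A := A) (π := π) hζ
  obtain ⟨y', h1, h2⟩ := exists_descend (q := q) (z := z)
    (w := qExpand A q y + ∑ i : Fin q, twist (uu ^ (i : ℕ)) yd) (by
      rw [hz]
      simp only [map_add, map_sum, ModularCurve.coeffMap_qExpand, coeffMap_twist, hmap])
  refine ⟨y', h1, (qExpand k q).injective ?_⟩
  rw [← ModularCurve.coeffMap_qExpand, h2, map_add, ModularCurve.coeffMap_qExpand, map_sum,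
    Finset.sum_eq_card_nsmul (b := coeffMap π yd) fun i _ => by
      rw [coeffMap_twist, map_pow, hπu, one_pow, twist_one_apply],
    Finset.card_univ, Fintype.card_fin, nsmul_eq_mul,
    show ((q : ℕ) : LaurentSeries k) = 0 from by
      rw [← map_natCast (algebraMap k (LaurentSeries k)), CharP.cast_eq_zero, map_zero],
    zero_mul, add_zero]

/-- The reduction of an expansion of norm type. -/
theorem exists_reduction_of_norm_type {ζ : Lˣ} (hζ : IsPrimitiveRoot (ζ : L) q)
    {z : LaurentSeries L}
    {y yd : LaurentSeries A}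
    (hz : qExpand L q z = qExpand L q (coeffMap A.subtype y) *
      ∏ i : Fin q, twist (ζ ^ (i : ℕ)) (coeffMap A.subtype yd)) :
    ∃ y' : LaurentSeries A, z = coeffMap A.subtype y' ∧
      coeffMap π y' = coeffMap π y * coeffMap (frobenius k q) (coeffMap π yd) := by
  obtain ⟨uu, hmap, hπu⟩ := exists_unit_root (A := A) (π := π) hζ
  obtain ⟨y', h1, h2⟩ := exists_descend (q := q) (z := z)
    (w := qExpand A q y * ∏ i : Fin q, twist (uu ^ (i : ℕ)) yd) (by
      rw [hz]
      simp only [map_mul, map_prod, ModularCurve.coeffMap_qExpand, coeffMap_twist, hmap])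
  refine ⟨y', h1, (qExpand k q).injective ?_⟩
  rw [← ModularCurve.coeffMap_qExpand, h2, map_mul, map_mul,
    ModularCurve.coeffMap_qExpand, map_prod]
  congr 1
  rw [Finset.prod_eq_pow_card (b := coeffMap π yd) fun i _ => by
    rw [coeffMap_twist, map_pow, hπu, one_pow, twist_one_apply], Finset.card_univ, Fintype.card_fin,
    laurent_pow_char q (coeffMap π yd)]

end Fermat.BAD.X0

end
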