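import Fermat.Agent.BAD.X0.Setup
import Fermat.Agent.BAD.X0.Branches
import Fermat.Agent.BAD.X0.Bounded
import Fermat.Agent.RED.Model.X0Normal
import Fermat.Agent.RED.Spec.X0

/-!
# Integral expansions at a prime exactly dividing the level

Every function is a quotient of polynomials in the `j (d z)`, so after multiplication by a
primitive denominator its two expansions are bounded; bounded expansions attain their maximum;
the reduction at `∞` of an integral expansion lies in the function field of level `M` in
characteristic `q`.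
-/

set_option autoImplicit false
set_option linter.unusedSectionVars false

attribute [local instance 10000] SubalgebraClass.toAlgebra HahnSeries.powerSeriesAlgebra

noncomputable section

open ModularCurve IntermediateField

namespace Fermat.BAD.X0

open Fermat.MC Fermat.JAC.X0 Fermat.RED Fermat.RED.Model

local notation "Qb" => AlgebraicClosure ℚ

variable (M q : ℕ) [NeZero M] [NeZero q] (hq : q.Prime) (hqM : ¬ q ∣ M)
variable {A : ValuationSubring (AlgebraicClosure ℚ)} (hA : A.LiesOverPrime q)

/-- The series `j (e z)` is integral. -/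
theorem jb_mem (e : ℕ) [NeZero e] : qExpand Qb e (jqModC Qb) ∈ intSeries A :=
  ⟨qExpand A e (jqModC A), by rw [ModularCurve.coeffMap_qExpand, coeffMap_subtype_jqModC]⟩

/-- The generators `j (d z)` have integral expansions at both cusps. -/
theorem emb_jdL (b : Bool) (d : DivIdx (M * q)) :
    emb M q hq hqM b (jdL Qb d) ∈ intSeries A := by
  cases b
  · rw [emb_false, alW_jdL, coe_jdL]; exact jb_mem _
  · rw [emb_true, coe_jdL]; exact jb_mem _

/-- The polynomials in the `j (d z)`. -/
def polyAlg : Subalgebra Qb (FN (M * q) Qb) :=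
  Algebra.adjoin Qb (Set.range fun d : DivIdx (M * q) => jdL Qb d)

/-- The polynomials in the `j (d z)` give quotients. -/
theorem exists_div_jdL (N : ℕ) [NeZero N] (f : FN N Qb) :
    ∃ P ∈ Algebra.adjoin Qb (Set.range fun d : DivIdx N => jdL Qb d),
      ∃ Q ∈ Algebra.adjoin Qb (Set.range fun d : DivIdx N => jdL Qb d), Q ≠ 0 ∧ f * Q = P := by
  have hf : (f : LaurentSeries Qb) ∈
      adjoin Qb (Set.range fun d : DivIdx N => (jdL Qb d : LaurentSeries Qb)) := by
    rw [← adjoin_jdL]; exact f.2
  obtain ⟨r, hr, s, hs, hrs⟩ := mem_adjoin_iff_div.mp hf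
  have himg : ∀ z ∈ Algebra.adjoin Qb
      (Set.range fun d : DivIdx N => (jdL Qb d : LaurentSeries Qb)),
      ∃ P ∈ Algebra.adjoin Qb (Set.range fun d : DivIdx N => jdL Qb d),
        (P : LaurentSeries Qb) = z := by
    intro z hz
    have e : Algebra.adjoin Qb (Set.range fun d : DivIdx N => (jdL Qb d : LaurentSeries Qb)) =
        (Algebra.adjoin Qb (Set.range fun d : DivIdx N => jdL Qb d)).map (FN N Qb).val := by
      rw [AlgHom.map_adjoin, ← Set.range_comp]
      rfl
    rw [e] at hz
    exact hz
  obtain ⟨P, hP, rfl⟩ := himg r hr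
  obtain ⟨Q, hQ, rfl⟩ := himg s hs
  by_cases hQ0 : Q = 0
  · refine ⟨0, zero_mem _, 1, one_mem _, one_ne_zero, ?_⟩
    rw [mul_one]
    refine Subtype.ext ?_
    rw [hrs, hQ0]
    simp
  · refine ⟨P, hP, Q, hQ, hQ0, Subtype.ext ?_⟩
    rw [MulMemClass.coe_mul, hrs, div_mul_cancel₀]
    exact fun h => hQ0 (Subtype.ext h)

/-- Every function of level `M q` is a quotient of two members of `polyAlg`. -/
theorem exists_eq_div (f : FN (M * q) Qb) :
    ∃ P ∈ polyAlg M q, ∃ Q ∈ polyAlg M q, Q ≠ 0 ∧ f * Q = P :=
  exists_div_jdL (M * q) f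

/-- Both expansions of a function have coefficients in a number field. -/
theorem coeff_mem (b : Bool) (f : FN (M * q) Qb) :
    ∃ L₀ : IntermediateField ℚ Qb, FiniteDimensional ℚ L₀ ∧
      ∀ n, (emb M q hq hqM b f).coeff n ∈ L₀ := by
  cases b
  · exact coeff_mem_of_fixed (alW M q hq hqM f)
  · exact coeff_mem_of_fixed f

/-- `emb_jdL`, on the set of generators. -/
theorem emb_range_jdL (b : Bool) :
    ∀ x ∈ Set.range (fun d : DivIdx (M * q) => jdL Qb d),
      emb M q hq hqM b x ∈ intSeries A := by
  rintro _ ⟨d, rfl⟩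
  exact emb_jdL M q hq hqM b d

/-- Polynomials in the `j (d z)` have bounded expansions. -/
theorem bdd_polyAlg {P : FN (M * q) Qb} (hP : P ∈ polyAlg M q) (b : Bool) :
    ∃ a : Qb, a ≠ 0 ∧ emb M q hq hqM b (a • P) ∈ intSeries A :=
  bdd_adjoin (emb_algebraMap M q hq hqM b) _ (emb_range_jdL M q hq hqM b) hP

include hq hA in
/-- A nonzero function with integral expansion has a multiple with nonzero reduction. -/
theorem attained (b : Bool) (f : FN (M * q) Qb) (hf0 : f ≠ 0)
    (hf : emb M q hq hqM b f ∈ intSeries A) :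
    ∃ a : Qb, emb M q hq hqM b (a • f) ∈ intSeries A ∧
      redF (IsLocalRing.residue A) (emb M q hq hqM b) (a • f) ≠ 0 := by
  obtain ⟨L₀, hfin, hL⟩ := coeff_mem M q hq hqM b f
  have := hfin
  exact attained_of_coeff (emb_algebraMap M q hq hqM b) hq hA hf0 hf L₀ hL

include hq hA in
/-- Every function has a primitive denominator with bounded numerator. -/
theorem denom (b : Bool) (f : FN (M * q) Qb) :
    ∃ (u : FN (M * q) Qb) (a : Qb), a ≠ 0 ∧ emb M q hq hqM b u ∈ intSeries A ∧
      redF (IsLocalRing.residue A) (emb M q hq hqM b) u ≠ 0 ∧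
      emb M q hq hqM b (a • (f * u)) ∈ intSeries A := by
  obtain ⟨P, hP, Q, hQ, hQ0, hfQ⟩ := exists_eq_div M q f
  obtain ⟨u, a, -, -, h⟩ := denom_of_div (emb_algebraMap M q hq hqM b) hq hA _
    (emb_range_jdL M q hq hqM b) (coeff_mem M q hq hqM b) hP hQ hQ0 hfQ
  exact ⟨u, a, h⟩

section Reduction

variable [Fact q.Prime]

/-- An integral series in the field of level `N` reduces into that field in characteristic prime to
`N`. -/
theorem mem_fullC_of_coe {L : Type*} [Field L] [IsAlgClosed L] [CharZero L] {B : ValuationSubring L}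
    {k : Type*} [Field k] {π : B →+* k} (hπ : Function.Surjective π) {N : ℕ} [NeZero N]
    (hN : (N : k) ≠ 0) (y : LaurentSeries B)
    (hy : coeffMap B.subtype y ∈ modularFunctionFieldFullC L N) :
    coeffMap π y ∈ modularFunctionFieldFullC k N := by
  rw [← specField_X0 (L := L) (A := B) hπ hN]
  have hx : expX L N ⟨_, hy⟩ ∈ intSeries B := ⟨y, rfl⟩
  have h : redF π (expX L N) ⟨_, hy⟩ = coeffMap π y :=
    (redF_of_mem hx).trans (redHom_coeffMap π y hx)
  rw [← h]
  exact redF_mem_specField _ _ _

include hA hqM hq in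
/-- The reduction of a function of level `M` with integral expansion lies in the reduced field. -/
theorem redF_mem_K (x : FN M Qb) (y : LaurentSeries A)
    (hy : (x : LaurentSeries Qb) = coeffMap A.subtype y) :
    coeffMap (IsLocalRing.residue A) y ∈
      modularFunctionFieldFullC (IsLocalRing.ResidueField A) M :=
  mem_fullC_of_coe IsLocalRing.residue_surjective (natCast_ne_zero_residue A hq hA hqM) y
    (by rw [← hy, ← fullC_eq_baseChange Qb M]; exact x.2)

include hA hq in
/-- The trace to level `M` of a function with integral expansions reduces to the reduction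
at `∞`. -/
theorem trA_reduction (f : FN (M * q) Qb) (h : ∀ b, emb M q hq hqM b f ∈ intSeries A) :
    ∃ y : LaurentSeries A,
      ((trA (heckeAlphaBar Qb M q) f : FN M Qb) : LaurentSeries Qb) = coeffMap A.subtype y ∧
      coeffMap (IsLocalRing.residue A) y =
        redF (IsLocalRing.residue A) (emb M q hq hqM true) f := by
  have := charP_residue hq hA
  obtain ⟨ζ, hζ⟩ := exists_zeta q
  obtain ⟨y, hy⟩ := id (h true)
  obtain ⟨yd, hyd⟩ := id (h false)
  obtain ⟨y', h1, h2⟩ := exists_reduction_of_trace (π := IsLocalRing.residue A) hζ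
    (z := ((trA (heckeAlphaBar Qb M q) f : FN M Qb) : LaurentSeries Qb)) (y := y) (yd := yd)
    (by rw [hy, hyd]; exact qExpand_trA M q hq hqM hζ f)
  refine ⟨y', h1, h2.trans ?_⟩
  rw [redF_of_mem (h true), ← redHom_coeffMap (IsLocalRing.residue A) y ⟨y, rfl⟩]
  exact congrArg _ (Subtype.ext hy)

/-- `j (z) - j (q z) ^ q`: it reduces to `0` on the component at `0` only. -/
def separator : FN (M * q) Qb :=
  heckeAlphaBar Qb M q (jL M Qb) - heckeBetaBar Qb M q (jL M Qb) ^ q

/-- Kronecker's congruence on expansions: `j (q ^ q) ≡ j (q) ^ q` modulo `q`. -/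
theorem exists_qExpand_jqModC_sub_pow (R : Type*) [CommRing R] :
    ∃ z : LaurentSeries R, qExpand R q (jqModC R) - jqModC R ^ q = (q : LaurentSeries R) * z := by
  suffices h : ∃ z : LaurentSeries ℤ,
      qExpand ℤ q (jqModC ℤ) - jqModC ℤ ^ q = (q : LaurentSeries ℤ) * z by
    obtain ⟨z, hz⟩ := h
    refine ⟨coeffMap (Int.castRingHom R) z, ?_⟩
    have := congrArg (coeffMap (Int.castRingHom R)) hz
    simpa only [map_sub, map_pow, map_mul, map_natCast, ModularCurve.coeffMap_qExpand,
      coeffMap_jqModC] using this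
  have hd : ∀ n, (q : ℤ) ∣ (qExpand ℤ q (jqModC ℤ) - jqModC ℤ ^ q).coeff n := fun n => by
    rw [← ZMod.intCast_zmod_eq_zero_iff_dvd]
    have hz : coeffMap (Int.castRingHom (ZMod q)) (qExpand ℤ q (jqModC ℤ) - jqModC ℤ ^ q) = 0 := by
      rw [map_sub, map_pow, ModularCurve.coeffMap_qExpand, coeffMap_jqModC,
        laurent_pow_char q (jqModC (ZMod q)), coeffMap_jqModC, sub_self]
    have := congrArg (fun s : LaurentSeries (ZMod q) => s.coeff n) hz
    simpa only [coeffMap_coeff, HahnSeries.coeff_zero, eq_intCast] using this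
  choose c hc using hd
  have hb : BddBelow (Function.support c) :=
    ⟨(qExpand ℤ q (jqModC ℤ) - jqModC ℤ ^ q).order, fun n hn => le_of_not_gt fun hlt =>
      hn ((mul_eq_zero.mp ((hc n).symm.trans
        (HahnSeries.coeff_eq_zero_of_lt_order hlt))).resolve_left
          (by exact_mod_cast NeZero.ne q))⟩
  refine ⟨HahnSeries.ofSuppBddBelow c hb, ?_⟩
  ext n
  rw [← nsmul_eq_mul, HahnSeries.coeff_smul, nsmul_eq_mul]
  exact hc n

/-- The expansion of the separator at `∞`. -/
theorem emb_true_separator :
    emb M q hq hqM true (separator M q) =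
      jqModC Qb - qExpand Qb q (jqModC Qb) ^ q := by
  rw [separator, map_sub, map_pow, emb_true_alpha, emb_true_beta, coe_jL]

/-- The expansion of the separator at `0`. -/
theorem emb_false_separator :
    emb M q hq hqM false (separator M q) =
      qExpand Qb q (jqModC Qb) - jqModC Qb ^ q := by
  rw [separator, map_sub, map_pow, emb_false_alpha, emb_false_beta, coe_jL]

/-- The separator has integral expansions. -/
theorem separator_int (b : Bool) : emb M q hq hqM b (separator M q) ∈ intSeries A := by
  cases b
  · rw [emb_false_separator]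
    exact sub_mem (jb_mem q) (pow_mem jqModC_mem_intSeries q)
  · rw [emb_true_separator]
    exact sub_mem jqModC_mem_intSeries (pow_mem (jb_mem q) q)

/-- The separator has nonzero reduction at `∞`. -/
theorem redF_separator_ne :
    redF (IsLocalRing.residue A) (emb M q hq hqM true) (separator M q) ≠ 0 := by
  intro h0
  rw [redF_of_mem (separator_int M q hq hqM true)] at h0
  have h1 := congrArg (fun z : LaurentSeries (IsLocalRing.ResidueField A) =>
    z.coeff (-((q : ℤ) * q))) h0
  simp only [redHom_coeff, HahnSeries.coeff_zero] at h1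
  refine (one_ne_zero : (1 : IsLocalRing.ResidueField A) ≠ 0) ?_
  rw [← neg_eq_zero, ← map_one (IsLocalRing.residue A), ← map_neg]
  refine Eq.trans (congrArg _ (Subtype.ext ?_)) h1
  change ((-1 : A) : Qb) = (emb M q hq hqM true (separator M q)).coeff (-((q : ℤ) * q))
  rw [emb_true_separator, HahnSeries.coeff_sub, NegMemClass.coe_neg, OneMemClass.coe_one]
  have hjb : qExpand Qb q (jqModC Qb) ^ q = qExpand Qb q (jqModC Qb ^ q) := (map_pow _ _ _).symm
  have hlt : (2 : ℕ) * 2 ≤ q * q := Nat.mul_le_mul hq.two_le hq.two_le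
  rw [hjb, show (-((q : ℤ) * q)) = (q : ℤ) * (-(q : ℤ)) by ring, qExpand_coeff_mul,
    coeff_jqModC_pow_self]
  have h2 : (jqModC Qb).coeff ((q : ℤ) * -(q : ℤ)) = 0 := by
    have := coeff_jqModC_pow_of_lt Qb (b := 1) (m := (q : ℤ) * -(q : ℤ))
      (by have : (4 : ℤ) ≤ (q : ℤ) * q := by exact_mod_cast hlt
          push_cast
          linarith)
    rwa [pow_one] at this
  rw [h2, zero_sub]

include hA hq in
/-- The reduction at `∞` of an integral expansion lies in the field of level `M`. -/
theorem redF_true_mem (f : FN (M * q) Qb) (hf : emb M q hq hqM true f ∈ intSeries A) :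
    redF (IsLocalRing.residue A) (emb M q hq hqM true) f ∈
      modularFunctionFieldFullC (IsLocalRing.ResidueField A) M := by
  refine redF_mem_of_polys (emb_algebraMap M q hq hqM true) hq hA _
    (emb_range_jdL M q hq hqM true) (coeff_mem M q hq hqM true) (exists_eq_div M q) _
    (fun z hz hzi => ?_) f hf
  have hboth : ∀ w : FN (M * q) Qb, (∀ b, emb M q hq hqM b w ∈ intSeries A) →
      redF (IsLocalRing.residue A) (emb M q hq hqM true) w ∈
        modularFunctionFieldFullC (IsLocalRing.ResidueField A) M := fun w hw => by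
    obtain ⟨y, h1, h2⟩ := trA_reduction M q hq hqM hA w hw
    rw [← h2]
    exact redF_mem_K M q hq hqM hA _ y h1
  obtain ⟨a, ha, hai⟩ := bdd_polyAlg M q hq hqM (A := A) hz false
  -- a power of the separator makes the expansion at `0` integral without killing that at `∞`
  obtain ⟨w, hw⟩ := exists_qExpand_jqModC_sub_pow q A
  obtain ⟨N, hN⟩ := exists_pow_mul_int (emb_algebraMap M q hq hqM false) hq hA
    (s := separator M q) (w := w) (by
      rw [emb_false_separator, map_natCast]
      have := congrArg (coeffMap A.subtype) hw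
      simpa only [map_sub, map_pow, map_mul, map_natCast, ModularCurve.coeffMap_qExpand,
        coeffMap_subtype_jqModC] using this) ha hai
  have hs := separator_int M q hq hqM (A := A) true
  have h1 := hboth (separator M q ^ N * z) (fun b => by
    cases b
    · exact hN
    · rw [map_mul, map_pow]; exact mul_mem (pow_mem hs N) hzi)
  rw [redF_mul (by rw [map_pow]; exact pow_mem hs N) hzi, redF_pow hs] at h1
  have h3 := div_mem h1 (pow_mem (hboth _ (separator_int M q hq hqM)) N)
  rwa [mul_div_cancel_left₀ _ (pow_ne_zero N (redF_separator_ne M q hq hqM))] at h3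

include hA hq in
/-- The reductions at both cusps lie in the field of level `M`. -/
theorem redF_mem (b : Bool) (f : FN (M * q) Qb) (hf : emb M q hq hqM b f ∈ intSeries A) :
    redF (IsLocalRing.residue A) (emb M q hq hqM b) f ∈
      modularFunctionFieldFullC (IsLocalRing.ResidueField A) M := by
  cases b
  · have h := redF_true_mem M q hq hqM hA (alW M q hq hqM f)
      (by rw [emb_alW]; exact hf)
    rw [redF_of_mem (show emb M q hq hqM true (alW M q hq hqM f) ∈ intSeries A by
      rw [emb_alW]; exact hf)] at h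
    rw [redF_of_mem hf]
    convert h using 2
    exact Subtype.ext rfl
  · exact redF_true_mem M q hq hqM hA f hf

end Reduction

end Fermat.BAD.X0

end
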