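import Fermat.Agent.BAD.X0.Unit
import Fermat.Agent.JAC.EvalDiv
import Fermat.Agent.RED.Spec.Galois
import Fermat.Agent.RED.Model.Place
import Fermat.Agent.CFT.Density.Places

/-!
# The glued points

`SS` is the set of places over the finite part of the `j`-line where the reduction `hbar` of
`Δ (z) / Δ (q z)` vanishes; a function regular away from the cusps with integral expansions takes
at `s ∈ SS` on the component at `∞` the value that it takes at `Qf s`, the inverse Frobenius
image of `s`, on the component at `0`.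
-/

set_option autoImplicit false
set_option linter.unusedSectionVars false

attribute [local instance 10000] SubalgebraClass.toAlgebra HahnSeries.powerSeriesAlgebra

noncomputable section

open ModularCurve AlgebraicCurve

namespace Fermat.BAD.X0

open Fermat.FF Fermat.MC Fermat.JAC Fermat.RED Fermat.RED.Model

local notation "Qb" => AlgebraicClosure ℚ

section Semilinear

variable {K F : Type*} [Field K] [Field F] [Algebra K F] (g : SemilinearAut K F)

/-- What an automorphism fixes, its inverse fixes. -/
theorem inv_smul_fixed {x : F} (hx : g • x = x) : g⁻¹ • x = x := by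
  conv_lhs => rw [← hx]
  rw [inv_smul_smul]

/-- At a translated place a fixed function keeps its bound on the order. -/
theorem ordGE_fixed {x : F} (hx : g • x = x) {v : Place K F} {n : ℤ} (h : OrdGE v x n) :
    OrdGE (g • v) x n := by
  rw [← hx]; exact ordGE_smul g h

/-- An automorphism keeping the orders at a place fixes the place. -/
theorem smul_place_eq_of_ord {v : Place K F} (h : ∀ f : F, v.ord (g • f) = v.ord f) :
    g • v = v := by
  refine Place.ext (SetLike.ext fun f => ?_)
  obtain ⟨f, rfl⟩ : ∃ f', g • f' = f := ⟨g⁻¹ • f, smul_inv_smul _ f⟩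
  rw [mem_iff_ordGE, mem_iff_ordGE, ordGE_iff, ordGE_iff, SemilinearAut.ord_smul, h]

/-- An automorphism fixing `x` preserves regularity away from the poles of `x`. -/
theorem smul_mem_intClosure [IsAlgClosed K] [FF.IsFunctionField K F] {x : F}
    (hx : g • x = x) {f : F} (hf : f ∈ intClosure K x) : g • f ∈ intClosure K x := by
  refine mem_intClosure_iff.mpr fun v hv => ?_
  have h := ordGE_smul g (mem_intClosure_iff.mp hf (g⁻¹ • v)
    (ordGE_fixed g⁻¹ (inv_smul_fixed g hx) hv))
  rwa [smul_inv_smul] at h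

/-- Automorphisms transport divisors of poles. -/
theorem smul_poleDiv [IsAlgClosed K] [FF.IsFunctionField K F] (x : F) :
    g • poleDiv K x = poleDiv K (g • x) := by
  ext v
  rw [SemilinearAut.divisor_smul_apply, poleDiv_apply, poleDiv_apply]
  conv_rhs => rw [show v = g • g⁻¹ • v from (smul_inv_smul g v).symm, SemilinearAut.ord_smul]

/-- An automorphism fixing `x` fixes its divisor of poles. -/
theorem smul_poleDiv_fixed [IsAlgClosed K] [FF.IsFunctionField K F] {x : F} (hx : g • x = x) :
    g • poleDiv K x = poleDiv K x := by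
  rw [smul_poleDiv, hx]

end Semilinear

section GlueGeneric

variable {q : ℕ} [Fact q.Prime] (hq : q.Prime) {A : ValuationSubring (AlgebraicClosure ℚ)}
  (hA : A.LiesOverPrime q) [IsAlgClosed (IsLocalRing.ResidueField A)]

local notation "kA" => IsLocalRing.ResidueField A

variable {F : Type*} [Field F] [Algebra (AlgebraicClosure ℚ) F]
  {ι : Bool → F →+* LaurentSeries (AlgebraicClosure ℚ)}
variable {K : IntermediateField (IsLocalRing.ResidueField A)
  (LaurentSeries (IsLocalRing.ResidueField A))} [FF.IsFunctionField (IsLocalRing.ResidueField A) K]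

include hq hA in
/-- A function whose expansion at `0` reduces to zero vanishes at the zeros of `h`, when
divisibility by `q ^ 12` at `0` gives divisibility by `h` at `∞`. -/
theorem ordGE_one_of_hSer_dvd [NeZero q] {j h : K}
    (hh : (h : LaurentSeries kA) = hSer kA q) (hh0 : h ≠ 0) {g : F}
    (hi : ∀ b, ι b g ∈ intSeries A)
    (hco : ∃ L₀ : IntermediateField ℚ Qb, FiniteDimensional ℚ L₀ ∧ ∀ n, (ι false g).coeff n ∈ L₀)
    (hmul : ∀ (N : ℕ) (w : LaurentSeries Qb), w ∈ intSeries A →
      ι false (g ^ N) = (q : LaurentSeries Qb) ^ 12 * w → ∃ z : K, z ∈ intClosure kA j ∧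
        (z : LaurentSeries kA) * hSer kA q = redF (IsLocalRing.residue A) (ι true) (g ^ N))
    (h0 : redF (IsLocalRing.residue A) (ι false) g = 0) (z : K)
    (hz : (z : LaurentSeries kA) = redF (IsLocalRing.residue A) (ι true) g)
    {s : Place kA K} (hs1 : OrdGE s j 0) (hs2 : 0 < s.ord h) : OrdGE s z 1 := by
  rcases eq_or_ne g 0 with hg0 | hg0
  · have : z = 0 := Subtype.ext (by rw [hz, hg0, redF_zero]; rfl)
    rw [this]; exact ordGE_zero _ _
  rcases eq_or_ne z 0 with hz0 | hz0
  · rw [hz0]; exact ordGE_zero _ _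
  obtain ⟨L₀, hfin, hL⟩ := hco
  have := hfin
  -- a power of `g` is divisible by `q ^ 12` at `0`, hence by `h` at `∞`
  obtain ⟨n, hn, hint⟩ := exists_scale_of_finite hq hA L₀ (hi false)
    ((map_ne_zero_iff _ (ι false).injective).mpr hg0) hL
  set c : A := ⟨(ι false g).coeff n, mem_intSeries_iff.mp (hi false) n⟩
  have hc : IsLocalRing.residue A c = 0 := by
    have h1 := congrArg (fun y : LaurentSeries kA => y.coeff n) h0
    simp only [redF_of_mem (hi false), redHom_coeff, HahnSeries.coeff_zero] at h1
    exact h1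
  obtain ⟨N, t, ht⟩ := exists_pow_dvd hq hA c hc 12
  have hint' : algebraMap Qb (LaurentSeries Qb) (c : Qb)⁻¹ * ι false g ∈ intSeries A := by
    rw [← RED.laurent_smul_def]; exact hint
  set w := algebraMap Qb (LaurentSeries Qb) (t : Qb) *
    (algebraMap Qb (LaurentSeries Qb) (c : Qb)⁻¹ * ι false g) ^ N
  have hw : w ∈ intSeries A := mul_mem (algebraMap_mem_intSeries t.2) (pow_mem hint' N)
  have hcN : (c : Qb) ^ N = (q : Qb) ^ 12 * (t : Qb) := by
    have := congrArg Subtype.val ht
    push_cast at this
    exact this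
  have hgN : ι false (g ^ N) = (q : LaurentSeries Qb) ^ 12 * w := by
    have hc0 : (c : Qb) ≠ 0 := hn
    rw [map_pow, show (q : LaurentSeries Qb) ^ 12 * w =
      algebraMap Qb (LaurentSeries Qb) ((q : Qb) ^ 12 * (t : Qb)) *
        (algebraMap Qb (LaurentSeries Qb) (c : Qb)⁻¹ * ι false g) ^ N by
      rw [map_mul, map_pow, map_natCast]; ring, ← hcN, map_pow, ← mul_pow, ← mul_assoc, ← map_mul,
      mul_inv_cancel₀ hc0, map_one, one_mul]
  obtain ⟨z', hz', hzh⟩ := hmul N w hw hgN
  have hzN : z' * h = z ^ N := Subtype.ext (by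
    rw [MulMemClass.coe_mul, hh, SubmonoidClass.coe_pow, hz, ← redF_pow (hi true)]
    exact hzh)
  have hz'0 : z' ≠ 0 := fun e => pow_ne_zero N hz0 (by rw [← hzN, e, zero_mul])
  have h1 := (mem_intClosure_iff.mp hz' s hs1).le_ord hz'0
  have h2 := congrArg s.ord hzN
  rw [s.ord_mul hz'0 hh0, ord_pow] at h2
  refine ordGE_iff.mpr (.inr ?_)
  nlinarith

/-- If `f ^ q - a` reduces to zero at `0` and hence vanishes at `s` on the other component, the
values of the reductions of `f` are glued by the Frobenius `φ`. -/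
theorem evalAt_eq_of_frobenius_lift [CharP kA q] {φ : SemilinearAut kA K}
    (hφ : ∀ z : K, ((φ • z : K) : LaurentSeries kA) = coeffMap (frobenius kA q) z)
    (hφk : ∀ c, SemilinearAut.baseAut φ c = frobenius kA q c)
    {f a : F} (hi : ∀ b, ι b f ∈ intSeries A) {Y : LaurentSeries A}
    (ha1 : ι true a = coeffMap A.subtype Y) (ha0 : ι false a = coeffMap A.subtype (qExpand A q Y))
    {z₁ z₀ : K} (hz₁ : (z₁ : LaurentSeries kA) = redF (IsLocalRing.residue A) (ι true) f)
    (hz₀ : (z₀ : LaurentSeries kA) = redF (IsLocalRing.residue A) (ι false) f)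
    (hrx : coeffMap (IsLocalRing.residue A) Y = ((φ • z₀ : K) : LaurentSeries kA))
    {s : Place kA K} (hr1 : OrdGE s z₁ 0) (hr0 : OrdGE (φ⁻¹ • s) z₀ 0)
    (hvan : (∀ b, ι b (f ^ q - a) ∈ intSeries A) →
      redF (IsLocalRing.residue A) (ι false) (f ^ q - a) = 0 →
      ∀ z : K, (z : LaurentSeries kA) = redF (IsLocalRing.residue A) (ι true) (f ^ q - a) →
        OrdGE s z 1) :
    evalAt s z₁ = evalAt (φ⁻¹ • s) z₀ := by
  -- `f ^ q - a` is integral and reduces to zero at `false`
  have hai : ∀ b, ι b a ∈ intSeries A := fun b => by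
    cases b
    · rw [ha0]; exact ⟨_, rfl⟩
    · rw [ha1]; exact ⟨_, rfl⟩
  have hfq : ∀ b, ι b (f ^ q) ∈ intSeries A := fun b => by
    rw [map_pow]; exact pow_mem (hi b) q
  have hgi : ∀ b, ι b (f ^ q - a) ∈ intSeries A := fun b => by
    rw [map_sub]; exact sub_mem (hfq b) (hai b)
  have hg0 : redF (IsLocalRing.residue A) (ι false) (f ^ q - a) = 0 := by
    rw [redF_sub (hfq false) (hai false), redF_pow (hi false), redF_of_mem (hai false), sub_eq_zero,
      ← hz₀, laurent_pow_char q, ← hφ z₀, ← hrx, ← coeffMap_qExpand,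
      ← redHom_coeffMap (IsLocalRing.residue A) (qExpand A q Y) ⟨_, rfl⟩]
    exact congrArg _ (Subtype.ext ha0.symm)
  -- at `true` it reduces to `z₁ ^ q - φ • z₀`
  have hg1 : ((z₁ ^ q - φ • z₀ : K) : LaurentSeries kA) =
      redF (IsLocalRing.residue A) (ι true) (f ^ q - a) := by
    rw [redF_sub (hfq true) (hai true), redF_pow (hi true), redF_of_mem (hai true),
      AddSubgroupClass.coe_sub, SubmonoidClass.coe_pow, hz₁, ← hrx,
      ← redHom_coeffMap (IsLocalRing.residue A) Y ⟨_, rfl⟩]
    exact congrArg (fun r => redF (IsLocalRing.residue A) (ι true) f ^ q - r)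
      (congrArg _ (Subtype.ext ha1.symm))
  -- which vanishes at `s` by hypothesis
  have hv := hvan hgi hg0 _ hg1
  have hφs : φ • φ⁻¹ • s = s := smul_inv_smul _ _
  have hr0' : OrdGE s (φ • z₀) 0 := hφs ▸ ordGE_smul _ hr0
  have hev : evalAt s (φ • z₀) = frobenius kA q (evalAt (φ⁻¹ • s) z₀) := by
    have := evalAt_smul (φ) hr0
    rw [hφs, hφk] at this
    exact this
  have hr1q : OrdGE s (z₁ ^ q) 0 := by simpa using hr1.pow q
  -- so the two values have the same Frobenius image
  have h0 : evalAt s (z₁ ^ q - φ • z₀) = 0 := by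
    refine evalAt_eq ?_
    rwa [map_zero, sub_zero]
  rw [evalAt_sub hr1q hr0', FF.evalAt_pow hr1, hev, sub_eq_zero] at h0
  exact frobenius_inj kA q h0

end GlueGeneric

section SS

variable (M q : ℕ) [NeZero M] [NeZero q] [Fact q.Prime] (hq : q.Prime) (hqM : ¬ q ∣ M)
variable [FF.IsFunctionField Qb (FN (M * q) Qb)] [FF.IsFunctionField Qb (FN M Qb)]
variable {A : ValuationSubring (AlgebraicClosure ℚ)} (hA : A.LiesOverPrime q)
  [IsAlgClosed (IsLocalRing.ResidueField A)] [CharP (IsLocalRing.ResidueField A) q]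
  [FF.IsFunctionField (IsLocalRing.ResidueField A) (FX (IsLocalRing.ResidueField A) M)]

local notation "kA" => IsLocalRing.ResidueField A
local notation "jk" => jX (IsLocalRing.ResidueField A) M

/-- The reduction of `Δ (z) / Δ (q z)` as a function of level `M`. -/
def hbar : FX kA M := ⟨hSer kA q, hSer_mem M q hq hqM hA⟩

/-- `hbar` is nonzero. -/
theorem hbar_ne_zero : hbar M q hq hqM hA ≠ 0 :=
  fun h => hSer_ne_zero kA q (congrArg Subtype.val h)

/-- The glued points: the zeros of `hbar` over the finite part of the `j`-line (supersingular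
points). -/
def SS : Finset (Place kA (FX kA M)) :=
  Set.Finite.toFinset (s := {v | OrdGE v jk 0 ∧ 0 < v.ord (hbar M q hq hqM hA)})
    ((finite_setOf_ord_ne_zero (hbar M q hq hqM hA)).subset fun _ hv => ne_of_gt hv.2)

/-- Membership in `SS`. -/
theorem mem_SS {v : Place kA (FX kA M)} :
    v ∈ SS M q hq hqM hA ↔ OrdGE v jk 0 ∧ 0 < v.ord (hbar M q hq hqM hA) := by
  rw [SS, Set.Finite.mem_toFinset]; rfl

/-- The Frobenius of the constants, acting on coefficients. -/
def frobAut : SemilinearAut kA (FX kA M) := coeffAutFull (frobeniusEquiv kA q) M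

/-- The Frobenius acts on series coefficientwise. -/
theorem coe_frobAut_smul (z : FX kA M) :
    ((frobAut M q (A := A) • z : FX kA M) : LaurentSeries kA) = coeffMap (frobenius kA q) z :=
  (coe_coeffAut_smul (modularFunctionFieldFullC kA M) (frobeniusEquiv kA q)
    (fun _ => coeffMap_mem_full _) (fun _ => coeffMap_mem_full _) z).trans
    (coeffMap_congr (RingHom.ext fun _ => rfl) _)

/-- The residual Frobenius fixes `j`. -/
theorem frobAut_jk : frobAut M q (A := A) • jk = jk :=
  Subtype.ext ((coe_frobAut_smul M q jk).trans (coeffMap_jqModC _))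

/-- The point on the component at `0` glued to a point of the component at `∞`. -/
def Qf (s : Place kA (FX kA M)) : Place kA (FX kA M) := (frobAut M q (A := A))⁻¹ • s

/-- Gluing is injective. -/
theorem Qf_injective : Function.Injective (Qf M q (A := A)) := MulAction.injective _

/-- Gluing keeps the finite part of the `j`-line. -/
theorem ordGE_Qf {s : Place kA (FX kA M)} (h : OrdGE s jk 0) : OrdGE (Qf M q s) jk 0 :=
  ordGE_fixed _ (inv_smul_fixed _ (frobAut_jk M q)) h

/-- `j` is transcendental on the reduced curve. -/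
theorem transcendental_jk : Transcendental kA jk :=
  Cusps.transcendental_jX

/-- If the expansion at `0` of a regular integral `g` reduces to zero, then the reduction at `∞`
vanishes at the glued points. -/
theorem ordGE_one_of_redF_false (g : FN (M * q) Qb) (hg : g ∈ intClosure Qb (aj M q))
    (hi : ∀ b, emb M q hq hqM b g ∈ intSeries A)
    (h0 : redF (IsLocalRing.residue A) (emb M q hq hqM false) g = 0) (z : FX kA M)
    (hz : (z : LaurentSeries kA) = redF (IsLocalRing.residue A) (emb M q hq hqM true) g)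
    {s : Place kA (FX kA M)} (hs : s ∈ SS M q hq hqM hA) : OrdGE s z 1 :=
  ordGE_one_of_hSer_dvd hq hA rfl (hbar_ne_zero M q hq hqM hA) hi
    (coeff_mem M q hq hqM false g)
    (fun N _ hw hgN => exists_mul_hSer_eq M q hq hqM hA (g ^ N) (pow_mem hg N)
      (by rw [map_pow]; exact pow_mem (hi true) N) hw hgN)
    h0 z hz ((mem_SS M q hq hqM hA).mp hs).1 ((mem_SS M q hq hqM hA).mp hs).2

/-- A function regular away from the cusps with integral expansions takes at `s ∈ SS` at `∞` the
value it takes at `Qf s` at `0`. -/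
theorem glue (f : FN (M * q) Qb) (hf : f ∈ intClosure Qb (aj M q))
    (hi : ∀ b, emb M q hq hqM b f ∈ intSeries A) (z₁ z₀ : FX kA M)
    (hz₁ : (z₁ : LaurentSeries kA) = redF (IsLocalRing.residue A) (emb M q hq hqM true) f)
    (hz₀ : (z₀ : LaurentSeries kA) = redF (IsLocalRing.residue A) (emb M q hq hqM false) f)
    {s : Place kA (FX kA M)} (hs : s ∈ SS M q hq hqM hA) :
    evalAt s z₁ = evalAt (Qf M q s) z₀ := by
  -- apply the vanishing to `f ^ q - x'`, where `x'` is the Frobenius transform of the trace of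
  -- `W f`: it reduces to zero at `0`
  obtain ⟨σ, hσ⟩ := Fermat.CFT.exists_isFrobeniusAt hq hA
  obtain ⟨σA, h1, h2⟩ := exists_residue_conj (σ := σ) hσ.mem_decompositionSubgroup
  rw [residueAut_eq_frobenius hσ] at h2
  set Wf := alW M q hq hqM f
  have hWi : ∀ b, emb M q hq hqM b Wf ∈ intSeries A := fun b => by rw [emb_alW]; exact hi _
  have hWred : redF (IsLocalRing.residue A) (emb M q hq hqM true) Wf =
      redF (IsLocalRing.residue A) (emb M q hq hqM false) f := by
    rw [redF_of_mem (hWi true), redF_of_mem (hi false)]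
    exact congrArg _ (Subtype.ext rfl)
  obtain ⟨y, hy1, hy2⟩ := trA_reduction M q hq hqM hA Wf hWi
  set x : FN M Qb := trA (heckeAlphaBar Qb M q) Wf
  set x' : FN M Qb := arithmeticGalois (modularFunctionFieldFull M) σ • x
  have hx' : (x' : LaurentSeries Qb) = coeffMap A.subtype (coeffMap σA y) := by
    rw [coe_arithmeticGalois_smul, hy1, coeffMap_coeffMap, coeffMap_coeffMap]
    exact coeffMap_congr (RingHom.ext fun a => (h1 a).symm) y
  set g := f ^ q - heckeAlphaBar Qb M q x'
  have hg : g ∈ intClosure Qb (aj M q) :=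
    sub_mem (pow_mem hf q) (map_mem_intClosure (heckeAlphaBar Qb M q)
      (smul_mem_intClosure _ (arithmeticGalois_smul_jL σ)
        (trA_mem_intClosure (heckeAlphaBar Qb M q) (alW_mem_intClosure M q hq hqM hf))))
  have hrx : coeffMap (IsLocalRing.residue A) (coeffMap σA y) =
      ((frobAut M q (A := A) • z₀ : FX kA M) : LaurentSeries kA) := by
    rw [coe_frobAut_smul, hz₀, ← hWred, ← hy2, coeffMap_coeffMap, coeffMap_coeffMap]
    exact coeffMap_congr (RingHom.ext fun a => h2 a) y
  have ha1 : emb M q hq hqM true (heckeAlphaBar Qb M q x') =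
      coeffMap A.subtype (coeffMap σA y) := by rw [emb_true_alpha, hx']
  have ha0 : emb M q hq hqM false (heckeAlphaBar Qb M q x') =
      coeffMap A.subtype (qExpand A q (coeffMap σA y)) := by
    rw [emb_false_alpha, hx', coeffMap_qExpand]
  obtain ⟨hs1, -⟩ := (mem_SS M q hq hqM hA).mp hs
  refine evalAt_eq_of_frobenius_lift (coe_frobAut_smul M q)
    (fun _ => rfl) hi ha1 ha0 hz₁ hz₀ hrx ?_ ?_
    fun hgi hg0 z hz => ordGE_one_of_redF_false M q hq hqM hA g hg hgi hg0 z hz hs
  · exact mem_intClosure_iff.mp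
      (redF_true_mem_intClosure M q hq hqM hA f hi hf z₁ hz₁) s hs1
  · exact mem_intClosure_iff.mp
      (redF_true_mem_intClosure M q hq hqM hA Wf hWi
      (alW_mem_intClosure M q hq hqM hf) z₀ (hz₀.trans hWred.symm)) _ (ordGE_Qf M q hs1)

end SS

end Fermat.BAD.X0

end
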