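import Fermat.Agent.BAD.X0.Poles
import Fermat.Agent.RED.UnitArg
import Fermat.Agent.RED.LevelOne

/-!
# The modular polynomial of prime level as a polynomial over a field

The coefficient of `Y ^ n` has degree at most `q (q + 1 - n)`; the cofactor of a root and the
derivative of a product.
-/

set_option autoImplicit false

noncomputable section

open Polynomial ModularCurve

namespace Fermat.BAD.X0

/-- Evaluation at `x` of polynomials with integer coefficients. -/
def ev {R : Type*} [CommRing R] (x : R) : ℤ[X] →+* R :=
  eval₂RingHom (Int.castRingHom R) x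

/-- Evaluation commutes with ring homomorphisms. -/
theorem map_ev {R S : Type*} [CommRing R] [CommRing S] (f : R →+* S) (x : R) :
    f.comp (ev x) = ev (f x) :=
  Polynomial.ringHom_ext' (RingHom.ext_int _ _) (by simp [ev])

/-- Evaluation of an integral polynomial in two variables commutes with ring homomorphisms. -/
theorem map_eval_ev {R S : Type*} [CommRing R] [CommRing S] (f : R →+* S) (x y : R)
    (P : (ℤ[X])[X]) : f ((P.map (ev x)).eval y) = (P.map (ev (f x))).eval (f y) := by
  rw [← map_ev f x, ← Polynomial.map_map, eval_map (f := f), eval₂_at_apply]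

/-- Evaluation through an algebra is evaluation. -/
theorem aeval_comp_map {K F : Type*} [Field K] [Field F] [Algebra K F] (x : F) :
    (aeval x).toRingHom.comp (mapRingHom (Int.castRingHom K)) = ev x :=
  Polynomial.ringHom_ext' (RingHom.ext_int _ _) (by simp [ev])

variable {k : Type*} [Field k] [CharZero k] {q : ℕ} [Fact q.Prime]

/-- The coefficient of `Y ^ n` of the modular polynomial of prime level has degree at most `q (q
+ 1 - n)`. -/
theorem natDegree_coeff_modular_le {ζ : kˣ} (hζ : IsPrimitiveRoot (ζ : k) q) (n : ℕ) (hn : n ≤ q) :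
    ((RED.levelOne q).Φ.coeff n).natDegree ≤ q * (q + 1 - n) := by
  have : NeZero q := ⟨(Fact.out : q.Prime).ne_zero⟩
  have hid := (RED.levelOne q).identities_of_isPrimitiveRoot (k := k)
    (IsPrimitiveRoot.coe_units_iff.mp hζ)
  set e := (RED.levelOne q).Φ.coeff n
  rcases eq_or_ne e 0 with he | he
  · rw [he, natDegree_zero]
    exact Nat.zero_le _
  set g : k[X] := e.map (Int.castRingHom k)
  have hg : g ≠ 0 := (Polynomial.map_ne_zero_iff Int.cast_injective).mpr he
  have hgd : g.natDegree = e.natDegree := natDegree_map_eq_of_injective Int.cast_injective e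
  -- the coefficient as a series in a `q`-th power
  have hcoeff : (((RED.levelOne q).Φ.map (RED.evalAt k (RED.jb k 1 q))).coeff n) =
      qExpand k q (aeval (jqModC k) g) := by
    rw [coeff_map, show RED.evalAt k (RED.jb k 1 q) =
      (aeval (RED.jb k 1 q)).toRingHom.comp (mapRingHom (Int.castRingHom k)) from
      (aeval_comp_map (K := k) (RED.jb k 1 q)).symm]
    change aeval (RED.jb k 1 q) g = _
    rw [RED.jb_one, aeval_def, aeval_def, hom_eval₂]
    congr 1
    refine RingHom.ext fun c => ?_
    change algebraMap k (LaurentSeries k) c = qExpand k q (algebraMap k (LaurentSeries k) c)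
    rw [algebraMap_laurentSeries_eq_single, ModularCurve.qExpand_single, mul_zero]
  -- the product over the roots bounds its pole
  have hge := orderTop_coeff_prod_ge (k := k) (b := q * q) Finset.univ (RED.yRoot k q ζ)
    (fun i _ m hm => by
      cases i with
      | none => exact RED.coeff_jb_of_lt _ _ hm
      | some b =>
        refine RED.coeff_jb_of_lt _ _ (lt_of_lt_of_le hm ?_)
        have := Nat.mul_pos (NeZero.pos q) (NeZero.pos q)
        push_cast
        have : (1 : ℤ) ≤ (q : ℤ) * q := by exact_mod_cast this
        linarith) n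
  rw [← hid.eq_modular, hcoeff] at hge
  -- and that pole is exactly `q` times the degree
  have hne : (qExpand k q (aeval (jqModC k) g)).coeff ((q : ℤ) * -(g.natDegree : ℤ)) ≠ 0 := by
    rw [qExpand_coeff_mul, RED.coeff_aeval_jqModC]
    exact leadingCoeff_ne_zero.mpr hg
  have hle := WithTop.coe_le_coe.mp (hge.trans (HahnSeries.orderTop_le_of_coeff_ne_zero hne))
  rw [Finset.card_univ, Fintype.card_option, Fintype.card_fin, hgd] at hle
  refine Nat.le_of_mul_le_mul_left (show q * e.natDegree ≤ q * (q * (q + 1 - n)) from ?_)
    (NeZero.pos q)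
  zify [show n ≤ q + 1 by omega]
  push_cast at hle ⊢
  nlinarith

section Cofactor

variable {F : Type*} [Field F] (P : F[X]) (y : F)

/-- The cofactor of a root. -/
def cofactor : F[X] := P /ₘ (X - C y)

variable {P y}

/-- The root factor times the cofactor. -/
theorem mul_cofactor (h : P.eval y = 0) : (X - C y) * cofactor P y = P :=
  mul_divByMonic_eq_iff_isRoot.mpr h

/-- The cofactor has no larger degree. -/
theorem natDegree_cofactor_le : (cofactor P y).natDegree ≤ P.natDegree := by
  rw [cofactor, natDegree_divByMonic _ (monic_X_sub_C y)]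
  exact Nat.sub_le _ _

/-- The cofactor at the root is the derivative there. -/
theorem eval_cofactor_self (h : P.eval y = 0) :
    (cofactor P y).eval y = (derivative P).eval y := by
  conv_rhs => rw [← mul_cofactor h]
  simp [derivative_mul]

/-- The cofactor has coefficients in any subring containing those of `P` and the root. -/
theorem coeff_cofactor_mem (S : Subring F) (hP : ∀ n, P.coeff n ∈ S) (hy : y ∈ S) (n : ℕ) :
    (cofactor P y).coeff n ∈ S := by
  obtain ⟨P', hP'⟩ : P ∈ Polynomial.lifts S.subtype :=
    (lifts_iff_coeff_lifts _).mpr fun m => ⟨⟨_, hP m⟩, rfl⟩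
  have : cofactor P y = (P' /ₘ (X - C ⟨y, hy⟩)).map S.subtype := by
    rw [cofactor, map_divByMonic _ (monic_X_sub_C _), coe_mapRingHom] at *
    simp [← hP']
  rw [this, coeff_map]
  exact SetLike.coe_mem _

end Cofactor

/-- The derivative of `∏ (Y - y i)` at a root. -/
theorem eval_derivative_prod {C' : Type*} [CommRing C'] {α : Type*} [Fintype α] [DecidableEq α]
    (y : α → C') (i : α) :
    (derivative (∏ m, (X - C (y m)))).eval (y i) =
      ∏ m ∈ Finset.univ.erase i, (y i - y m) :=
  (Lagrange.eval_nodal_derivative_eval_node_eq (Finset.mem_univ i)).trans Lagrange.eval_nodal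

end Fermat.BAD.X0

end
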