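import Fermat.Agent.RED.Congruence.X0
import Fermat.Agent.JAC.PicLift

/-!
# The two expansions of `X₀(M q)` at a prime `q ∤ M`

`emb true` is the expansion at `∞`, `emb false` the expansion of the image under the Atkin-Lehner
involution `alW` at `q`; the branches of the degeneracy map `α` express the trace and the norm to
level `M` through these two expansions.
-/

set_option autoImplicit false

attribute [local instance 10000] SubalgebraClass.toAlgebra HahnSeries.powerSeriesAlgebra

noncomputable section

open ModularCurve AlgebraicCurve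

namespace Fermat.BAD.X0

open Fermat.FF Fermat.MC Fermat.JAC Fermat.JAC.X0 Fermat.RED

local notation "Qb" => AlgebraicClosure ℚ

/-- The series `j` over `ℚ` maps to that of `L`. -/
theorem coeffEmb_jq (L : Type*) [Field L] [Algebra ℚ L] : coeffEmb L jq = jqModC L :=
  ModularCurve.coeffMap_jqModC _

/-- The expansion of the generator `j (d z)`. -/
theorem coe_jdL (L : Type*) [Field L] [Algebra ℚ L] {N : ℕ} (d : DivIdx N) :
    (jdL L d : LaurentSeries L) = qExpand L (d : ℕ) (jqModC L) := by
  rw [← coeffEmb_jq]
  exact ModularCurve.coeffMap_qExpand (algebraMap ℚ L) _ _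

variable (M q : ℕ) [NeZero M] [NeZero q]

/-- The swap `d ↦ d q^{±1}` of the divisors extends to an involution of the function field. -/
theorem exists_alW (hq : q.Prime) (hqM : ¬ q ∣ M) :
    ∃ W : FN (M * q) Qb →ₐ[Qb] FN (M * q) Qb,
      (∀ d, W (jdL Qb d) = jdL Qb (swapPerm hq d)) ∧ ∀ x, W (W x) = x := by
  obtain ⟨g, hg⟩ := exists_swap_map hq hqM
  exact exists_algHom_of_perm (L := Qb) embC (swapPerm hq) (swapPerm_swapPerm hq hqM) g hg

variable (hq : q.Prime) (hqM : ¬ q ∣ M)

/-- The Atkin-Lehner involution at `q`. -/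
def alW : FN (M * q) Qb ≃ₐ[Qb] FN (M * q) Qb :=
  AlgEquiv.ofAlgHom (exists_alW M q hq hqM).choose (exists_alW M q hq hqM).choose
    (AlgHom.ext (exists_alW M q hq hqM).choose_spec.2)
    (AlgHom.ext (exists_alW M q hq hqM).choose_spec.2)

/-- The involution on the generators. -/
theorem alW_jdL (d : DivIdx (M * q)) :
    alW M q hq hqM (jdL Qb d) = jdL Qb (swapPerm hq d) :=
  (exists_alW M q hq hqM).choose_spec.1 d

/-- The Atkin-Lehner automorphism `alW` is an involution. -/
theorem alW_alW (x : FN (M * q) Qb) : alW M q hq hqM (alW M q hq hqM x) = x :=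
  (exists_alW M q hq hqM).choose_spec.2 x

/-- It turns `β^*` into `α^*`. -/
theorem alW_beta (x : FN M Qb) :
    alW M q hq hqM (heckeBetaBar Qb M q x) = heckeAlphaBar Qb M q x := by
  refine ringHom_ext_jdL
    (φ := (alW M q hq hqM).toAlgHom.toRingHom.comp (heckeBetaBar Qb M q).toRingHom)
    (ψ := (heckeAlphaBar Qb M q).toRingHom) (fun c => ?_) (fun d => ?_) x
  · change alW M q hq hqM (heckeBetaBar Qb M q (algebraMap Qb (FN M Qb) c)) =
      heckeAlphaBar Qb M q (algebraMap Qb (FN M Qb) c)
    rw [AlgHom.commutes, AlgHom.commutes, AlgEquiv.commutes]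
  · change alW M q hq hqM (heckeBetaBar Qb M q (jdL Qb d)) = heckeAlphaBar Qb M q (jdL Qb d)
    rw [beta_jdL, alW_jdL, alpha_jdL]
    refine congrArg (jdL Qb) (Subtype.ext ?_)
    rw [swapPerm, dif_pos (show q ∣ ((idxBeta M q d : DivIdx (M * q)) : ℕ) from
      dvd_mul_left q (d : ℕ))]
    exact Nat.mul_div_cancel _ hq.pos

/-- It turns `α^*` into `β^*`. -/
theorem alW_alpha (x : FN M Qb) :
    alW M q hq hqM (heckeAlphaBar Qb M q x) = heckeBetaBar Qb M q x := by
  rw [← alW_beta M q hq hqM x, alW_alW]

/-- The expansion at `∞` (`true`) and that of the Atkin–Lehner image (`false`: at the cusp `0` of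
`X₀ (q)`). -/
def emb : Bool → FN (M * q) Qb →+* LaurentSeries Qb
  | true => (FN (M * q) Qb).val.toRingHom
  | false => (FN (M * q) Qb).val.toRingHom.comp (alW M q hq hqM).toAlgHom.toRingHom

/-- The expansion at `∞` is the series itself. -/
theorem emb_true (f : FN (M * q) Qb) : emb M q hq hqM true f = (f : LaurentSeries Qb) := rfl

/-- The other expansion is that of the Atkin–Lehner image. -/
theorem emb_false (f : FN (M * q) Qb) :
    emb M q hq hqM false f = (alW M q hq hqM f : LaurentSeries Qb) := rfl

/-- The expansions fix constants. -/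
theorem emb_algebraMap (b : Bool) (c : Qb) :
    emb M q hq hqM b (algebraMap Qb (FN (M * q) Qb) c) = algebraMap Qb (LaurentSeries Qb) c := by
  cases b
  · rw [emb_false, AlgEquiv.commutes]; rfl
  · rfl

/-- The involution exchanges the two expansions. -/
theorem emb_alW (b : Bool) (f : FN (M * q) Qb) :
    emb M q hq hqM b (alW M q hq hqM f) = emb M q hq hqM (!b) f := by
  cases b
  · rw [emb_false, alW_alW]; rfl
  · rfl

/-- A function of level `M` through `α` keeps its expansion at `∞`. -/
theorem emb_true_alpha (f : FN M Qb) :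
    emb M q hq hqM true (heckeAlphaBar Qb M q f) = (f : LaurentSeries Qb) :=
  coe_heckeAlphaBar M q f

/-- Through `β` it gets `t ↦ t ^ q` at `∞`. -/
theorem emb_true_beta (f : FN M Qb) :
    emb M q hq hqM true (heckeBetaBar Qb M q f) = qExpand Qb q (f : LaurentSeries Qb) :=
  coe_heckeBetaBar M q f

/-- Through `α` it gets `t ↦ t ^ q` at the other cusp. -/
theorem emb_false_alpha (f : FN M Qb) :
    emb M q hq hqM false (heckeAlphaBar Qb M q f) = qExpand Qb q (f : LaurentSeries Qb) := by
  rw [emb_false, alW_alpha, coe_heckeBetaBar]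

/-- Through `β` it keeps its expansion at the other cusp. -/
theorem emb_false_beta (f : FN M Qb) :
    emb M q hq hqM false (heckeBetaBar Qb M q f) = (f : LaurentSeries Qb) := by
  rw [emb_false, alW_beta, coe_heckeAlphaBar]

/-- The expansion of `j` of level `M`. -/
theorem coe_jL : (jL M Qb : LaurentSeries Qb) = jqModC Qb := coeffEmb_jq Qb

/-- A primitive `q`-th root of unity in `ℚ̄`. -/
theorem exists_zeta : ∃ ζ : Qbˣ, IsPrimitiveRoot (ζ : Qb) q := by
  obtain ⟨ζ, hζ⟩ := exists_isPrimitiveRoot_unit Qb q (Nat.cast_ne_zero.mpr (NeZero.ne q))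
  exact ⟨ζ, IsPrimitiveRoot.coe_units_iff.mpr hζ⟩

/-- The branches of `α` over `∞`, expanded in the parameter `t ^ (1 / q)` of level `M`: `none` is
the unramified cusp, the others are the twists of the ramified one. -/
def branch (ζ : Qbˣ) : Option (Fin q) → (FN (M * q) Qb →+* LaurentSeries Qb) := fun o =>
  o.elim ((qExpand Qb q).comp (emb M q hq hqM true))
    fun i => (twist (ζ ^ (i : ℕ))).comp (emb M q hq hqM false)

variable {ζ : Qbˣ} (hζ : IsPrimitiveRoot (ζ : Qb) q)
include hζ

/-- All branches agree on the functions of level `M`. -/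
theorem branch_alpha (o : Option (Fin q)) (x : FN M Qb) :
    branch M q hq hqM ζ o (heckeAlphaBar Qb M q x) = qExpand Qb q (x : LaurentSeries Qb) := by
  cases o with
  | none => exact congrArg (qExpand Qb q) (emb_true_alpha M q hq hqM x)
  | some i =>
    change twist (ζ ^ (i : ℕ)) (emb M q hq hqM false (heckeAlphaBar Qb M q x)) = _
    rw [emb_false_alpha, twist_qExpand, show (ζ ^ (i : ℕ)) ^ q = 1 from Units.ext (by
      rw [← pow_mul, mul_comm, pow_mul, Units.val_pow_eq_pow_val, Units.val_pow_eq_pow_val,
        hζ.pow_eq_one, one_pow, Units.val_one]), twist_one_apply]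

/-- The branches of the degeneracy map are distinct. -/
theorem branch_injective : Function.Injective (branch M q hq hqM ζ) := fun o o' h => by
  have h1 := congrArg (fun g : FN (M * q) Qb →+* LaurentSeries Qb =>
    (g (heckeBetaBar Qb M q (jL M Qb))).coeff (-1)) h
  have hv : ∀ o, (branch M q hq hqM ζ o (heckeBetaBar Qb M q (jL M Qb))).coeff (-1) =
      o.elim 0 fun i => ((ζ : Qb) ^ (i : ℕ))⁻¹ := by
    rintro (_ | i)
    · change (qExpand Qb q (emb M q hq hqM true (heckeBetaBar Qb M q (jL M Qb)))).coeff (-1) = 0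
      refine qExpand_coeff_of_not_dvd q _ fun h' => ?_
      have h1 := Int.le_of_dvd one_pos (Int.dvd_neg.mp h')
      have := hq.one_lt
      omega
    · change (twist (ζ ^ (i : ℕ)) (emb M q hq hqM false (heckeBetaBar Qb M q (jL M Qb)))).coeff
        (-1) = _
      rw [emb_false_beta, coe_jL, twist_coeff, coeff_jqModC_neg_one, mul_one, zpow_neg, zpow_one,
        Units.val_inv_eq_inv_val, Units.val_pow_eq_pow_val]
      rfl
  simp only [hv] at h1
  rcases o with _ | i <;> rcases o' with _ | j
  · rfl
  · exact absurd h1.symm (inv_ne_zero (pow_ne_zero _ ζ.ne_zero))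
  · exact absurd h1 (inv_ne_zero (pow_ne_zero _ ζ.ne_zero))
  · exact congrArg some (Fin.ext (hζ.pow_inj i.2 j.2 (inv_injective h1)))

omit hζ in
include hq hqM in
/-- There are as many branches as the degree of `α`. -/
theorem card_branch :
    Fintype.card (Option (Fin q)) = finrankAlong Qb (heckeAlphaBar Qb M q) := by
  rw [Fintype.card_option, Fintype.card_fin, CongX0.finrankAlong_alpha_bar M q hq hqM]

/-- The expansion of the norm along `α`: the product of the branches. -/
theorem qExpand_norm (f : FN (M * q) Qb) :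
    qExpand Qb q ((normAlong (heckeAlphaBar Qb M q) f : FN M Qb) : LaurentSeries Qb) =
      qExpand Qb q (emb M q hq hqM true f) *
        ∏ i : Fin q, twist (ζ ^ (i : ℕ)) (emb M q hq hqM false f) := by
  have : IsFunctionField Qb (FN (M * q) Qb) := MC.isFunctionField_FN (M * q) embC
  have h := normAlong_eq_prod (heckeAlphaBar Qb M q) ((qExpand Qb q).comp (FN M Qb).val.toRingHom)
    (branch M q hq hqM ζ) (branch_alpha M q hq hqM hζ) (branch_injective M q hq hqM hζ)
    (card_branch M q hq hqM) f
  rw [Fintype.prod_option] at h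
  exact h

end Fermat.BAD.X0

namespace Fermat.BAD.X0

open Fermat.FF Fermat.MC Fermat.JAC Fermat.JAC.X0 Fermat.RED

local notation "Qb" => AlgebraicClosure ℚ

/-- The trace along a homomorphism of function fields. -/
def trA {L F F' : Type*} [Field L] [Field F] [Field F'] [Algebra L F] [Algebra L F']
    (φ : F →ₐ[L] F') (z : F') : F :=
  letI := algebraAlong φ
  Algebra.trace F F' z

section Trace

variable {L : Type*} [Field L] [CharZero L]
variable {F F' : Type*} [Field F] [Field F'] [Algebra L F] [Algebra L F'] [IsAlgClosed L]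
  [FF.IsFunctionField L F] [FF.IsFunctionField L F']

omit [IsAlgClosed L] in
/-- A full family of embeddings over `b` computes the trace. -/
theorem trA_eq_sum (φ : F →ₐ[L] F') {C : Type*} [Field C] (b : F →+* C) {I : Type*}
    [Fintype I] (σ : I → (F' →+* C)) (hσ : ∀ i x, σ i (φ x) = b x) (hinj : Function.Injective σ)
    (hcard : Fintype.card I = finrankAlong L φ) (z : F') :
    b (trA φ z) = ∑ i, σ i z := by
  classical
  let Ω := AlgebraicClosure C
  let := algebraAlong φ
  have := isScalarTower_along φ
  have : Module.Finite F F' := FF.finiteAlong φ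
  let : Algebra F Ω := ((algebraMap C Ω).comp b).toAlgebra
  have : CharZero F := charZero_of_injective_algebraMap (algebraMap L F).injective
  let e : I → (F' →ₐ[F] Ω) := fun i =>
    { (algebraMap C Ω).comp (σ i) with
      commutes' := fun c => congrArg (algebraMap C Ω) (hσ i c) }
  have he : Function.Injective e := fun i j h => hinj <| RingHom.ext fun x =>
    (algebraMap C Ω).injective (DFunLike.congr_fun h x)
  have hbij : Function.Bijective e := by
    rw [Fintype.bijective_iff_injective_and_card]
    refine ⟨he, ?_⟩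
    rw [AlgHom.card F F' Ω, hcard]
    rfl
  refine (algebraMap C Ω).injective ?_
  rw [map_sum]
  have h := trace_eq_sum_embeddings (K := F) (L := F') Ω (x := z)
  rw [← hbij.sum_comp] at h
  exact h

end Trace

variable (M q : ℕ) [NeZero M] [NeZero q] (hq : q.Prime) (hqM : ¬ q ∣ M)
variable {ζ : Qbˣ} (hζ : IsPrimitiveRoot (ζ : Qb) q)
include hq hqM hζ

/-- The expansion of the trace along `α`: the sum of the branches. -/
theorem qExpand_trA (f : FN (M * q) Qb) :
    qExpand Qb q ((trA (heckeAlphaBar Qb M q) f : FN M Qb) : LaurentSeries Qb) =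
      qExpand Qb q (emb M q hq hqM true f) +
        ∑ i : Fin q, twist (ζ ^ (i : ℕ)) (emb M q hq hqM false f) := by
  have : IsFunctionField Qb (FN (M * q) Qb) := MC.isFunctionField_FN (M * q) embC
  have h := trA_eq_sum (heckeAlphaBar Qb M q) ((qExpand Qb q).comp (FN M Qb).val.toRingHom)
    (branch M q hq hqM ζ) (branch_alpha M q hq hqM hζ) (branch_injective M q hq hqM hζ)
    (card_branch M q hq hqM) f
  rw [Fintype.sum_option] at h
  exact h

end Fermat.BAD.X0

end
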