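import Fermat.Agent.BAD.X0.Glue
import Fermat.Agent.JAC.X0.Basic

/-!
# The Galois action on the functions of level `M q`

The action on coefficients is semilinear, commutes with the Atkin-Lehner involution and with both
expansions, and fixes the generators and `A0`.
-/

set_option autoImplicit false
set_option linter.unusedSectionVars false

attribute [local instance 10000] SubalgebraClass.toAlgebra HahnSeries.powerSeriesAlgebra

noncomputable section

open ModularCurve AlgebraicCurve

namespace Fermat.BAD.X0

open Fermat.MC Fermat.JAC.X0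

local notation "Qb" => AlgebraicClosure ℚ

variable (M q : ℕ) [NeZero M] [NeZero q] (hq : q.Prime) (hqM : ¬ q ∣ M) (σ : Qb ≃ₐ[ℚ] Qb)

/-- The action of `σ` on the functions of level `M q`. -/
def galAut : SemilinearAut Qb (FN (M * q) Qb) :=
  arithmeticGalois (modularFunctionFieldFull (M * q)) σ

/-- The Galois action on series is coefficientwise. -/
theorem coe_galAut_smul (f : FN (M * q) Qb) :
    ((galAut M q σ • f : FN (M * q) Qb) : LaurentSeries Qb) =
      coeffMap (σ : Qb →+* Qb) (f : LaurentSeries Qb) :=
  coe_arithmeticGalois_smul _ σ f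

/-- The generators `j (d z)` are fixed. -/
theorem galAut_jdL (d : DivIdx (M * q)) : galAut M q σ • jdL Qb d = jdL Qb d :=
  Subtype.ext (coeffMap_coeffEmb σ _)

/-- On constants it is the Galois action. -/
theorem galAut_algebraMap (c : Qb) :
    galAut M q σ • algebraMap Qb (FN (M * q) Qb) c = algebraMap Qb (FN (M * q) Qb) (σ c) := by
  rw [galAut, SemilinearAut.smul_algebraMap]
  rfl

/-- It is semilinear for multiples by constants. -/
theorem galAut_smul_scalar (c : Qb) (f : FN (M * q) Qb) :
    galAut M q σ • (c • f) = σ c • (galAut M q σ • f) := by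
  rw [Algebra.smul_def, smul_mul', galAut_algebraMap, ← Algebra.smul_def]

/-- The action as a ring homomorphism. -/
def galHom : FN (M * q) Qb →+* FN (M * q) Qb :=
  (SemilinearAut.toRingAut (galAut M q σ)).toRingHom

/-- It commutes with the Atkin-Lehner involution. -/
theorem galAut_alW (f : FN (M * q) Qb) :
    galAut M q σ • alW M q hq hqM f = alW M q hq hqM (galAut M q σ • f) := by
  refine ringHom_ext_jdL (φ := (galHom M q σ).comp (alW M q hq hqM).toAlgHom.toRingHom)
    (ψ := (alW M q hq hqM).toAlgHom.toRingHom.comp (galHom M q σ)) (fun c => ?_) (fun d => ?_) f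
  · change galAut M q σ • alW M q hq hqM (algebraMap Qb _ c) =
      alW M q hq hqM (galAut M q σ • algebraMap Qb _ c)
    rw [AlgEquiv.commutes, galAut_algebraMap, AlgEquiv.commutes]
  · change galAut M q σ • alW M q hq hqM (jdL Qb d) = alW M q hq hqM (galAut M q σ • jdL Qb d)
    rw [alW_jdL, galAut_jdL, galAut_jdL, alW_jdL]

/-- It acts on both expansions coefficientwise. -/
theorem emb_galAut (b : Bool) (f : FN (M * q) Qb) :
    emb M q hq hqM b (galAut M q σ • f) = coeffMap (σ : Qb →+* Qb) (emb M q hq hqM b f) := by
  cases b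
  · rw [emb_false, emb_false, ← galAut_alW]
    exact coe_galAut_smul M q σ _
  · exact coe_galAut_smul M q σ f

/-- `emb_galAut`, coefficient by coefficient. -/
theorem emb_galAut_coeff (b : Bool) (f : FN (M * q) Qb) (n : ℤ) :
    (emb M q hq hqM b (galAut M q σ • f)).coeff n = σ ((emb M q hq hqM b f).coeff n) := by
  rw [emb_galAut, coeffMap_coeff]
  rfl

/-- Galois fixes `j (z)`. -/
theorem galAut_aj : galAut M q σ • aj M q = aj M q := by
  rw [aj, galAut, alpha_smul]
  exact congrArg _ (Subtype.ext (coeffMap_coeffEmb σ _))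

/-- Galois fixes `j (q z)`. -/
theorem galAut_bj : galAut M q σ • bj M q = bj M q := by
  rw [bj, galAut, beta_smul]
  exact congrArg _ (Subtype.ext (coeffMap_coeffEmb σ _))

variable [FF.IsFunctionField Qb (FN (M * q) Qb)]

/-- It fixes the pole divisor `A0` of `j (z)` and `j (q z)`. -/
theorem galAut_A0 : galAut M q σ • A0 M q = A0 M q := by
  rw [A0, smul_add, smul_poleDiv_fixed _ (galAut_aj M q σ),
    smul_poleDiv_fixed _ (galAut_bj M q σ)]

end Fermat.BAD.X0

end
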