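import Fermat.Agent.BAD.X0.Count
import Fermat.Agent.BAD.X0.Galois
import Fermat.Agent.BAD.Engine.Sym

/-!
# The two glued reductions of `X₀ (M q)`

For `q ∤ M` and `X₀ (M)` without elliptic points the two expansions form a `Degen`; the elements
of the decomposition group and the Atkin-Lehner involution at `q` are symmetries of it.

The files of `BAD/X0` behind this, no model of the curve being built:
* `Value`, `Bounded`, `Rational`, `Poles`, `ModPoly`, `Branches`: values at the place, bounded
  series, rational series in Galois stable spaces, traces, the modular polynomial.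
* `Setup`, `Series`, `Regular`, `Model`: the two expansions, their reductions (the trace to level
  `M` reduces to the reduction at `∞`), boundedness on the multiples of `A0`.
* `Unit`, `Glue`, `Galois`: the unit of level `q`, the glued points and the gluing condition,
  the Galois action on the functions.
* `Uniformizer`, `Count`: the order of `hbar` at a glued point is at most `12`, hence the count.
Built on it: `LevelChange`, then with `Norm` also `TorsionAux` and `Torsion` (the torsion of
`J₀ (M q)` at `q`).
-/

set_option autoImplicit false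
set_option linter.unusedSectionVars false

attribute [local instance 10000] SubalgebraClass.toAlgebra HahnSeries.powerSeriesAlgebra

noncomputable section

open ModularCurve AlgebraicCurve

namespace Fermat.BAD.X0

open Fermat.FF Fermat.MC Fermat.JAC.X0 Fermat.RED Fermat.RED.Model

local notation "Qb" => AlgebraicClosure ℚ

section Abstract

variable {L : Type*} [Field L] {A : ValuationSubring L}
variable {k : Type*} [Field k] [IsAlgClosed L] [IsAlgClosed k]
variable {F : Type*} [Field F] [Algebra L F]
variable {π : A →+* k} {ι : Bool → F →+* LaurentSeries L}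
  {K : IntermediateField k (LaurentSeries k)}
variable [FF.IsFunctionField L F] [FF.IsFunctionField k K]

/-- A symmetry from its effect on integral expansions. -/
def symOfSeries (X : Degen π ι K) (g : SemilinearAut L F) (τ : Bool → SemilinearAut k K)
    (base : k ≃+* k) (hbase : ∀ b, SemilinearAut.baseAut (τ b) = base) (e : Bool ≃ Bool)
    (h : ∀ b f, ι b f ∈ intSeries A → ι (e b) (g • f) ∈ intSeries A ∧
      ∀ z : K, (z : LaurentSeries k) = redF π (ι b) f →
        redF π (ι (e b)) (g • f) = ((τ b • z : K) : LaurentSeries k))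
    (hA : g • X.A0 = X.A0) (hB : ∀ b, τ b • X.B = X.B) : Sym X where
  s := g
  τ := τ
  base := base
  τ_base := hbase
  e := e
  A0_fixed := hA
  B_fixed := hB
  mapsInt b f hf := by
    obtain ⟨a, u, ha, hu, hu0, he⟩ := hf
    refine ⟨g • a, g • u, (h b a ha).1, (h b u hu).1, ?_, by rw [← smul_mul', he]⟩
    rw [(h b u hu).2 ⟨_, X.red_mem b u hu⟩ rfl]
    intro h0
    have hz : τ b • (⟨_, X.red_mem b u hu⟩ : K) = 0 := Subtype.ext h0
    exact hu0 (congrArg Subtype.val ((smul_eq_zero_iff_eq _).mp hz))
  red_eq b f hf := by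
    obtain ⟨a, u, ha, hu, hu0, he⟩ := hf
    have hq : IsGQuot π (ι b) f a u := ⟨ha, hu, hu0, he⟩
    have ha' := (h b a ha).2 ⟨_, X.red_mem b a ha⟩ rfl
    have hu' := (h b u hu).2 ⟨_, X.red_mem b u hu⟩ rfl
    have hu'0 : redF π (ι (e b)) (g • u) ≠ 0 := by
      rw [hu']
      intro h0
      have hz : τ b • (⟨_, X.red_mem b u hu⟩ : K) = 0 := Subtype.ext h0
      exact hu0 (congrArg Subtype.val ((smul_eq_zero_iff_eq _).mp hz))
    have hq' : IsGQuot π (ι (e b)) (g • f) (g • a) (g • u) :=
      ⟨(h b a ha).1, (h b u hu).1, hu'0, by rw [← smul_mul', he]⟩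
    have hr : X.red b f = (⟨_, X.red_mem b a ha⟩ : K) / ⟨_, X.red_mem b u hu⟩ :=
      Subtype.ext hq.gRed_eq
    refine Subtype.ext ?_
    rw [Degen.coe_red, hq'.gRed_eq, ha', hu', hr, smul_div₀']
    rfl

/-- An element of the decomposition group acting on an integral expansion keeps it integral and
acts on the reduction through the residual automorphism. -/
theorem redF_of_coeffMap_conj {F' : Type*} [Field F'] [Algebra Qb F'] {A : ValuationSubring Qb}
    {σ : Qb ≃ₐ[ℚ] Qb}
    (hσ : σ ∈ A.decompositionSubgroup ℚ) (ι : F' →+* LaurentSeries Qb) {f g : F'}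
    (hg : ι g = coeffMap (σ : Qb →+* Qb) (ι f)) (hf : ι f ∈ intSeries A) :
    ι g ∈ intSeries A ∧ redF (IsLocalRing.residue A) ι g =
      coeffMap (residueAut hσ : IsLocalRing.ResidueField A →+* IsLocalRing.ResidueField A)
        (redF (IsLocalRing.residue A) ι f) := by
  obtain ⟨y, hy⟩ := id hf
  obtain ⟨σA, h1, h2⟩ := exists_residue_conj hσ
  have he : ι g = coeffMap A.subtype (coeffMap σA y) := by
    rw [hg, ← hy, coeffMap_coeffMap, coeffMap_coeffMap]
    exact coeffMap_congr (RingHom.ext fun a => (h1 a).symm) y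
  have hi : ι g ∈ intSeries A := he ▸ ⟨_, rfl⟩
  refine ⟨hi, ?_⟩
  rw [redF_of_mem hf, redF_of_mem hi]
  refine Eq.trans ((congrArg (redHom _) (Subtype.ext he)).trans
    (redHom_coeffMap (IsLocalRing.residue A) _ ⟨_, rfl⟩)) ?_
  refine Eq.trans ?_ (congrArg (coeffMap _)
    ((congrArg (redHom _) (Subtype.ext hy.symm)).trans
      (redHom_coeffMap (IsLocalRing.residue A) y ⟨_, rfl⟩)).symm)
  rw [coeffMap_coeffMap, coeffMap_coeffMap]
  exact coeffMap_congr (RingHom.ext fun a => h2 a) y

end Abstract

variable (M q : ℕ) [NeZero M] [NeZero q] [Fact q.Prime] (hq : q.Prime) (hqM : ¬ q ∣ M)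
variable [FF.IsFunctionField Qb (FN (M * q) Qb)] [FF.IsFunctionField Qb (FN M Qb)]

/-- `j (z)` is the `j` of level `M q`. -/
theorem aj_eq : aj M q = jL (M * q) Qb :=
  Subtype.ext ((coe_heckeAlphaBar M q _).trans (by rw [coe_jL, coe_jL]))

/-- The Atkin-Lehner involution at `q` as a semilinear automorphism. -/
def alAut : SemilinearAut Qb (FN (M * q) Qb) := SemilinearAut.ofAlgAut (alW M q hq hqM)

/-- The action of `alAut` is `alW`. -/
theorem alAut_smul (f : FN (M * q) Qb) : alAut M q hq hqM • f = alW M q hq hqM f := rfl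

/-- The involution fixes `A0`. -/
theorem alAut_A0 : alAut M q hq hqM • A0 M q = A0 M q := by
  rw [A0, smul_add, smul_poleDiv, smul_poleDiv, alAut_smul, alAut_smul, alW_aj, alW_bj, add_comm]

/-- The involution has square one. -/
theorem alAut_mul_self : alAut M q hq hqM * alAut M q hq hqM = 1 := by
  refine Subtype.ext (Prod.ext (RingEquiv.ext fun f => ?_) (RingEquiv.ext fun c => rfl))
  exact alW_alW M q hq hqM f

/-- Galois commutes with the involution. -/
theorem galAut_alAut (σ : Qb ≃ₐ[ℚ] Qb) :
    galAut M q σ * alAut M q hq hqM = alAut M q hq hqM * galAut M q σ := by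
  refine Subtype.ext (Prod.ext (RingEquiv.ext fun f => ?_) (RingEquiv.ext fun c => rfl))
  exact galAut_alW M q hq hqM σ f

include hq hqM in
/-- `A0` has degree `2 ψ (M) (q + 1)`. -/
theorem degree_A0 : Divisor.degree (A0 M q) = 2 * ((dedekindPsi M : ℤ) * ((q : ℤ) + 1)) := by
  have ha : Divisor.degree (poleDiv Qb (aj M q)) = (dedekindPsi M : ℤ) * ((q : ℤ) + 1) := by
    rw [degree_poleDiv (transcendental_aj M q), aj_eq, (finrank_FN (M * q) embC).1,
      psiN_eq_dedekindPsi, dedekindPsi_mul_prime M q hq, if_neg hqM]
    push_cast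
    ring
  have hb : poleDiv Qb (bj M q) = alAut M q hq hqM • poleDiv Qb (aj M q) := by
    rw [smul_poleDiv, alAut_smul, alW_aj]
  rw [A0, map_add, hb, SemilinearAut.degree_smul, ha]
  ring

variable {A : ValuationSubring (AlgebraicClosure ℚ)} (hA : A.LiesOverPrime q)
  [IsAlgClosed (IsLocalRing.ResidueField A)] [CharP (IsLocalRing.ResidueField A) q]
  [FF.IsFunctionField (IsLocalRing.ResidueField A) (FX (IsLocalRing.ResidueField A) M)]

local notation "kA" => IsLocalRing.ResidueField A
local notation "jk" => jX (IsLocalRing.ResidueField A) M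

/-- The polar divisor on each reduced component. -/
def Bk : Divisor kA (FX kA M) := (q + 1) • poleDiv kA jk

/-- `Bk` avoids the finite part of the `j`-line. -/
theorem Bk_apply_eq_zero {s : Place kA (FX kA M)} (h : OrdGE s jk 0) : Bk M q s = 0 := by
  rw [Bk, Finsupp.smul_apply, poleDiv_apply]
  have h0 := h.le_ord (fun h0 => transcendental_jk M (A := A) (h0 ▸ isAlgebraic_zero))
  rw [max_eq_right (by omega), smul_zero]

include hq hqM hA in
/-- `Bk` has degree `ψ (M) (q + 1)`. -/
theorem degree_Bk : Divisor.degree (Bk M q : Divisor kA (FX kA M)) =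
    (dedekindPsi M : ℤ) * ((q : ℤ) + 1) := by
  rw [Bk, map_nsmul, degree_poleDiv Cusps.transcendental_jX,
    Cusps.finrank_jX (natCast_ne_zero_residue A hq hA hqM), nsmul_eq_mul]
  push_cast
  ring

variable (hne : NoElliptic M)

/-- The two glued reductions of `X₀ (M q)`. -/
def degen : Degen (IsLocalRing.residue A) (emb M q hq hqM) (modularFunctionFieldFullC kA M) where
  surj := IsLocalRing.residue_surjective
  arch a ha c hc := arch hq hA a ha c hc
  ι_algebraMap := emb_algebraMap M q hq hqM
  A0 := A0 M q
  A0_nonneg := A0_nonneg M q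
  B := Bk M q
  B_nonneg v := by
    change (0 : ℤ) ≤ ((q + 1) • poleDiv kA jk) v
    rw [Finsupp.smul_apply, poleDiv_apply]
    exact nsmul_nonneg (le_max_right _ _) _
  B_ne h := by
    have h1 := degree_Bk M q hq hqM hA
    rw [h, map_zero] at h1
    have : (0 : ℤ) < dedekindPsi M := by exact_mod_cast Fermat.RED.dedekindPsi_pos (NeZero.ne M)
    nlinarith
  deg_A0 := by rw [degree_A0 M q hq hqM, degree_Bk M q hq hqM hA]
  red_mem b f hf := redF_mem M q hq hqM hA b f hf
  attained b f hf0 hf := attained M q hq hqM hA b f hf0 hf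
  denom b f := denom M q hq hqM hA b f
  bdd b m f hf := bdd M q hq hqM hA b m f hf
  pole b m f h hf := by
    rw [Bk, ← mul_smul]
    exact redF_mem_riemannRochSpace M q hq hqM hA b m f h hf _ rfl
  S := SS M q hq hqM hA
  Qf := Qf M q
  Qf_inj := (Qf_injective M q).injOn
  S_B s hs := Bk_apply_eq_zero M q ((mem_SS M q hq hqM hA).mp hs).1
  Qf_B s hs := Bk_apply_eq_zero M q (ordGE_Qf M q ((mem_SS M q hq hqM hA).mp hs).1)
  glue m f ht hf hL s hs := glue M q hq hqM hA f (mem_intClosure_of_mem_A0 M q hq hqM hL)
    (fun b => by cases b; exacts [hf, ht]) _ _ rfl rfl hs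
  count := count M q hq hqM hA hne

section Decomposition

variable {σ : Qb ≃ₐ[ℚ] Qb} (hσ : σ ∈ A.decompositionSubgroup ℚ)

/-- The residual automorphism of the constants, acting on the reduced curve. -/
def resAut : SemilinearAut kA (FX kA M) := coeffAutFull (residueAut hσ) M

/-- The residual automorphism acts on coefficients. -/
theorem coe_resAut_smul (z : FX kA M) :
    ((resAut M hσ • z : FX kA M) : LaurentSeries kA) =
      coeffMap (residueAut hσ : kA →+* kA) z :=
  coe_coeffAut_smul (modularFunctionFieldFullC kA M) (residueAut hσ)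
    (fun _ => coeffMap_mem_full _) (fun _ => coeffMap_mem_full _) z

/-- The residual action of a decomposition element fixes `Bk`. -/
theorem resAut_Bk : resAut M hσ • (Bk M q : Divisor kA (FX kA M)) = Bk M q := by
  have hj : resAut M hσ • jk = jk :=
    Subtype.ext ((coe_resAut_smul M hσ jk).trans (coeffMap_jqModC _))
  rw [Bk, smul_comm, smul_poleDiv, hj]

/-- The symmetry given by an element of the decomposition group. -/
def galSym : Sym (degen M q hq hqM hA hne) :=
  symOfSeries _ (galAut M q σ) (fun _ => resAut M hσ) (residueAut hσ) (fun _ => rfl)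
    (Equiv.refl Bool)
    (fun b f hf => by
      obtain ⟨hi, hred⟩ := redF_of_coeffMap_conj hσ _ (emb_galAut M q hq hqM σ b f) hf
      refine ⟨hi, fun z hz => ?_⟩
      rw [coe_resAut_smul, hz]
      exact hred)
    (galAut_A0 M q σ) (fun _ => resAut_Bk M q hσ)

/-- The base of `galSym` is the residual automorphism of the constants. -/
theorem galSym_base : (galSym M q hq hqM hA hne hσ).base = residueAut hσ := rfl

/-- The residual maps of `galSym`. -/
theorem galSym_τ (b : Bool) : (galSym M q hq hqM hA hne hσ).τ b = resAut M hσ := rfl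

end Decomposition

/-- The symmetry given by the Atkin-Lehner involution at `q`. -/
def alSym : Sym (degen M q hq hqM hA hne) :=
  symOfSeries _ (alAut M q hq hqM) (fun _ => 1) (RingEquiv.refl _) (fun _ => rfl)
    ⟨(!·), (!·), Bool.not_not, Bool.not_not⟩
    (fun b f hf => by
      have he : emb M q hq hqM (!b) (alAut M q hq hqM • f) = emb M q hq hqM b f := by
        rw [alAut_smul, emb_alW, Bool.not_not]
      refine ⟨show emb M q hq hqM (!b) _ ∈ _ by rw [he]; exact hf, fun z hz => ?_⟩
      rw [one_smul, hz]
      change redF _ (emb M q hq hqM (!b)) _ = _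
      rw [redF_of_mem (show emb M q hq hqM (!b) (alAut M q hq hqM • f) ∈ intSeries A by
        rw [he]; exact hf), redF_of_mem hf]
      exact congrArg _ (Subtype.ext he))
    (alAut_A0 M q hq hqM) (fun _ => one_smul _ _)

/-- The involution exchanges the components. -/
theorem alSym_e_true : (alSym M q hq hqM hA hne).e true = false := rfl

include hne in
/-- The gluing is an involution on the glued points. -/
theorem Qf_Qf {s : Place kA (FX kA M)} (hs : s ∈ SS M q hq hqM hA) :
    Qf M q (Qf M q s) = s := by
  have h := (alSym M q hq hqM hA hne).pt_spec (s := s) hs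
  have hsw : (alSym M q hq hqM hA hne).e true ≠ true := by
    rw [alSym_e_true]; exact Bool.false_ne_true
  have h2 := h.2
  rw [Sym.pt, Sym.pt', if_neg hsw, if_neg hsw] at h2
  exact (congrArg (Qf M q) (one_smul _ (Qf M q s)).symm).trans (h2.trans (one_smul _ s))

include hne in
/-- A Frobenius permutes the glued points as the Atkin-Lehner involution does. -/
theorem pt_frobenius {σ : Qb ≃ₐ[ℚ] Qb} (hσ : A.IsFrobeniusAt σ q) {s : Place kA (FX kA M)}
    (hs : s ∈ SS M q hq hqM hA) :
    (galSym M q hq hqM hA hne hσ.mem_decompositionSubgroup).pt s =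
      (alSym M q hq hqM hA hne).pt s := by
  have hsw : (alSym M q hq hqM hA hne).e true ≠ true := by
    rw [alSym_e_true]; exact Bool.false_ne_true
  rw [Sym.pt, if_pos (show (galSym M q hq hqM hA hne hσ.mem_decompositionSubgroup).e true =
    true from rfl), Sym.pt, if_neg hsw, galSym_τ,
    show ((alSym M q hq hqM hA hne).τ false) • (degen M q hq hqM hA hne).Qf s = Qf M q s from
      one_smul _ _]
  have hφ : resAut M hσ.mem_decompositionSubgroup = frobAut M q (A := A) := by
    rw [resAut, residueAut_eq_frobenius hσ]; rfl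
  conv_lhs => rw [hφ, ← Qf_Qf M q hq hqM hA hne hs]
  exact smul_inv_smul _ _

end Fermat.BAD.X0

end
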