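import Fermat.Agent.BAD.X0.TorsionAux
import Fermat.Agent.RED.Spec.Final
import Fermat.Agent.RED.Spec.Galois

/-!
# Torsion of `J₀ (M q)` at a decomposition group over `q ∤ M`

Inertia is unipotent of exponent two on the torsion prime to `q`; on the part killed by both
pushforwards to level `M` a Frobenius `φ` satisfies `(φ + q w) (φ + w) = 0` up to the degree of a
covering of higher level (exactly, if `J₀ (M) = 0`).
-/

set_option autoImplicit false

attribute [local instance 10000] SubalgebraClass.toAlgebra HahnSeries.powerSeriesAlgebra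

noncomputable section

open ModularCurve AlgebraicCurve

namespace Fermat.BAD.X0

open Fermat.FF Fermat.MC Fermat.JAC Fermat.RED Fermat.RED.Model

local notation "Qb" => AlgebraicClosure ℚ

section Residual

variable (M q : ℕ) [NeZero M] [NeZero q]
variable {A : ValuationSubring (AlgebraicClosure ℚ)} [IsAlgClosed (IsLocalRing.ResidueField A)]
  [FF.IsFunctionField (IsLocalRing.ResidueField A) (FX (IsLocalRing.ResidueField A) M)]

/-- The residual automorphism of the curve is trivial if that of the constants is. -/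
theorem resAut_eq_one {σ : Qb ≃ₐ[ℚ] Qb} {hd : σ ∈ A.decompositionSubgroup ℚ}
    (he : residueAut hd = RingEquiv.refl _) : resAut M (A := A) hd = 1 := by
  refine semilinearAut_ext (fun z => Subtype.ext ?_) ?_
  · rw [coe_resAut_smul, one_smul, he]
    exact (coeffMap_congr (RingHom.ext fun _ => rfl) _).trans (coeffMap_id _)
  · rw [SemilinearAut.baseAut_one, ← show residueAut hd =
      SemilinearAut.baseAut (resAut M hd) from rfl, he]
    rfl

end Residual

section Aux

/-- An auxiliary factor prime to `q` removing the elliptic points. -/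
def auxLevel (q : ℕ) : ℕ := if q = 2 then 9 else 4

/-- The auxiliary factor is not zero. -/
instance neZero_auxLevel (q : ℕ) : NeZero (auxLevel q) := ⟨by rw [auxLevel]; split_ifs <;> omega⟩

/-- The auxiliary factor is divisible by `4` or by `9`. -/
theorem auxLevel_spec (q : ℕ) : 4 ∣ auxLevel q ∨ 9 ∣ auxLevel q := by
  rw [auxLevel]; split_ifs <;> omega

/-- The auxiliary level stays prime to `q`. -/
theorem not_dvd_auxLevel_mul {q M : ℕ} (hq : q.Prime) (hqM : ¬ q ∣ M) : ¬ q ∣ auxLevel q * M := by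
  refine fun h => ((Nat.Prime.dvd_mul hq).mp h).elim (fun h' => ?_) hqM
  rw [auxLevel] at h'
  split_ifs at h' with h2
  · rw [h2] at h'; omega
  · exact h2 ((Nat.prime_dvd_prime_iff_eq hq Nat.prime_two).mp
      (hq.dvd_of_dvd_pow (n := 2) (by norm_num; exact h')))

/-- The auxiliary level has no elliptic points. -/
theorem auxLevel_noElliptic (q M : ℕ) : NoElliptic (auxLevel q * M) :=
  NoElliptic.of_dvd49 ((auxLevel_spec q).imp (fun h => h.mul_right M) fun h => h.mul_right M)

end Aux

variable {M M' : ℕ} [NeZero M] [NeZero M'] {q : ℕ} [NeZero q] [Fact q.Prime] (hq : q.Prime)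
  (hqM : ¬ q ∣ M) (hqM' : ¬ q ∣ M') (hMM : M * q ∣ M' * q) (hne : NoElliptic M')
variable {A : ValuationSubring (AlgebraicClosure ℚ)} (hA : A.LiesOverPrime q)

include hq hqM' hA hne in
/-- Inertia at `q` acts on the torsion prime to `q` with `(σ - 1) ^ 2 = 0`, up to the degree of
the covering. -/
theorem finrank_nsmul_inertia {σ : Qb ≃ₐ[ℚ] Qb} (hσ : σ ∈ A.inertiaSubgroupIn ℚ) {n : ℕ}
    (hn : ¬ q ∣ n) {x : JZero (M * q)} (hx : n • x = 0) :
    finrankAlong Qb (inclN hMM) • (σ • (σ • x - x) - (σ • x - x)) = 0 := by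
  have := charP_residue hq hA
  have := isAlgClosed_residue A
  have := Cusps.isFunctionField (k := IsLocalRing.ResidueField A) (M := M')
    (natCast_ne_zero_residue A hq hA hqM')
  obtain ⟨hd, he⟩ := residueAut_eq_refl hσ
  have hpull : ∀ z : JZero (M * q), galAut M' q σ • pullPic (inclN hMM) z =
      pullPic (inclN hMM) (σ • z) := fun z =>
    (pullPic_smul (φ := inclN hMM) (ψ := inclN hMM) (s := galAut M q σ) (s' := galAut M' q σ)
      (fun f => inclN_galois hMM σ f) z).symm
  have h0 := Degen.inertia_sq (galSym M' q hq hqM' hA hne hd) rfl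
    (fun _ => resAut_eq_one M' he) (n := n)
    (fun h => hn ((CharP.cast_eq_zero_iff _ q n).mp h)) (x := pullPic (inclN hMM) x)
    (by rw [← map_nsmul, hx, map_zero])
  exact finrank_nsmul_of_pull_sub (inclN hMM) hpull h0

include hq hqM hqM' hA hne in
/-- On torsion prime to `q` killed by both pushforwards, a Frobenius satisfies `(σ + q w) (σ + w)
= 0` up to the degree of the covering. -/
theorem finrank_nsmul_frobenius (hMM' : M ∣ M') {σ : Qb ≃ₐ[ℚ] Qb} (hσ : A.IsFrobeniusAt σ q)
    {n : ℕ} (hn : ¬ q ∣ n) {x : JZero (M * q)} (hx : n • x = 0)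
    (ha : pushPic (heckeAlphaBar Qb M q) x = 0) (hb : pushPic (heckeBetaBar Qb M q) x = 0) :
    finrankAlong Qb (inclN hMM) •
      (σ • (σ • x + alAut M q hq hqM • x) +
        q • alAut M q hq hqM • (σ • x + alAut M q hq hqM • x)) = 0 := by
  have := charP_residue hq hA
  have := isAlgClosed_residue A
  have := Cusps.isFunctionField (k := IsLocalRing.ResidueField A) (M := M')
    (natCast_ne_zero_residue A hq hA hqM')
  have hd := hσ.mem_decompositionSubgroup
  have hpull : ∀ z : JZero (M * q), galAut M' q σ • pullPic (inclN hMM) z =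
      pullPic (inclN hMM) (σ • z) := fun z =>
    (pullPic_smul (φ := inclN hMM) (ψ := inclN hMM) (s := galAut M q σ) (s' := galAut M' q σ)
      (fun f => inclN_galois hMM σ f) z).symm
  have hpullW : ∀ z : JZero (M * q), alAut M' q hq hqM' • pullPic (inclN hMM) z =
      pullPic (inclN hMM) (alAut M q hq hqM • z) := fun z =>
    (pullPic_smul (φ := inclN hMM) (ψ := inclN hMM) (s := alAut M q hq hqM)
      (s' := alAut M' q hq hqM') (fun f => inclN_alW hq hqM hqM' hMM f) z).symm
  have hn0 : n ≠ 0 := fun h => hn (h ▸ dvd_zero q)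
  obtain ⟨D, hD⟩ := Fermat.BAD.exists_isCls x
  obtain ⟨y, hy, hdiv⟩ := hD.exists_div hx
  obtain ⟨P, Q, a, c, e, hc0, haI, haR, hcI, hcR, hw⟩ :=
    exists_scaled_powers M q hq hqM hA hn0 hD hy hdiv ha hb
  set X := degen M' q hq hqM' hA hne with hX
  set y' := inclN hMM y with hy'
  -- the scaled function is primitive on each branch
  have hf : ∀ i, X.Prim i ((a i * (c i)⁻¹) • y') ∧
      (X.red i ((a i * (c i)⁻¹) • y') : LaurentSeries (IsLocalRing.ResidueField A)) =
        redF (IsLocalRing.residue A) (emb M q hq hqM i) (a i • P) /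
          redF (IsLocalRing.residue A) (emb M q hq hqM i) (c i • Q) := by
    intro i
    have hP' := redF_inclN hq hqM hqM' hMM i (haI i)
    have hQ' := redF_inclN hq hqM hqM' hMM i (hcI i)
    have hqq : IsGQuot (IsLocalRing.residue A) (emb M' q hq hqM' i) ((a i * (c i)⁻¹) • y')
        (inclN hMM (a i • P)) (inclN hMM (c i • Q)) :=
      ⟨by rw [emb_inclN hq hqM hqM' hMM]; exact haI i,
        by rw [emb_inclN hq hqM hqM' hMM]; exact hcI i, by rw [hQ']; exact hcR i, by
        rw [hy', inclN_smul, inclN_smul, smul_mul_smul_comm, ← map_mul, e, mul_assoc,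
          inv_mul_cancel₀ (hc0 i), mul_one]⟩
    have hred : (X.red i ((a i * (c i)⁻¹) • y') : LaurentSeries (IsLocalRing.ResidueField A)) =
        redF (IsLocalRing.residue A) (emb M q hq hqM i) (a i • P) /
          redF (IsLocalRing.residue A) (emb M q hq hqM i) (c i • Q) := by
      rw [Degen.coe_red, hqq.gRed_eq, hP', hQ']
    refine ⟨⟨hqq.mem, fun h0 => div_ne_zero (haR i) (hcR i) ?_⟩, hred⟩
    rw [← hred, h0]
    rfl
  have hpow := exists_pow_pair (galSym M' q hq hqM' hA hne hd) (alSym M' q hq hqM' hA hne)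
    (fun _ => rfl) (fun _ => rfl) (baseAut_alAut M' q hq hqM') (fun _ => rfl) (n := n) (y := y')
    (t := fun i => a i * (c i)⁻¹) (fun i => (hf i).1) fun b => by
      obtain ⟨w, hw⟩ := hw (!b)
      refine ⟨⟨w, full_degeneracyC_le _ hMM' w.2⟩, Subtype.ext ?_⟩
      rw [MulMemClass.coe_mul, galSym_τ, coe_resAut_smul, (hf b).2, (hf (!b)).2,
        residueAut_eq_frobenius hσ, SubmonoidClass.coe_pow, hw, Bool.not_not, mul_comm]
      exact congrArg _ (coeffMap_congr (RingHom.ext fun _ => rfl) _)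
  have h0 := Degen.frobenius_new (galSym M' q hq hqM' hA hne hd) (alSym M' q hq hqM' hA hne) rfl
    (by rw [alSym_e_true]; exact Bool.false_ne_true)
    (fun s hs => pt_frobenius M' q hq hqM' hA hne hσ hs) (q := q)
    (fun u => by rw [galSym_base, residueAut_eq_frobenius hσ]; rfl) (fun _ => rfl) (n := n)
    (fun h => hn ((CharP.cast_eq_zero_iff _ q n).mp h)) (isCls_pullDiv (inclN hMM) hD)
    (y := y') ((map_ne_zero_iff _ (inclN hMM).injective).mpr hy)
    (by rw [hy', ← pullDiv_divOf, hdiv, map_nsmul]) hpow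
  exact finrank_nsmul_of_pull_add (inclN hMM) hpull hpullW h0

include hq hqM hA in
/-- **Inertia at `q` is unipotent of exponent two on the torsion prime to `q`.** -/
theorem inertia_smul_sub {σ : Qb ≃ₐ[ℚ] Qb} (hσ : σ ∈ A.inertiaSubgroupIn ℚ) {n : ℕ}
    (hn : ¬ q ∣ n) {x : JZero (M * q)} (hx : n • x = 0) :
    σ • (σ • x - x) = σ • x - x := by
  have hMM : M * q ∣ auxLevel q * M * q := Nat.mul_dvd_mul_right (dvd_mul_left M _) q
  set d := finrankAlong Qb (inclN hMM) with hd_def
  obtain ⟨e, d0, hd0, hd⟩ := Nat.exists_eq_pow_mul_and_not_dvd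
    (finrankAlong_ne_zero (inclN hMM)) q hq.ne_one
  have hd00 : d0 ≠ 0 := fun h => hd0 (h ▸ dvd_zero q)
  obtain ⟨y, hy⟩ := picDivisible_modularFunctionFieldBar (M * q) d0 hd00 x
  have hy' : (n * d0) • y = 0 := by rw [mul_smul, hy, hx]
  have h := finrank_nsmul_inertia hq (not_dvd_auxLevel_mul hq hqM) hMM
    (auxLevel_noElliptic q M) hA hσ
    (fun h' => ((Nat.Prime.dvd_mul hq).mp h').elim hn hd0) hy'
  rw [hd, mul_smul] at h
  have hsm : ∀ (m : ℕ) (z : JZero (M * q)), σ • (m • z) = m • σ • z := fun m z =>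
    (DistribSMul.toAddMonoidHom (JZero (M * q)) σ).map_nsmul m z
  have hDy : d0 • (σ • (σ • y - y) - (σ • y - y)) = σ • (σ • x - x) - (σ • x - x) := by
    rw [← hy, hsm, nsmul_sub, ← hsm, nsmul_sub]
  rw [hDy] at h
  refine sub_eq_zero.mp (eq_zero_of_coprime_nsmul
    (((hq.coprime_iff_not_dvd.mpr hn).pow_left e)) h ?_)
  have hs0 : σ • (0 : JZero (M * q)) = 0 :=
    (DistribSMul.toAddMonoidHom (JZero (M * q)) σ).map_zero
  rw [nsmul_sub, ← hsm, nsmul_sub, ← hsm, hx, hs0, sub_zero, hs0, sub_zero]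

include hq hqM in
/-- As `w² = 1` and `φ` commutes with `w`: `(φ + q w) (φ + w) = φ² + (q + 1) w φ + q`. -/
theorem frobenius_add_smul (σ : Qb ≃ₐ[ℚ] Qb) (x : JZero (M * q)) :
    σ • (σ • x + alAut M q hq hqM • x) + q • alAut M q hq hqM • (σ • x + alAut M q hq hqM • x) =
      σ • σ • x + (q + 1) • alAut M q hq hqM • σ • x + q • x := by
  have hc : σ • alAut M q hq hqM • x = alAut M q hq hqM • σ • x := by
    rw [galois_smul_pic0_def, galois_smul_pic0_def, ← mul_smul, ← mul_smul]
    exact congrArg (fun g : SemilinearAut Qb (FN (M * q) Qb) => g • x) (galAut_alAut M q hq hqM σ)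
  rw [smul_add, smul_add, nsmul_add, hc, ← mul_smul (alAut M q hq hqM) (alAut M q hq hqM),
    alAut_mul_self, one_smul, add_smul, one_smul]
  abel

include hq hqM hA in
/-- **Frobenius when level `M` has no classes**: `φ ^ 2 + (q + 1) w φ + q = 0`. -/
theorem frobenius_sq_of_subsingleton [Subsingleton (JZero M)] {σ : Qb ≃ₐ[ℚ] Qb}
    (hσ : A.IsFrobeniusAt σ q) {n : ℕ} (hn : ¬ q ∣ n) {x : JZero (M * q)} (hx : n • x = 0) :
    σ • σ • x + (q + 1) • alAut M q hq hqM • σ • x + q • x = 0 := by
  have hMM : M * q ∣ auxLevel q * M * q := Nat.mul_dvd_mul_right (dvd_mul_left M _) q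
  obtain ⟨e, d0, hd0, hd⟩ := Nat.exists_eq_pow_mul_and_not_dvd
    (finrankAlong_ne_zero (inclN hMM)) q hq.ne_one
  obtain ⟨y, hy⟩ := picDivisible_modularFunctionFieldBar (M * q) d0
    (fun h => hd0 (h ▸ dvd_zero q)) x
  have hy' : (n * d0) • y = 0 := by rw [mul_smul, hy, hx]
  have h := finrank_nsmul_frobenius hq hqM (not_dvd_auxLevel_mul hq hqM) hMM
    (auxLevel_noElliptic q M) hA
    (dvd_mul_left M _) hσ (fun h' => ((Nat.Prime.dvd_mul hq).mp h').elim hn hd0) hy'
    (Subsingleton.elim _ _) (Subsingleton.elim _ _)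
  rw [frobenius_add_smul hq hqM, hd, mul_smul] at h
  have hsm : ∀ (m : ℕ) (z : JZero (M * q)), σ • (m • z) = m • σ • z := fun m z =>
    (DistribSMul.toAddMonoidHom (JZero (M * q)) σ).map_nsmul m z
  have hwm : ∀ (m : ℕ) (z : JZero (M * q)),
      alAut M q hq hqM • (m • z) = m • alAut M q hq hqM • z := fun m z =>
    (DistribSMul.toAddMonoidHom (JZero (M * q)) (alAut M q hq hqM)).map_nsmul m z
  have hmul : ∀ (m : ℕ) (z : JZero (M * q)),
      m • (σ • σ • z + (q + 1) • alAut M q hq hqM • σ • z + q • z) =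
        σ • σ • (m • z) + (q + 1) • alAut M q hq hqM • σ • (m • z) + q • (m • z) := fun m z => by
    rw [hsm, hsm, hwm, smul_comm (q + 1) m, smul_comm q m, nsmul_add, nsmul_add]
  rw [hmul, hy] at h
  refine eq_zero_of_coprime_nsmul ((hq.coprime_iff_not_dvd.mpr hn).pow_left e) h ?_
  have hs0 : σ • (0 : JZero (M * q)) = 0 :=
    (DistribSMul.toAddMonoidHom (JZero (M * q)) σ).map_zero
  have hw0 : alAut M q hq hqM • (0 : JZero (M * q)) = 0 :=
    (DistribSMul.toAddMonoidHom (JZero (M * q)) (alAut M q hq hqM)).map_zero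
  rw [hmul, hx, hs0, hs0, hw0, nsmul_zero, nsmul_zero, add_zero, add_zero]

end Fermat.BAD.X0

end
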