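import Fermat.Agent.BAD.X0.Degen
import Fermat.Agent.JAC.SemilinearPic

/-!
# Change of the level away from `q`

The inclusion of the functions of level `N` into those of a multiple level commutes with Galois,
with the Atkin-Lehner involution at a prime exactly dividing both levels, and with both
expansions; pushing forward a pullback multiplies by the degree.
-/

set_option autoImplicit false

attribute [local instance 10000] SubalgebraClass.toAlgebra HahnSeries.powerSeriesAlgebra

noncomputable section

open ModularCurve AlgebraicCurve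

namespace Fermat.BAD.X0

open Fermat.MC Fermat.JAC Fermat.JAC.X0 Fermat.RED.Model

section Generic

variable {K F F' : Type*} [Field K] [Field F] [Field F'] [Algebra K F] [Algebra K F']
  [IsAlgClosed K] [FF.IsFunctionField K F] [FF.IsFunctionField K F'] (φ : F →ₐ[K] F')

omit [IsAlgClosed K] in
/-- A map of function fields has nonzero degree. -/
theorem finrankAlong_ne_zero : finrankAlong K φ ≠ 0 := by
  let := algebraAlong φ
  have : Module.Finite F F' := FF.finiteAlong φ
  exact Module.finrank_pos.ne'

/-- Pulling a divisor back and pushing it forward multiplies it by the degree. -/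
theorem pushDiv_pullDiv (D : Divisor K F) :
    pushDiv φ (pullDiv φ D) = finrankAlong K φ • D := by
  induction D using Finsupp.induction with
  | zero => simp
  | single_add v n D _ _ ih =>
    rw [map_add, map_add, smul_add, ih]
    congr 1
    have h : pushDiv φ (pullDiv φ (Finsupp.single v n)) =
        Finsupp.single v (∑ w ∈ above φ v, n * (w.ramificationIndexAlong φ : ℤ)) := by
      rw [pullDiv_single, map_sum, Finsupp.single_finsetSum]
      refine Finset.sum_congr rfl fun w hw => ?_
      rw [pushDiv_single, (mem_above φ).mp hw]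
    have hd := congrArg Divisor.degree h
    rw [degree_pushDiv, degree_pullDiv, Divisor.degree_single, Divisor.degree_single,
      FF.deg_eq_one, Nat.cast_one, mul_one, mul_one] at hd
    rw [h, ← hd, Finsupp.smul_single, nsmul_eq_mul]

/-- Pulling a class back and pushing it forward multiplies it by the degree. -/
theorem pushPic_pullPic (x : Pic0 K F) : pushPic φ (pullPic φ x) = finrankAlong K φ • x := by
  obtain ⟨D, rfl⟩ := Pic0.mk_surjective x
  exact (congrArg Pic0.mk (Subtype.ext (pushDiv_pullDiv φ (D : Divisor K F)) :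
    _ = finrankAlong K φ • D)).trans (map_nsmul (QuotientAddGroup.mk' _) _ D)

/-- A quadratic relation `(g - 1) ^ 2 = 0` on a pullback holds below up to the degree. -/
theorem finrank_nsmul_of_pull_sub {g : SemilinearAut K F} {g' : SemilinearAut K F'}
    (hg : ∀ z : Pic0 K F, g' • pullPic φ z = pullPic φ (g • z)) {x : Pic0 K F}
    (h : g' • (g' • pullPic φ x - pullPic φ x) - (g' • pullPic φ x - pullPic φ x) = 0) :
    finrankAlong K φ • (g • (g • x - x) - (g • x - x)) = 0 := by
  rw [hg, ← map_sub, hg, ← map_sub] at h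
  rw [← pushPic_pullPic φ, h, map_zero]

/-- A relation `(g + m w) (g + w) = 0` on a pullback holds below up to the degree. -/
theorem finrank_nsmul_of_pull_add {g w : SemilinearAut K F} {g' w' : SemilinearAut K F'}
    (hg : ∀ z : Pic0 K F, g' • pullPic φ z = pullPic φ (g • z))
    (hw : ∀ z : Pic0 K F, w' • pullPic φ z = pullPic φ (w • z)) {m : ℕ} {x : Pic0 K F}
    (h : g' • (g' • pullPic φ x + w' • pullPic φ x) +
      m • w' • (g' • pullPic φ x + w' • pullPic φ x) = 0) :
    finrankAlong K φ • (g • (g • x + w • x) + m • w • (g • x + w • x)) = 0 := by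
  rw [hg, hw, ← map_add, hg, hw, ← map_nsmul, ← map_add] at h
  rw [← pushPic_pullPic φ, h, map_zero]

/-- Torsion killed by two coprime numbers is trivial. -/
theorem eq_zero_of_coprime_nsmul {G : Type*} [AddMonoid G] {a b : ℕ} (hab : Nat.Coprime a b)
    {x : G} (ha : a • x = 0) (hb : b • x = 0) : x = 0 := by
  have h := Nat.dvd_gcd (addOrderOf_dvd_of_nsmul_eq_zero ha) (addOrderOf_dvd_of_nsmul_eq_zero hb)
  rw [hab.gcd_eq_one, Nat.dvd_one, AddMonoid.addOrderOf_eq_one_iff] at h
  exact h

end Generic

local notation "Qb" => AlgebraicClosure ℚ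

variable {N N' : ℕ} [NeZero N] [NeZero N']

/-- The inclusion of the functions of level `N` into those of level `N'`. -/
def inclN (h : N ∣ N') : FN N Qb →ₐ[Qb] FN N' Qb :=
  IntermediateField.inclusion (((fullC_eq_baseChange Qb N).le.trans
    (full_degeneracyC_le Qb h)).trans (fullC_eq_baseChange Qb N').ge)

/-- The inclusion does not change series. -/
theorem coe_inclN (h : N ∣ N') (f : FN N Qb) :
    (inclN h f : LaurentSeries Qb) = (f : LaurentSeries Qb) :=
  IntermediateField.coe_inclusion _ f

/-- The inclusion is linear. -/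
theorem inclN_smul (h : N ∣ N') (c : Qb) (f : FN N Qb) : inclN h (c • f) = c • inclN h f := by
  rw [Algebra.smul_def, map_mul, AlgHom.commutes, Algebra.smul_def]

/-- It commutes with Galois. -/
theorem inclN_galois (h : N ∣ N') (σ : Qb ≃ₐ[ℚ] Qb) (f : FN N Qb) :
    arithmeticGalois (modularFunctionFieldFull N') σ • inclN h f =
      inclN h (arithmeticGalois (modularFunctionFieldFull N) σ • f) :=
  Subtype.ext (by
    rw [coe_arithmeticGalois_smul, coe_inclN, coe_inclN, coe_arithmeticGalois_smul])

/-- It sends generators to generators. -/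
theorem inclN_jdL (h : N ∣ N') (d : DivIdx N) :
    inclN h (jdL Qb d) =
      jdL Qb (⟨d, Nat.mem_divisors.mpr ⟨d.dvd.trans h, NeZero.ne N'⟩⟩ : DivIdx N') :=
  Subtype.ext ((coe_inclN h _).trans rfl)

section AtkinLehner

variable {M M' : ℕ} [NeZero M] [NeZero M'] {q : ℕ} [NeZero q] (hq : q.Prime) (hqM : ¬ q ∣ M)
  (hqM' : ¬ q ∣ M') (h : M * q ∣ M' * q)

/-- It commutes with the Atkin–Lehner involution at `q`. -/
theorem inclN_alW (f : FN (M * q) Qb) :
    alW M' q hq hqM' (inclN h f) = inclN h (alW M q hq hqM f) := by
  refine ringHom_ext_jdL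
    (φ := (alW M' q hq hqM').toAlgHom.toRingHom.comp (inclN h).toRingHom)
    (ψ := (inclN h).toRingHom.comp (alW M q hq hqM).toAlgHom.toRingHom) (fun c => ?_)
      (fun d => ?_) f
  · change alW M' q hq hqM' (inclN h (algebraMap Qb (FN (M * q) Qb) c)) =
      inclN h (alW M q hq hqM (algebraMap Qb (FN (M * q) Qb) c))
    rw [AlgHom.commutes, AlgEquiv.commutes, AlgEquiv.commutes, AlgHom.commutes]
  · change alW M' q hq hqM' (inclN h (jdL Qb d)) = inclN h (alW M q hq hqM (jdL Qb d))
    rw [inclN_jdL, alW_jdL, alW_jdL, inclN_jdL]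
    refine congrArg (jdL Qb) (Subtype.ext ?_)
    change ((swapPerm hq ⟨(d : ℕ), _⟩ : DivIdx (M' * q)) : ℕ) =
      ((swapPerm hq d : DivIdx (M * q)) : ℕ)
    by_cases hd : q ∣ (d : ℕ) <;> simp [swapPerm, hd]

/-- It keeps both expansions. -/
theorem emb_inclN (b : Bool) (f : FN (M * q) Qb) :
    emb M' q hq hqM' b (inclN h f) = emb M q hq hqM b f := by
  cases b
  · rw [emb_false, emb_false, inclN_alW hq hqM hqM' h, coe_inclN]
  · rw [emb_true, emb_true, coe_inclN]

variable {A : ValuationSubring (AlgebraicClosure ℚ)}

/-- It keeps both reductions. -/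
theorem redF_inclN (b : Bool) {f : FN (M * q) Qb} (hf : emb M q hq hqM b f ∈ intSeries A) :
    redF (IsLocalRing.residue A) (emb M' q hq hqM' b) (inclN h f) =
      redF (IsLocalRing.residue A) (emb M q hq hqM b) f := by
  rw [redF_of_mem hf, redF_of_mem (f := inclN h f) (by rw [emb_inclN hq hqM hqM' h]; exact hf)]
  exact congrArg _ (Subtype.ext (emb_inclN hq hqM hqM' h b f))

end AtkinLehner

end Fermat.BAD.X0

end
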