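import Fermat.Agent.BAD.X0.Poles
import Fermat.Agent.RED.Model.X0Normal

/-!
# Good reduction of functions with bounded poles, at level `M` prime to the residue characteristic

An integral expansion of a function regular where `x` is regular reduces to a function regular
where the reduction of `x` is regular; such functions have bounded expansions.
-/

set_option autoImplicit false

attribute [local instance 10000] SubalgebraClass.toAlgebra HahnSeries.powerSeriesAlgebra

noncomputable section

open ModularCurve AlgebraicCurve

namespace Fermat.BAD.X0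

open Fermat.FF Fermat.RED.Model

section Abstract

variable {L : Type*} [Field L] {A : ValuationSubring L}
variable {k : Type*} [Field k] {π : A →+* k}
variable {F : Type*} [Field F] [Algebra L F] {ι : F →+* LaurentSeries L} {x : F} {d : ℕ}

/-- A function regular where `x` is has a bounded expansion. -/
theorem exists_smul_int (h : GoodModel π ι x d) {g : F} (hg : g ∈ intClosure L x) :
    ∃ c : L, c ≠ 0 ∧ c ∈ A ∧ algebraMap L (LaurentSeries L) c * ι g ∈ intSeries A := by
  obtain ⟨c, hc, hcA, hcg⟩ := exists_scale_of_mem_intClosure hg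
  refine ⟨c, hc, hcA, ?_⟩
  rw [← h.ι_algebraMap, ← map_mul]
  exact h.int_chart _ hcg

/-- With a good model, an integral expansion of a function regular where `x` is reduces to a
function regular where the reduction of `x` is. -/
theorem redS_mem_intClosure_of_int (h : GoodModel π ι x d) {g : F} (hg : g ∈ intClosure L x)
    (hi : ι g ∈ intSeries A) : redS π ι g ∈ intClosure k (redS π ι x) := by
  rcases eq_or_ne g 0 with rfl | hg0
  · rw [show redS π ι (0 : F) = 0 from Subtype.ext redF_zero]
    exact zero_mem _
  obtain ⟨c, hc, hcA, hcg⟩ := exists_scale_of_mem_intClosure hg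
  obtain ⟨c', hc'A, hc', g', hg', hne, e⟩ := h.exists_eq_smul_primitive hcg
    (mul_ne_zero ((_root_.map_ne_zero _).mpr hc) hg0)
  have hge : g = algebraMap L F (c' / c) * g' := by
    rw [map_div₀, div_mul_eq_mul_div, ← e, mul_div_cancel_left₀ _ ((_root_.map_ne_zero _).mpr hc)]
  -- `g` is a scalar times a primitive function; the scalar is integral as `g` is
  by_cases ha : c' / c ∈ A
  · rw [hge, redS_mul (h.int_algebraMap ha) (h.int_chart _ hg'), h.redS_algebraMap ha,
      ← Algebra.smul_def]
    exact (intClosure k (redS π ι x)).smul_mem (h.redS_mem_intClosure hg') _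
  · exfalso
    have hb : (c' / c)⁻¹ ∈ A := (A.mem_or_inv_mem _).resolve_left ha
    have hge' : g' = algebraMap L F (c' / c)⁻¹ * g := by
      rw [hge, ← mul_assoc, ← map_mul, inv_mul_cancel₀ (div_ne_zero hc' hc), map_one, one_mul]
    refine hne ?_
    rw [hge', redF_mul (h.int_algebraMap hb) hi, h.redF_algebraMap hb,
      map_eq_zero_of_inv_notMem h.surj (a := ⟨_, hb⟩) (by simpa using ha), map_zero, zero_mul]

variable [IsAlgClosed L] [IsAlgClosed k] [FF.IsFunctionField L F]
  [FF.IsFunctionField k (specField π ι)]

/-- An integral expansion in `L (n (x)_∞)` reduces into the space of `n` times the poles of the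
reduction of `x`. -/
theorem redS_mem_riemannRochSpace (h : GoodModel π ι x d) {n : ℕ} {g : F}
    (hg : g ∈ riemannRochSpace (n • poleDiv L x)) (hi : ι g ∈ intSeries A) :
    redS π ι g ∈ riemannRochSpace (n • poleDiv k (redS π ι x)) := by
  obtain ⟨h1, h2⟩ := (mem_nsmul_poleDiv_iff h.transcendental n).mp hg
  refine (mem_nsmul_poleDiv_iff h.transcendental_redS n).mpr
    ⟨redS_mem_intClosure_of_int h h1 hi, ?_⟩
  have := redS_mem_intClosure_of_int h.inv h2
    (by rw [map_mul, map_pow]; exact mul_mem (pow_mem h.int_inv n) hi)
  rwa [h.redS_inv, redS_mul (by rw [map_pow]; exact pow_mem h.int_inv n) hi,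
    redS_pow h.int_inv, h.redS_inv] at this

end Abstract

section Congr

variable {K : Type*} [Field K] [IsAlgClosed K] {S T : IntermediateField K (LaurentSeries K)}

omit [IsAlgClosed K] in
/-- Transport of integrality along an equality of fields of series. -/
theorem intClosure_congr (h : S = T) {z x : S} {z' x' : T}
    (hz : (z : LaurentSeries K) = z') (hx : (x : LaurentSeries K) = x')
    (hm : z ∈ intClosure K x) : z' ∈ intClosure K x' := by
  subst h
  rwa [← Subtype.ext hz, ← Subtype.ext hx]

/-- Transport of pole bounds along an equality of fields of series. -/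
theorem riemannRochSpace_congr [FF.IsFunctionField K S] [FF.IsFunctionField K T] (h : S = T)
    {n : ℕ} {z x : S} {z' x' : T}
    (hz : (z : LaurentSeries K) = z') (hx : (x : LaurentSeries K) = x')
    (hm : z ∈ riemannRochSpace (n • poleDiv K x)) :
    z' ∈ riemannRochSpace (n • poleDiv K x') := by
  subst h
  rwa [← Subtype.ext hz, ← Subtype.ext hx]

end Congr

section Level

open Fermat.MC

local notation "Qb" => AlgebraicClosure ℚ

variable {M q : ℕ} [NeZero M] (hq : q.Prime) (hqM : ¬ q ∣ M)
variable {A : ValuationSubring (AlgebraicClosure ℚ)} (hA : A.LiesOverPrime q)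

/-- The arithmetic Galois action fixes `j`. -/
theorem arithmeticGalois_smul_jL (σ : Qb ≃ₐ[ℚ] Qb) :
    arithmeticGalois (modularFunctionFieldFull M) σ • jL M Qb = jL M Qb :=
  Subtype.ext (by rw [coe_arithmeticGalois_smul, coe_jL, coeffMap_jqModC])

omit [NeZero M] in
/-- The reduction of `j`. -/
theorem redF_jX : redF (IsLocalRing.residue A) (expX Qb M) (jX Qb M) =
    jqModC (IsLocalRing.ResidueField A) := by
  rw [redF_of_mem (show expX Qb M (jX Qb M) ∈ intSeries A from jqModC_mem_intSeries)]
  refine Eq.trans ?_ (coeffMap_jqModC (IsLocalRing.residue A))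
  rw [← redHom_coeffMap (IsLocalRing.residue A) (jqModC A) ⟨_, rfl⟩]
  exact congrArg _ (Subtype.ext coeffMap_subtype_jqModC.symm)

include hq hqM hA

/-- The good model of `X₀ (M)` at a place over `q ∤ M`, with coordinate `j`. -/
theorem goodModel_level : GoodModel (IsLocalRing.residue A) (expX Qb M) (jX Qb M) (dedekindPsi M) :=
  goodModel_X0 IsLocalRing.residue_surjective (natCast_ne_zero_residue A hq hA hqM)

/-- A function of level `M` regular away from the cusps has a bounded expansion. -/
theorem exists_smul_int_level (x : FN M Qb) (hx : x ∈ intClosure Qb (jL M Qb)) :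
    ∃ c : Qb, c ≠ 0 ∧ c ∈ A ∧
      algebraMap Qb (LaurentSeries Qb) c * (x : LaurentSeries Qb) ∈ intSeries A :=
  exists_smul_int (goodModel_level hq hqM hA) (g := ⟨x, by rw [← fullC_eq_baseChange]; exact x.2⟩)
    (intClosure_congr (fullC_eq_baseChange Qb M) rfl (coe_jL M) hx)

/-- A function of level `M` regular away from the cusps with integral expansion reduces to one
regular away from the cusps. -/
theorem mem_intClosure_level [IsAlgClosed (IsLocalRing.ResidueField A)]
    (x : FN M Qb) (hx : x ∈ intClosure Qb (jL M Qb))
    (y : LaurentSeries A) (hy : (x : LaurentSeries Qb) = coeffMap A.subtype y)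
    (z : FX (IsLocalRing.ResidueField A) M)
    (hz : (z : LaurentSeries (IsLocalRing.ResidueField A)) = coeffMap (IsLocalRing.residue A) y) :
    z ∈ intClosure (IsLocalRing.ResidueField A) (jX (IsLocalRing.ResidueField A) M) := by
  have hM := natCast_ne_zero_residue A hq hA hqM
  set x' : FX Qb M := ⟨x, by rw [← fullC_eq_baseChange]; exact x.2⟩
  have hi : expX Qb M x' ∈ intSeries A := ⟨y, hy.symm⟩
  refine intClosure_congr (specField_X0 (L := Qb) (A := A) IsLocalRing.residue_surjective hM)
    ?_ ?_ (redS_mem_intClosure_of_int (goodModel_level (M := M) hq hqM hA)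
      (g := x') (intClosure_congr (fullC_eq_baseChange Qb M) rfl (coe_jL M) hx) hi)
  · change redF _ _ x' = _
    rw [hz, redF_of_mem hi, ← redHom_coeffMap (IsLocalRing.residue A) y ⟨y, rfl⟩]
    exact congrArg _ (Subtype.ext hy)
  · exact redF_jX

/-- An integral expansion in `L (n (j)_∞)` at level `M` reduces into the corresponding space in
characteristic `q`. -/
theorem redF_mem_riemannRochSpace_level [IsAlgClosed (IsLocalRing.ResidueField A)]
    [FF.IsFunctionField Qb (FN M Qb)]
    [FF.IsFunctionField (IsLocalRing.ResidueField A) (FX (IsLocalRing.ResidueField A) M)]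
    {n : ℕ} (x : FN M Qb) (hx : x ∈ riemannRochSpace (n • poleDiv Qb (jL M Qb)))
    (y : LaurentSeries A) (hy : (x : LaurentSeries Qb) = coeffMap A.subtype y)
    (z : FX (IsLocalRing.ResidueField A) M)
    (hz : (z : LaurentSeries (IsLocalRing.ResidueField A)) = coeffMap (IsLocalRing.residue A) y) :
    z ∈ riemannRochSpace (n • poleDiv (IsLocalRing.ResidueField A)
      (jX (IsLocalRing.ResidueField A) M)) := by
  have hM := natCast_ne_zero_residue A hq hA hqM
  obtain ⟨i1, i2⟩ := isFunctionField_X0 (L := Qb) (A := A) (π := IsLocalRing.residue A)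
    IsLocalRing.residue_surjective hM
  have := i1
  have := i2
  have h := goodModel_level (M := M) hq hqM hA
  set x' : FX Qb M := ⟨x, by rw [← fullC_eq_baseChange]; exact x.2⟩
  have hi : expX Qb M x' ∈ intSeries A := ⟨y, hy.symm⟩
  have hx' : x' ∈ riemannRochSpace (n • poleDiv Qb (jX Qb M)) :=
    riemannRochSpace_congr (fullC_eq_baseChange Qb M) rfl (coe_jL M) hx
  refine riemannRochSpace_congr (specField_X0 (L := Qb) (A := A) IsLocalRing.residue_surjective hM)
    ?_ ?_ (redS_mem_riemannRochSpace h hx' hi)
  · change redF _ _ x' = _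
    rw [hz, redF_of_mem hi, ← redHom_coeffMap (IsLocalRing.residue A) y ⟨y, rfl⟩]
    exact congrArg _ (Subtype.ext hy)
  · exact redF_jX

end Level

end Fermat.BAD.X0

end
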