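import Fermat.Agent.BAD.X0.Glue
import Fermat.Agent.JAC.PicMaps

/-!
# Reductions of functions with principal pushforward

Write `y = P / Q` with polynomials in the `j (d z)` and scale each of them to primitive expansions
at both cusps.  If the norm of `y` to level `M` is a constant times an `n`-th power, so is
`ρ∞ * frob ρ0` for the reductions `ρ` of the scaled `y`.
-/

set_option autoImplicit false
set_option linter.unusedSectionVars false

attribute [local instance 10000] SubalgebraClass.toAlgebra HahnSeries.powerSeriesAlgebra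

noncomputable section

open ModularCurve

namespace Fermat.BAD.X0

open Fermat.MC Fermat.JAC Fermat.RED Fermat.RED.Model

local notation "Qb" => AlgebraicClosure ℚ

variable (M q : ℕ) [NeZero M] [NeZero q] [Fact q.Prime] (hq : q.Prime) (hqM : ¬ q ∣ M)
variable {A : ValuationSubring (AlgebraicClosure ℚ)} (hA : A.LiesOverPrime q)

local notation "kA" => IsLocalRing.ResidueField A

include hA in
/-- A nonzero polynomial in the `j (d z)` has a primitive multiple at each cusp. -/
theorem exists_prim_poly {P : FN (M * q) Qb} (hP : P ∈ polyAlg M q) (hP0 : P ≠ 0) (b : Bool) :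
    ∃ a : Qb, a ≠ 0 ∧ emb M q hq hqM b (a • P) ∈ intSeries A ∧
      redF (IsLocalRing.residue A) (emb M q hq hqM b) (a • P) ≠ 0 := by
  obtain ⟨a, ha, hi⟩ := bdd_polyAlg M q hq hqM (A := A) hP b
  obtain ⟨a', h1, h2⟩ := attained M q hq hqM hA b (a • P) (smul_ne_zero ha hP0) hi
  refine ⟨a' * a, fun h => h2 ?_, by rw [mul_smul]; exact h1, by rw [mul_smul]; exact h2⟩
  rw [smul_smul, h, zero_smul, redF_zero]

variable [CharP (IsLocalRing.ResidueField A) q]
variable [FF.IsFunctionField Qb (FN (M * q) Qb)] [FF.IsFunctionField Qb (FN M Qb)]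

include hq hqM in
/-- The scaled norm of `P` has integral expansion, reducing to the product of the reduction at `∞`
and the Frobenius transform of that at `0`. -/
theorem exists_norm_series {P : FN (M * q) Qb} {a₁ a₀ : Qb}
    (h₁ : emb M q hq hqM true (a₁ • P) ∈ intSeries A)
    (h₀ : emb M q hq hqM false (a₀ • P) ∈ intSeries A) :
    ∃ Y : LaurentSeries A,
      coeffMap A.subtype Y = algebraMap Qb (LaurentSeries Qb) (a₁ * a₀ ^ q) *
          ((normAlong (heckeAlphaBar Qb M q) P : FN M Qb) : LaurentSeries Qb) ∧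
      coeffMap (IsLocalRing.residue A) Y =
        redF (IsLocalRing.residue A) (emb M q hq hqM true) (a₁ • P) *
          coeffMap (frobenius kA q) (redF (IsLocalRing.residue A) (emb M q hq hqM false)
            (a₀ • P)) := by
  obtain ⟨ζ, hζ⟩ := exists_zeta q
  obtain ⟨y, hy⟩ := id h₁
  obtain ⟨yd, hyd⟩ := id h₀
  have hC : ∀ c : Qb, algebraMap Qb (LaurentSeries Qb) c = HahnSeries.single (0 : ℤ) c :=
    algebraMap_laurentSeries_eq_single _
  have htw : ∀ (u : Qbˣ) (c : Qb), twist u (algebraMap Qb (LaurentSeries Qb) c) =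
      algebraMap Qb (LaurentSeries Qb) c :=
    RED.twist_algebraMap
  obtain ⟨Y, hY, hYr⟩ := exists_reduction_of_norm_type (π := IsLocalRing.residue A) hζ
    (z := algebraMap Qb (LaurentSeries Qb) (a₁ * a₀ ^ q) *
      ((normAlong (heckeAlphaBar Qb M q) P : FN M Qb) : LaurentSeries Qb))
    (y := y) (yd := yd) (by
      rw [hy, hyd, emb_smul (emb_algebraMap M q hq hqM true),
        emb_smul (emb_algebraMap M q hq hqM false)]
      simp only [map_mul, htw, Finset.prod_mul_distrib, Finset.prod_const, Finset.card_univ,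
        Fintype.card_fin, map_pow, qExpand_norm M q hq hqM hζ P]
      rw [show qExpand Qb q (algebraMap Qb (LaurentSeries Qb) a₀) =
        algebraMap Qb (LaurentSeries Qb) a₀ by rw [hC, ModularCurve.qExpand_single, mul_zero]]
      ring)
  refine ⟨Y, hY.symm, hYr.trans ?_⟩
  rw [redF_of_mem h₁, redF_of_mem h₀, ← redHom_coeffMap (IsLocalRing.residue A) y ⟨y, rfl⟩,
    ← redHom_coeffMap (IsLocalRing.residue A) yd ⟨yd, rfl⟩]
  exact congrArg₂ (fun u v => u * coeffMap (frobenius kA q) v)
    (congrArg _ (Subtype.ext hy)) (congrArg _ (Subtype.ext hyd))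

omit [NeZero q] [Fact q.Prime] [CharP (IsLocalRing.ResidueField A) q]
  [FF.IsFunctionField Qb (FN (M * q) Qb)] [FF.IsFunctionField Qb (FN M Qb)] in
/-- Primitive series which are proportional have proportional reductions. -/
theorem exists_red_proportional {X Y : LaurentSeries A} {t : Qb}
    (he : coeffMap A.subtype X = algebraMap Qb (LaurentSeries Qb) t * coeffMap A.subtype Y)
    (hX : coeffMap (IsLocalRing.residue A) X ≠ 0) (hY : coeffMap (IsLocalRing.residue A) Y ≠ 0) :
    ∃ e : kA, e ≠ 0 ∧
      coeffMap (IsLocalRing.residue A) X = algebraMap kA _ e *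
        coeffMap (IsLocalRing.residue A) Y := by
  have key : ∀ {X Y : LaurentSeries A} {t : Qb} (_ : t ∈ A),
      coeffMap A.subtype X = algebraMap Qb (LaurentSeries Qb) t * coeffMap A.subtype Y →
      coeffMap (IsLocalRing.residue A) X ≠ 0 → ∃ e : kA, e ≠ 0 ∧
        coeffMap (IsLocalRing.residue A) X =
          algebraMap kA _ e * coeffMap (IsLocalRing.residue A) Y := by
    intro X Y t ht he hX
    have hX' : X = HahnSeries.single (0 : ℤ) (⟨t, ht⟩ : A) * Y :=
      Model.coeffMap_subtype_injective A (by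
        rw [he, map_mul, coeffMap_single, algebraMap_laurentSeries_eq_single]; rfl)
    have h1 : coeffMap (IsLocalRing.residue A) X =
        algebraMap kA _ (IsLocalRing.residue A ⟨t, ht⟩) * coeffMap (IsLocalRing.residue A) Y := by
      rw [hX', map_mul, coeffMap_single, algebraMap_laurentSeries_eq_single]
    exact ⟨_, fun h0 => hX (by rw [h1, h0, map_zero, zero_mul]), h1⟩
  rcases A.mem_or_inv_mem t with ht | ht
  · exact key ht he hX
  · have he' : coeffMap A.subtype Y = algebraMap Qb (LaurentSeries Qb) t⁻¹ *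
        coeffMap A.subtype X := by
      have ht0 : t ≠ 0 := fun h0 => hX (by
        rw [h0, map_zero, zero_mul, ← map_zero (coeffMap A.subtype)] at he
        rw [Model.coeffMap_subtype_injective A he, map_zero])
      rw [he, ← mul_assoc, ← map_mul, inv_mul_cancel₀ ht0, map_one, one_mul]
    obtain ⟨e, he0, he1⟩ := key ht he' hY
    exact ⟨e⁻¹, inv_ne_zero he0, by
      rw [he1, ← mul_assoc, ← map_mul, inv_mul_cancel₀ he0, map_one, one_mul]⟩

variable [IsAlgClosed (IsLocalRing.ResidueField A)]

include hA hq hqM in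
/-- A function of level `M` as a quotient of primitive series. -/
theorem exists_prim_quot {h : FN M Qb} (hh : h ≠ 0) :
    ∃ (c : Qb) (N D : LaurentSeries A), c ≠ 0 ∧
      algebraMap Qb (LaurentSeries Qb) c * (h : LaurentSeries Qb) * coeffMap A.subtype D =
        coeffMap A.subtype N ∧
      coeffMap (IsLocalRing.residue A) N ∈ modularFunctionFieldFullC kA M ∧
      coeffMap (IsLocalRing.residue A) D ∈ modularFunctionFieldFullC kA M ∧
      coeffMap (IsLocalRing.residue A) N ≠ 0 ∧ coeffMap (IsLocalRing.residue A) D ≠ 0 := by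
  have hM := natCast_ne_zero_residue A hq hA hqM
  have hgm := goodModel_level (M := M) hq hqM hA
  set h' : FX Qb M := ⟨h, by rw [← fullC_eq_baseChange]; exact h.2⟩
  have hh' : h' ≠ 0 := fun h0 => hh (ZeroMemClass.coe_eq_zero.mp
    ((congrArg (fun z : FX Qb M => (z : LaurentSeries Qb)) h0).trans (ZeroMemClass.coe_zero _)))
  obtain ⟨D, c, g, hD, hc, hg, ⟨⟨⟩, hg0⟩, e⟩ :=
    hgm.toPreModel.exists_primitive_family (α := Unit) (fun _ => h') ⟨(), hh'⟩
  obtain ⟨Nn, hNn⟩ := hgm.int_chart _ (hg ())
  obtain ⟨Dd, hDd⟩ := hgm.toPreModel.int_ax D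
  have hr : ∀ (f : FX Qb M) (Y : LaurentSeries A), coeffMap A.subtype Y = expX Qb M f →
      coeffMap (IsLocalRing.residue A) Y = redF (IsLocalRing.residue A) (expX Qb M) f :=
        fun f Y hY => by
    rw [redF_of_mem (⟨Y, hY⟩ : expX Qb M f ∈ intSeries A),
      ← redHom_coeffMap (IsLocalRing.residue A) Y ⟨Y, rfl⟩]
    exact congrArg _ (Subtype.ext hY)
  have hmem : ∀ (f : FX Qb M) (Y : LaurentSeries A), coeffMap A.subtype Y = expX Qb M f →
      coeffMap (IsLocalRing.residue A) Y ∈ modularFunctionFieldFullC kA M := fun f Y hY =>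
    mem_fullC_of_coe IsLocalRing.residue_surjective hM Y (hY ▸ f.2)
  refine ⟨c⁻¹, Nn, Dd, inv_ne_zero hc, ?_, hmem _ _ hNn, hmem _ _ hDd,
    by rw [hr _ _ hNn]; exact hg0, by rw [hr _ _ hDd]; exact hgm.toPreModel.redF_ax_ne_zero hD⟩
  have e' := congrArg (expX Qb M) (e ())
  rw [map_mul, map_mul, expX_algebraMap] at e'
  rw [hNn, hDd, mul_assoc, mul_comm (h : LaurentSeries Qb),
    show (h : LaurentSeries Qb) = expX Qb M h' from rfl, e', ← mul_assoc, ← map_mul,
    inv_mul_cancel₀ hc, map_one, one_mul]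

include hA hq hqM in
/-- If the norm is a constant times an `n`-th power, so is the product of the reductions. -/
theorem exists_pow_of_norm {n : ℕ} (hn : n ≠ 0) {y P Q : FN (M * q) Qb} (hy : y * Q = P)
    {h : FN M Qb} (hh : h ≠ 0) {c : Qb} (hc : c ≠ 0)
    (hN : normAlong (heckeAlphaBar Qb M q) y = algebraMap Qb (FN M Qb) c * h ^ n)
    {a b : Bool → Qb} (ha : ∀ i, emb M q hq hqM i (a i • P) ∈ intSeries A)
    (ha0 : ∀ i, redF (IsLocalRing.residue A) (emb M q hq hqM i) (a i • P) ≠ 0)
    (hb : ∀ i, emb M q hq hqM i (b i • Q) ∈ intSeries A)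
    (hb0 : ∀ i, redF (IsLocalRing.residue A) (emb M q hq hqM i) (b i • Q) ≠ 0) :
    ∃ w : FX kA M, (w : LaurentSeries kA) ^ n =
      (redF (IsLocalRing.residue A) (emb M q hq hqM true) (a true • P) /
        redF (IsLocalRing.residue A) (emb M q hq hqM true) (b true • Q)) *
      coeffMap (frobenius kA q)
        (redF (IsLocalRing.residue A) (emb M q hq hqM false) (a false • P) /
          redF (IsLocalRing.residue A) (emb M q hq hqM false) (b false • Q)) := by
  obtain ⟨YP, hYP, hYPr⟩ := exists_norm_series M q hq hqM (ha true) (ha false)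
  obtain ⟨YQ, hYQ, hYQr⟩ := exists_norm_series M q hq hqM (hb true) (hb false)
  obtain ⟨c', N, D, hc', hND, hNm, hDm, hN0, hD0⟩ := exists_prim_quot M q hq hqM hA hh
  have hinj := coeffMap_injective (frobenius kA q) (frobenius_inj kA q)
  have hP0 : coeffMap (IsLocalRing.residue A) YP ≠ 0 := by
    rw [hYPr]; exact mul_ne_zero (ha0 true) ((map_ne_zero_iff _ hinj).mpr (ha0 false))
  have hQ0 : coeffMap (IsLocalRing.residue A) YQ ≠ 0 := by
    rw [hYQr]; exact mul_ne_zero (hb0 true) ((map_ne_zero_iff _ hinj).mpr (hb0 false))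
  have hnorm := congrArg (fun z : FN M Qb => (z : LaurentSeries Qb))
    (congrArg (normAlong (heckeAlphaBar Qb M q)) hy)
  simp only [map_mul, hN] at hnorm
  set HP := ((normAlong (heckeAlphaBar Qb M q) P : FN M Qb) : LaurentSeries Qb)
  set HQ := ((normAlong (heckeAlphaBar Qb M q) Q : FN M Qb) : LaurentSeries Qb)
  set Hh := (h : LaurentSeries Qb)
  have hnorm' : algebraMap Qb (LaurentSeries Qb) c * Hh ^ n * HQ = HP := hnorm
  -- the norms give proportional primitive series, hence proportional reductions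
  set α := a true * a false ^ q
  set β := b true * b false ^ q
  have hβ : β ≠ 0 := fun h0 => hQ0 (by
    rw [h0, map_zero, zero_mul, ← map_zero (coeffMap A.subtype)] at hYQ
    rw [Model.coeffMap_subtype_injective A hYQ, map_zero])
  have hprop : coeffMap A.subtype (YP * D ^ n) =
      algebraMap Qb (LaurentSeries Qb) (α * c * (β * c' ^ n)⁻¹) *
        coeffMap A.subtype (YQ * N ^ n) := by
    have hcc : algebraMap Qb (LaurentSeries Qb) (α * c * (β * c' ^ n)⁻¹) *
        algebraMap Qb (LaurentSeries Qb) β * algebraMap Qb (LaurentSeries Qb) c' ^ n =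
          algebraMap Qb (LaurentSeries Qb) α * algebraMap Qb (LaurentSeries Qb) c := by
      rw [← map_pow, ← map_mul, ← map_mul, ← map_mul]
      congr 1
      field_simp
    rw [map_mul (coeffMap A.subtype) YP, map_mul (coeffMap A.subtype) YQ, map_pow, map_pow, ← hND,
      hYP, hYQ, ← hnorm']
    linear_combination -(Hh ^ n * HQ * coeffMap A.subtype D ^ n) * hcc
  obtain ⟨e, he0, he⟩ := exists_red_proportional hprop
    (by rw [map_mul, map_pow]; exact mul_ne_zero hP0 (pow_ne_zero _ hD0))
    (by rw [map_mul, map_pow]; exact mul_ne_zero hQ0 (pow_ne_zero _ hN0))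
  rw [map_mul, map_mul, map_pow, map_pow] at he
  obtain ⟨e', rfl⟩ := IsAlgClosed.exists_pow_nat_eq e (Nat.pos_of_ne_zero hn)
  refine ⟨algebraMap kA (FX kA M) e' * (⟨_, hNm⟩ / ⟨_, hDm⟩), ?_⟩
  change (algebraMap kA (LaurentSeries kA) e' *
    (coeffMap (IsLocalRing.residue A) N / coeffMap (IsLocalRing.residue A) D)) ^ n = _
  rw [map_div₀, div_mul_div_comm, ← hYPr, ← hYQr, mul_pow, div_pow, ← map_pow, ← mul_div_assoc,
    div_eq_div_iff (pow_ne_zero _ hD0) hQ0, he]
  ring

end Fermat.BAD.X0

end
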