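import Fermat.Agent.BAD.X0.Setup
import Fermat.Agent.RED.Model.Separate
import Mathlib.RingTheory.Trace.Basic

/-!
# Traces and poles, for abstract function fields

The trace keeps integrality over `L[x]` and the order of the poles; a root of a monic polynomial
whose coefficient of `Y ^ n` has degree at most `q (q + 1 - n)` in `x` has at most `q` times the
poles of `x`.
-/

set_option autoImplicit false

noncomputable section

open AlgebraicCurve Polynomial

namespace Fermat.BAD.X0

open Fermat.FF

variable {L F F' : Type*} [Field L] [Field F] [Field F'] [Algebra L F] [Algebra L F']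

/-- A map of fields carries integral elements over `L[x]` to integral elements over `L[φ x]`. -/
theorem map_mem_intClosure (φ : F →ₐ[L] F') {x f : F} (hf : f ∈ intClosure L x) :
    φ f ∈ intClosure L (φ x) := by
  obtain ⟨P, hP, hPf⟩ := mem_intClosure.mp hf
  have hmap : ∀ a : Algebra.adjoin L {x}, φ (a : F) ∈ Algebra.adjoin L {φ x} := fun a => by
    rw [← Set.image_singleton, ← AlgHom.map_adjoin]
    exact ⟨a, a.2, rfl⟩
  refine mem_intClosure.mpr ⟨P.map
    ((φ.toRingHom.comp (algebraMap (Algebra.adjoin L {x}) F)).codRestrict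
    (Algebra.adjoin L {φ x}).toSubring hmap), hP.map _, ?_⟩
  rw [eval₂_map]
  have := congrArg φ.toRingHom hPf
  rw [map_zero, hom_eval₂] at this
  exact this

/-- An equation over `L[φ x]` is an equation over `L[x]`. -/
theorem exists_monic_of_mem_intClosure (φ : F →ₐ[L] F') {x : F} {z : F'}
    (hz : z ∈ intClosure L (φ x)) :
    ∃ Q : (Algebra.adjoin L {x})[X], Q.Monic ∧
      Q.eval₂ (φ.toRingHom.comp (algebraMap (Algebra.adjoin L {x}) F)) z = 0 := by
  obtain ⟨P, hP, hPz⟩ := mem_intClosure.mp hz
  set g := φ.toRingHom.comp (algebraMap (Algebra.adjoin L {x}) F)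
  have hlift : P.map (algebraMap (Algebra.adjoin L {φ x}) F') ∈ Polynomial.lifts g := by
    refine (lifts_iff_coeff_lifts _).mpr fun n => ?_
    have h : ((P.coeff n : Algebra.adjoin L {φ x}) : F') ∈ (Algebra.adjoin L {x}).map φ := by
      rw [AlgHom.map_adjoin, Set.image_singleton]
      exact (P.coeff n).2
    obtain ⟨a, ha, hae⟩ := h
    exact ⟨⟨a, ha⟩, by rw [coeff_map]; exact hae⟩
  obtain ⟨Q, hQ, -, hQm⟩ := lifts_and_natDegree_eq_and_monic hlift (hP.map _)
  refine ⟨Q, hQm, ?_⟩
  rw [← eval_map, hQ, eval_map]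
  exact hPz

variable [IsAlgClosed L] [IsFunctionField L F] [IsFunctionField L F']

omit [IsAlgClosed L] in
/-- The trace keeps integrality over `L[x]`. -/
theorem trA_mem_intClosure (φ : F →ₐ[L] F') {x : F} {z : F'} (hz : z ∈ intClosure L (φ x)) :
    trA φ z ∈ intClosure L x := by
  obtain ⟨Q, hQm, hQz⟩ := exists_monic_of_mem_intClosure φ hz
  let := algebraAlong φ
  have := isScalarTower_along φ
  have : Module.Finite F F' := FF.finiteAlong φ
  exact mem_intClosure.mpr (Algebra.isIntegral_trace (L := F) (F := F') ⟨Q, hQm, hQz⟩)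

omit [IsAlgClosed L] [IsFunctionField L F] [IsFunctionField L F'] in
/-- The trace is linear over the smaller field. -/
theorem trA_mul (φ : F →ₐ[L] F') (c : F) (z : F') : trA φ (φ c * z) = c * trA φ z := by
  let := algebraAlong φ
  change Algebra.trace F F' (φ c * z) = c * Algebra.trace F F' z
  exact (congrArg _ (Algebra.smul_def c z).symm).trans ((Algebra.trace F F').map_smul c z)

/-- The trace keeps the bound on the poles by a multiple of those of `x`. -/
theorem trA_mem_riemannRochSpace (φ : F →ₐ[L] F') {x : F} (hx : Transcendental L x) {N : ℕ}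
    {z : F'} (hz : z ∈ riemannRochSpace (N • poleDiv L (φ x))) :
    trA φ z ∈ riemannRochSpace (N • poleDiv L x) := by
  have hφx : Transcendental L (φ x) := fun h => hx ((isAlgebraic_algHom_iff φ φ.injective).mp h)
  obtain ⟨h1, h2⟩ := (RED.Model.mem_nsmul_poleDiv_iff hφx N).mp hz
  refine (RED.Model.mem_nsmul_poleDiv_iff hx N).mpr ⟨trA_mem_intClosure φ h1, ?_⟩
  rw [← trA_mul φ]
  refine trA_mem_intClosure φ ?_
  rw [map_pow, map_inv₀]
  exact h2

omit [IsFunctionField L F] [IsFunctionField L F'] [IsAlgClosed L] in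
/-- A polynomial of degree `≤ d` in a function with poles of order `≤ a` has poles of order
`≤ a d`. -/
theorem ordGE_aeval_of_pole {v : Place L F} {x : F} {a : ℤ} (ha : 0 ≤ a) (hx : OrdGE v x (-a))
    (e : L[X]) {d : ℕ} (he : e.natDegree ≤ d) : OrdGE v (aeval x e) (-(a * d)) := by
  rw [aeval_eq_sum_range]
  refine OrdGE.sum fun i hi => (OrdGE.mono ((hx.pow i).smul _) ?_)
  have hid : (i : ℤ) ≤ d := by
    exact_mod_cast (Nat.lt_succ_iff.mp (Finset.mem_range.mp hi)).trans he
  nlinarith [mul_le_mul_of_nonneg_left hid ha]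

/-- A root of such a polynomial has at most `q` times the poles of `x`. -/
theorem poleDiv_le_of_root {x y : F} {q : ℕ} {P : (L[X])[X]} (hP : P.Monic)
    (hd : P.natDegree = q + 1) (hdeg : ∀ n ≤ q, (P.coeff n).natDegree ≤ q * (q + 1 - n))
    (hroot : P.eval₂ (aeval x).toRingHom y = 0) (v : Place L F) :
    poleDiv L y v ≤ q * poleDiv L x v := by
  rw [poleDiv_apply, poleDiv_apply]
  set a : ℤ := max (-v.ord x) 0
  -- otherwise `y` has a pole of order `b > q a`
  by_contra hlt
  push Not at hlt
  have ha : 0 ≤ a := le_max_right _ _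
  set b : ℤ := -v.ord y
  have hb : (q : ℤ) * a < b := by
    rcases le_or_gt b 0 with h | h
    · rw [max_eq_right h] at hlt
      nlinarith
    · rwa [max_eq_left h.le] at hlt
  have hy0 : y ≠ 0 := fun h => by
    have : v.ord y = 0 := by rw [h, Place.ord_zero]
    have : b = 0 := by simp only [b, this, neg_zero]
    nlinarith
  have hx : OrdGE v x (-a) := (ordGE_ord v x).mono (by have := le_max_left (-v.ord x) 0; omega)
  have hy : OrdGE v y (-b) := (ordGE_ord v y).mono (by simp [b])
  rw [eval₂_eq_sum_range, hd, Finset.sum_range_succ] at hroot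
  have htop : P.coeff (q + 1) = 1 := by rw [← hd]; exact hP
  rw [htop, map_one, one_mul] at hroot
  -- then the other terms, and so `y ^ (q + 1)`, would have poles of order below `(q + 1) b`
  have h : OrdGE v (y ^ (q + 1)) (-((q + 1 : ℕ) * b) + 1) := by
    rw [eq_neg_of_add_eq_zero_right hroot]
    refine OrdGE.neg (OrdGE.sum fun n hn => ?_)
    have hn : n ≤ q := Nat.lt_succ_iff.mp (Finset.mem_range.mp hn)
    refine OrdGE.mono ((ordGE_aeval_of_pole ha hx _ (hdeg n hn)).mul (hy.pow n)) ?_
    rw [Nat.cast_mul, Nat.cast_sub (by omega)]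
    push_cast
    nlinarith [mul_le_mul_of_nonneg_right (show (q : ℤ) * a + 1 ≤ b by omega)
      (show (0 : ℤ) ≤ (q : ℤ) + 1 - n by linarith)]
  have := h.le_ord (pow_ne_zero _ hy0)
  rw [ord_pow] at this
  simp only [b] at this
  push_cast at this
  linarith

/-- If `y` has at most `q` times the poles of `x`, then `m` times both are at most `m (q + 1)` times
those of `x`. -/
theorem mem_nsmul_poleDiv_of_add {x y f : F} {q : ℕ}
    (hxy : ∀ v : Place L F, poleDiv L y v ≤ q * poleDiv L x v) {m : ℕ}
    (hf : f ∈ riemannRochSpace (m • (poleDiv L x + poleDiv L y))) :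
    f ∈ riemannRochSpace ((m * (q + 1)) • poleDiv L x) := by
  refine riemannRochSpace_mono (fun v => ?_) hf
  simp only [Finsupp.smul_apply, Finsupp.add_apply, nsmul_eq_mul, Nat.cast_mul, Nat.cast_add,
    Nat.cast_one]
  have := mul_le_mul_of_nonneg_left (hxy v) (Nat.cast_nonneg m (α := ℤ))
  nlinarith

end Fermat.BAD.X0

namespace Fermat.BAD.X0

variable {k : Type*} [Field k]

/-- The coefficient of `Y ^ n` in `∏ (Y - y i)` has order at least `-(b (card - n))`. -/
theorem orderTop_coeff_prod_ge {α : Type*} (s : Finset α) (y : α → LaurentSeries k) {b : ℕ}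
    (hy : ∀ i ∈ s, ∀ m : ℤ, m < -(b : ℤ) → (y i).coeff m = 0) (n : ℕ) :
    ((-((b : ℤ) * ((s.card : ℤ) - n)) : ℤ) : WithTop ℤ) ≤
      ((∏ i ∈ s, (X - C (y i))).coeff n).orderTop := by
  classical
  induction s using Finset.induction generalizing n with
  | empty =>
    rw [Finset.prod_empty, coeff_one]
    split
    · subst_vars
      simp
    · simp
  | insert a t hat ih =>
    have ih' := ih fun i hi => hy i (Finset.mem_insert_of_mem hi)
    have hya : ((-(b : ℤ) : ℤ) : WithTop ℤ) ≤ (y a).orderTop :=
      HahnSeries.le_orderTop_iff_forall.mpr fun m hm => hy a (Finset.mem_insert_self a t) m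
        (WithTop.coe_lt_coe.mp hm)
    rw [Finset.prod_insert hat, Finset.card_insert_of_notMem hat, sub_mul, coeff_sub, coeff_C_mul]
    refine le_trans (le_min ?_ ?_) HahnSeries.min_orderTop_le_orderTop_sub
    · cases n with
      | zero => simp
      | succ m =>
        rw [coeff_X_mul]
        refine le_trans (WithTop.coe_le_coe.mpr (le_of_eq ?_)) (ih' m)
        push_cast
        ring
    · rw [HahnSeries.orderTop_mul]
      refine le_trans ?_ (add_le_add hya (ih' n))
      rw [← WithTop.coe_add]
      refine WithTop.coe_le_coe.mpr (le_of_eq ?_)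
      push_cast
      ring

end Fermat.BAD.X0

end
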