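import Fermat.Agent.BAD.X0.Series
import Fermat.Agent.BAD.X0.Model
import Fermat.Agent.BAD.X0.ModPoly

/-!
# Functions with poles at the cusps only

`A0` is the sum of the poles of `j (z)` and `j (q z)`.  A function regular away from the cusps
has bounded expansions (Lagrange interpolation of its traces to level `M`), and its reductions
have at most `q + 1` times the poles of `j` for each multiple of `A0`.
-/

set_option autoImplicit false
set_option linter.unusedSectionVars false

attribute [local instance 10000] SubalgebraClass.toAlgebra HahnSeries.powerSeriesAlgebra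

noncomputable section

open ModularCurve AlgebraicCurve

namespace Fermat.BAD.X0

open Fermat.FF Fermat.MC Fermat.RED Fermat.RED.Model

local notation "Qb" => AlgebraicClosure ℚ

section Generic

variable {L F F' : Type*} [Field L] [Field F] [Field F'] [Algebra L F] [Algebra L F']
variable [IsAlgClosed L] [FF.IsFunctionField L F] [FF.IsFunctionField L F']

/-- A map of fields keeps transcendence. -/
theorem transcendental_map (φ : F →ₐ[L] F') {x : F} (hx : Transcendental L x) :
    Transcendental L (φ x) :=
  fun h => hx ((isAlgebraic_algHom_iff φ φ.injective).mp h)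

/-- A map of fields keeps bounds by multiples of a pole divisor. -/
theorem map_mem_riemannRochSpace (φ : F →ₐ[L] F') {x : F} (hx : Transcendental L x) {N : ℕ}
    {z : F} (hz : z ∈ riemannRochSpace (N • poleDiv L x)) :
    φ z ∈ riemannRochSpace (N • poleDiv L (φ x)) := by
  obtain ⟨h1, h2⟩ := (mem_nsmul_poleDiv_iff hx N).mp hz
  refine (mem_nsmul_poleDiv_iff (transcendental_map φ hx) N).mpr ⟨map_mem_intClosure φ h1, ?_⟩
  rw [← map_inv₀, ← map_pow, ← map_mul]
  exact map_mem_intClosure φ h2

/-- A function with at most `q` times the poles of `x` is integral over `L[x]`. -/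
theorem mem_intClosure_of_poleDiv_le {x y : F} {q : ℕ} (hx : Transcendental L x)
    (h : ∀ v : Place L F, poleDiv L y v ≤ q * poleDiv L x v) : y ∈ intClosure L x := by
  refine mem_intClosure_iff.mpr fun v hv => (ordGE_iff).mpr ?_
  rcases eq_or_ne y 0 with rfl | hy
  · exact Or.inl rfl
  refine Or.inr ?_
  have hx0 : x ≠ 0 := fun h0 => hx (h0 ▸ isAlgebraic_zero)
  have := h v
  have h0 := hv.le_ord hx0
  have e : max (-v.ord x) 0 = 0 := max_eq_right (by omega)
  rw [poleDiv_apply, poleDiv_apply, e, mul_zero] at this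
  have := le_max_left (-v.ord y) 0
  omega

/-- Integrality over `L[y]` gives it over `L[x]` if `y` is integral over `L[x]`. -/
theorem mem_intClosure_trans {x y f : F} (hyx : y ∈ intClosure L x) (hf : f ∈ intClosure L y) :
    f ∈ intClosure L x :=
  mem_intClosure_iff.mpr fun v hv =>
    mem_intClosure_iff.mp hf v (mem_intClosure_iff.mp hyx v hv)

end Generic

variable (M q : ℕ) [NeZero M] [NeZero q] (hq : q.Prime) (hqM : ¬ q ∣ M)
variable [FF.IsFunctionField Qb (FN (M * q) Qb)] [FF.IsFunctionField Qb (FN M Qb)]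

/-- `j (z)`. -/
def aj : FN (M * q) Qb := heckeAlphaBar Qb M q (jL M Qb)

/-- `j (q z)`. -/
def bj : FN (M * q) Qb := heckeBetaBar Qb M q (jL M Qb)

/-- `j (z)` is transcendental. -/
theorem transcendental_aj : Transcendental Qb (aj M q) :=
  transcendental_map _ (transcendental_jL M)

/-- `j (q z)` is transcendental. -/
theorem transcendental_bj : Transcendental Qb (bj M q) :=
  transcendental_map _ (transcendental_jL M)

/-- The involution sends `j (z)` to `j (q z)`. -/
theorem alW_aj : alW M q hq hqM (aj M q) = bj M q := alW_alpha M q hq hqM _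

/-- The involution sends `j (q z)` to `j (z)`. -/
theorem alW_bj : alW M q hq hqM (bj M q) = aj M q := alW_beta M q hq hqM _

/-- The expansion of `j (z)` at `∞`. -/
theorem emb_true_aj : emb M q hq hqM true (aj M q) = jqModC Qb := by
  rw [aj, emb_true_alpha, coe_jL]

/-- The expansion of `j (q z)` at `∞`. -/
theorem emb_true_bj : emb M q hq hqM true (bj M q) = qExpand Qb q (jqModC Qb) := by
  rw [bj, emb_true_beta, coe_jL]

section Modular

variable [Fact q.Prime]

/-- A root of the modular equation over `x` has at most `q` times the poles of `x`. -/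
theorem poleDiv_le_of_modular {F : Type*} [Field F] [Algebra Qb F] [FF.IsFunctionField Qb F]
    {x y : F} (h : ((levelOne q).Φ.map (ev x)).eval y = 0) (v : Place Qb F) :
    poleDiv Qb y v ≤ q * poleDiv Qb x v := by
  obtain ⟨ζ, hζ⟩ := exists_zeta q
  set P := (levelOne q).Φ.map (Polynomial.mapRingHom (Int.castRingHom Qb))
  have hd : P.natDegree = q + 1 := by
    rw [(levelOne q).monic_Φ.natDegree_map, (levelOne q).natDegree_Φ]
  refine poleDiv_le_of_root (P := P) ((levelOne q).monic_Φ.map _) hd (fun n hn => ?_) ?_ v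
  · rw [Polynomial.coeff_map]
    exact Polynomial.natDegree_map_le.trans (natDegree_coeff_modular_le hζ n hn)
  · rw [Polynomial.eval₂_map, aeval_comp_map, ← Polynomial.eval_map]
    exact h

/-- `Φ (j (z), Y)`. -/
def modA : Polynomial (FN (M * q) Qb) := (levelOne q).Φ.map (ev (aj M q))

include hq hqM in
/-- `j (q z)` is a root of the modular equation over `j (z)`. -/
theorem eval_modA : (modA M q).eval (bj M q) = 0 := by
  obtain ⟨ζ, hζ⟩ := exists_zeta q
  refine (emb M q hq hqM true).injective ?_
  rw [map_zero, modA, map_eval_ev, emb_true_aj, emb_true_bj, ← jb_one q]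
  have := eval_modular_self_mul (p := q) (k := Qb) (IsPrimitiveRoot.coe_units_iff.mp hζ) 1
  simp only [mul_one, jb_one 1, qExpand_one_apply] at this
  exact this

include hq hqM in
/-- `j (q z)` has at most `q` times the poles of `j (z)`. -/
theorem poleDiv_bj_le (v : Place Qb (FN (M * q) Qb)) :
    poleDiv Qb (bj M q) v ≤ q * poleDiv Qb (aj M q) v := by
  exact poleDiv_le_of_modular q (eval_modA M q hq hqM) v

include hq hqM in
/-- `j (z)` has at most `q` times the poles of `j (q z)`. -/
theorem poleDiv_aj_le (v : Place Qb (FN (M * q) Qb)) :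
    poleDiv Qb (aj M q) v ≤ q * poleDiv Qb (bj M q) v := by
  refine poleDiv_le_of_modular q ?_ v
  have h := congrArg (alW M q hq hqM).toAlgHom.toRingHom (eval_modA M q hq hqM)
  rw [map_zero, modA, map_eval_ev] at h
  rw [← alW_aj M q hq hqM, ← alW_bj M q hq hqM]
  simpa only [alW_aj, alW_bj, AlgHom.toRingHom_eq_coe,
    RingHom.coe_coe, AlgEquiv.coe_toAlgHom] using h

include hq hqM in
/-- `j (q z)` is regular away from the poles of `j (z)`. -/
theorem bj_mem_intClosure : bj M q ∈ intClosure Qb (aj M q) :=
  mem_intClosure_of_poleDiv_le (transcendental_aj M q) (poleDiv_bj_le M q hq hqM)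

include hq hqM in
/-- The image under `W` of a function regular away from the cusps is regular away from them. -/
theorem alW_mem_intClosure {f : FN (M * q) Qb} (hf : f ∈ intClosure Qb (aj M q)) :
    alW M q hq hqM f ∈ intClosure Qb (aj M q) := by
  have h := map_mem_intClosure (alW M q hq hqM).toAlgHom hf
  simp only [AlgEquiv.coe_toAlgHom, alW_aj] at h
  exact mem_intClosure_trans (bj_mem_intClosure M q hq hqM) h

end Modular

/-- The poles of `j (z)` and of `j (q z)`. -/
def A0 : Divisor Qb (FN (M * q) Qb) := poleDiv Qb (aj M q) + poleDiv Qb (bj M q)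

/-- `A0` is effective. -/
theorem A0_nonneg : 0 ≤ A0 M q := fun v => by
  simp only [A0, Finsupp.add_apply, poleDiv_apply, Finsupp.coe_zero, Pi.zero_apply]
  exact add_nonneg (le_max_right _ _) (le_max_right _ _)

section Bounded

variable [Fact q.Prime]

/-- Functions with poles bounded by a multiple of `A0` are regular away from the cusps. -/
theorem mem_intClosure_of_mem_A0 {m : ℕ} {f : FN (M * q) Qb}
    (hq : q.Prime) (hqM : ¬ q ∣ M) (hf : f ∈ riemannRochSpace (m • A0 M q)) :
    f ∈ intClosure Qb (aj M q) :=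
  ((mem_nsmul_poleDiv_iff (transcendental_aj M q) _).mp
    (mem_nsmul_poleDiv_of_add (poleDiv_bj_le M q hq hqM) hf)).1

variable {A : ValuationSubring (AlgebraicClosure ℚ)} (hA : A.LiesOverPrime q)

include hq

/-- The inverse of the product of the differences between the branch at `∞` and the others has
integral expansion. -/
theorem inv_derivative_int {ζ : Qbˣ} (hζ : IsPrimitiveRoot (ζ : Qb) q) :
    (∏ m ∈ Finset.univ.erase (none : Option (Fin q)),
      (yRoot Qb q ζ none - yRoot Qb q ζ m))⁻¹ ∈ intSeries A := by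
  rw [← Finset.prod_inv_distrib]
  refine prod_mem fun m hm => ?_
  cases m with
  | none => exact absurd rfl (Finset.ne_of_mem_erase hm)
  | some i =>
    have hζA : ((ζ : Qb) ^ (i : ℕ)) ∈ A :=
      pow_mem (mem_of_pow_eq_one hq.ne_zero hζ.pow_eq_one) _
    refine sub_unit_lead (π := IsLocalRing.residue A) IsLocalRing.residue_surjective
      (jb_one_mem_intSeries (q * q)) ?_ (fun h => ?_) (fun h => absurd h ?_)
      (Nat.mul_pos hq.pos hq.pos)
    · refine ⟨twist (Units.ofPowEqOne (⟨_, hζA⟩ : A) q (Subtype.ext (by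
        change ((ζ : Qb) ^ (i : ℕ)) ^ q = 1
        rw [← pow_mul, mul_comm, pow_mul, hζ.pow_eq_one, one_pow])) (NeZero.ne q)) (jqModC A), ?_⟩
      rw [coeffMap_twist, coeffMap_subtype_jqModC, jb_def, qExpand_one_apply]
      congr 1
      exact congrArg twist (Units.ext (Units.val_pow_eq_pow_val ζ i).symm)
    · rw [show (⟨((1 : Qbˣ)⁻¹ : Qbˣ), h⟩ : A) = 1 from Subtype.ext (by simp), map_one]
      exact one_ne_zero
    · have := Nat.mul_le_mul hq.two_le hq.two_le
      omega

omit hq in
/-- Under a map sending `x` to `j` the modular polynomial over `x` splits into the factors of the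
branches. -/
theorem map_modular_eq_prod {F : Type*} [Field F] {ζ : Qbˣ} (hζ : IsPrimitiveRoot (ζ : Qb) q)
    (f : F →+* LaurentSeries Qb) {x : F} (hx : f x = jb Qb 1 q) :
    ((levelOne q).Φ.map (ev x)).map f =
      ∏ m, (Polynomial.X - Polynomial.C (yRoot Qb q ζ m)) := by
  have hmap : f.comp (ev x) = evalAt Qb (jb Qb 1 q) := by
    rw [map_ev, hx]
    rfl
  rw [Polynomial.map_map, hmap,
    ((levelOne q).identities_of_isPrimitiveRoot (IsPrimitiveRoot.coe_units_iff.mp hζ)).eq_modular]

/-- The derivative of the modular equation at the branch at `∞` is nonzero. -/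
theorem prod_yRoot_none_sub_ne_zero {ζ : Qbˣ} :
    ∏ m ∈ Finset.univ.erase (none : Option (Fin q)),
      (yRoot Qb q ζ none - yRoot Qb q ζ m) ≠ 0 := by
  refine Finset.prod_ne_zero_iff.mpr fun m hm hm0 => ?_
  cases m with
  | none => exact absurd rfl (Finset.ne_of_mem_erase hm)
  | some i =>
    have h2 := congrArg (fun z : LaurentSeries Qb => z.coeff (-((q * q : ℕ) : ℤ))) hm0
    simp only [yRoot, HahnSeries.coeff_sub, HahnSeries.coeff_zero, coeff_jb_neg] at h2
    rw [coeff_jb_of_lt _ _ (by
      have := Nat.mul_le_mul hq.two_le hq.two_le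
      push_cast
      nlinarith)] at h2
    simp at h2

/-- The cofactor of a root `y` vanishes at `yRoot none` on every other branch. -/
theorem eval_map_cofactor_of_some {F : Type*} [Field F] {E₀ : F →+* LaurentSeries Qb} {ζ : Qbˣ}
    (hζ : IsPrimitiveRoot (ζ : Qb) q) (i : Fin q) {br : F →+* LaurentSeries Qb}
    (hbr : br = (twist (ζ ^ (i : ℕ))).comp E₀) {x y : F} (hbrx : br x = jb Qb 1 q)
    (hy₀ : E₀ y = jqModC Qb) (hroot : ((levelOne q).Φ.map (ev x)).eval y = 0) :
    ((cofactor ((levelOne q).Φ.map (ev x)) y).map br).eval (yRoot Qb q ζ none) = 0 := by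
  have h1 := congrArg (fun P : Polynomial F => (P.map br).eval (yRoot Qb q ζ none))
    (mul_cofactor hroot)
  simp only [Polynomial.map_mul, Polynomial.eval_mul, map_modular_eq_prod q hζ br hbrx] at h1
  rw [Polynomial.eval_prod, Finset.prod_eq_zero (Finset.mem_univ none) (by simp)] at h1
  refine (mul_eq_zero.mp h1).resolve_left fun h0 => ?_
  simp only [Polynomial.map_sub, Polynomial.map_X, Polynomial.map_C, Polynomial.eval_sub,
    Polynomial.eval_X, Polynomial.eval_C, sub_eq_zero] at h0
  have h2 := congrArg (fun z : LaurentSeries Qb => z.coeff (-1)) h0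
  rw [hbr, RingHom.comp_apply, hy₀, twist_coeff, coeff_jqModC_neg_one, mul_one,
    show yRoot Qb q ζ none = qExpand Qb (q * q) (jqModC Qb) from jb_one (q * q),
    qExpand_coeff_of_not_dvd _ _ (fun h' => by
      have h1 := Int.le_of_dvd one_pos (Int.dvd_neg.mp h')
      have := Nat.mul_le_mul hq.two_le hq.two_le
      push_cast at h1
      nlinarith)] at h2
  exact Units.ne_zero _ h2.symm

/-- **Interpolation.** A function whose traces to level `M` are bounded has a bounded expansion
at `∞`, for any pair of expansions with the branches of `X₀(q)` over the line. -/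
theorem exists_smul_int_of_traces {F : Type*} [Field F] [Algebra Qb F]
    {E₁ E₀ : F →+* LaurentSeries Qb}
    (hE : ∀ c, E₁ (algebraMap Qb F c) = algebraMap Qb (LaurentSeries Qb) c) {ζ : Qbˣ}
    (hζ : IsPrimitiveRoot (ζ : Qb) q) {br : Option (Fin q) → F →+* LaurentSeries Qb}
    (hbr0 : br none = (qExpand Qb q).comp E₁)
    (hbr1 : ∀ i : Fin q, br (some i) = (twist (ζ ^ (i : ℕ))).comp E₀) {x y : F}
    (hbrx : ∀ o, br o x = jb Qb 1 q) (hy₁ : E₁ y = qExpand Qb q (jqModC Qb))
    (hy₀ : E₀ y = jqModC Qb) (hy : y ∈ intClosure Qb x) {P : Polynomial F}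
    (hP : P = (levelOne q).Φ.map (ev x)) (hroot : P.eval y = 0)
    (htr : ∀ g ∈ intClosure Qb x, ∃ T : LaurentSeries Qb,
      (∃ c : Qb, c ≠ 0 ∧ c ∈ A ∧ algebraMap Qb (LaurentSeries Qb) c * T ∈ intSeries A) ∧
        qExpand Qb q T = ∑ o, br o g)
    {f : F} (hf : f ∈ intClosure Qb x) : ∃ a : Qb, a ≠ 0 ∧ E₁ (a • f) ∈ intSeries A := by
  classical
  subst hP
  set Q := cofactor ((levelOne q).Φ.map (ev x)) y
  have hQmem : ∀ n, Q.coeff n ∈ intClosure Qb x := fun n =>
    coeff_cofactor_mem (intClosure Qb x).toSubring (fun m => by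
      rw [Polynomial.coeff_map, ev, Polynomial.coe_eval₂RingHom, Polynomial.eval₂_eq_sum]
      exact sum_mem fun i _ => mul_mem (intCast_mem _ _) (pow_mem (self_mem_intClosure _) i))
      hy n
  -- bounded traces
  choose T hTb hT using fun n => htr (f * Q.coeff n) (mul_mem hf (hQmem n))
  choose c hc hcA hcT using hTb
  set N := q + 2
  set D := E₁ (((levelOne q).Φ.map (ev x)).derivative.eval y)
  -- interpolation
  have hy0 : qExpand Qb q (E₁ y) = yRoot Qb q ζ none := by
    rw [hy₁, qExpand_qExpand]
    exact (jb_one (q * q)).symm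
  have hnone : ∀ g, br none g = qExpand Qb q (E₁ g) := fun g => by rw [hbr0]; rfl
  have hD : qExpand Qb q D = ∏ m ∈ Finset.univ.erase (none : Option (Fin q)),
      (yRoot Qb q ζ none - yRoot Qb q ζ m) := by
    rw [← eval_derivative_prod, ← map_modular_eq_prod q hζ (br none) (hbrx none),
      Polynomial.derivative_map, ← hy0, Polynomial.eval_map, ← hnone y, Polynomial.eval₂_at_apply,
      hnone]
  have hDinv : D⁻¹ ∈ intSeries A := by
    rw [mem_intSeries_iff]
    intro n
    rw [← qExpand_coeff_mul q, map_inv₀, hD]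
    exact mem_intSeries_iff.mp (inv_derivative_int q hq hζ) _
  have hQN : Q.natDegree < N := by
    refine lt_of_le_of_lt natDegree_cofactor_le ?_
    rw [(levelOne q).monic_Φ.natDegree_map, (levelOne q).natDegree_Φ]
    omega
  have hkey : qExpand Qb q (∑ n ∈ Finset.range N, T n * E₁ y ^ n) =
      qExpand Qb q (E₁ f * D) := by
    simp only [map_sum, map_mul, map_pow, hT, hy0, Finset.sum_mul]
    rw [Finset.sum_comm]
    have ho : ∀ o, ∑ n ∈ Finset.range N, br o f *
        br o (Q.coeff n) * yRoot Qb q ζ none ^ n =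
        br o f * (Q.map (br o)).eval (yRoot Qb q ζ none) := fun o => by
      rw [Polynomial.eval_eq_sum_range' (lt_of_le_of_lt Polynomial.natDegree_map_le hQN),
        Finset.mul_sum]
      exact Finset.sum_congr rfl fun n _ => by rw [Polynomial.coeff_map, mul_assoc]
    simp only [ho, Fintype.sum_option,
      eval_map_cofactor_of_some q hq hζ _ (hbr1 _) (hbrx _) hy₀ hroot, mul_zero,
      Finset.sum_const_zero, add_zero, Q]
    rw [hnone, ← hy0, Polynomial.eval_map, ← hnone y, Polynomial.eval₂_at_apply,
      eval_cofactor_self hroot, hnone]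
  have hfD := qExpand_injective (R := Qb) q hkey
  have hD0 : D ≠ 0 := fun h0 => prod_yRoot_none_sub_ne_zero q hq (ζ := ζ)
    (by rw [← hD, h0, map_zero])
  refine ⟨∏ n ∈ Finset.range N, c n, Finset.prod_ne_zero_iff.mpr fun n _ => hc n, ?_⟩
  have he : E₁ ((∏ n ∈ Finset.range N, c n) • f) =
      D⁻¹ * ∑ n ∈ Finset.range N, algebraMap Qb (LaurentSeries Qb) (∏ m ∈ Finset.range N, c m) *
        (T n * E₁ y ^ n) := by
    rw [← Finset.mul_sum, hfD, emb_smul hE]
    field_simp
  rw [he]
  refine mul_mem hDinv (sum_mem fun n hn => ?_)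
  rw [← mul_assoc, ← Finset.prod_erase_mul _ _ hn, map_mul, mul_assoc (algebraMap Qb _ _)]
  exact mul_mem (mul_mem (algebraMap_mem_intSeries (prod_mem fun m _ => hcA m)) (hcT n))
    (pow_mem (by rw [hy₁]; exact jb_mem q) n)

include hqM hA

/-- Functions regular away from the cusps have bounded expansions at `∞`. -/
theorem exists_smul_int_true {f : FN (M * q) Qb} (hf : f ∈ intClosure Qb (aj M q)) :
    ∃ a : Qb, a ≠ 0 ∧ emb M q hq hqM true (a • f) ∈ intSeries A := by
  obtain ⟨ζ, hζ⟩ := exists_zeta q
  refine exists_smul_int_of_traces q hq (A := A) (emb_algebraMap M q hq hqM true) hζ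
    (br := branch M q hq hqM ζ) rfl (fun _ => rfl) (fun o => ?_) (emb_true_bj M q hq hqM)
    (by rw [bj, emb_false_beta, coe_jL])
    (bj_mem_intClosure M q hq hqM) (P := modA M q) rfl (eval_modA M q hq hqM) (fun g hg => ?_) hf
  · rw [aj, branch_alpha M q hq hqM hζ, coe_jL, ← jb_one]
  · refine ⟨((trA (heckeAlphaBar Qb M q) g : FN M Qb) : LaurentSeries Qb),
      exists_smul_int_level hq hqM hA _ (trA_mem_intClosure (heckeAlphaBar Qb M q) hg), ?_⟩
    rw [qExpand_trA M q hq hqM hζ, Fintype.sum_option]
    rfl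

/-- Functions regular away from the cusps have bounded expansions. -/
theorem exists_smul_int_of_regular (b : Bool) {f : FN (M * q) Qb}
    (hf : f ∈ intClosure Qb (aj M q)) :
    ∃ a : Qb, a ≠ 0 ∧ emb M q hq hqM b (a • f) ∈ intSeries A := by
  cases b
  · obtain ⟨a, ha, h⟩ := exists_smul_int_true M q hq hqM hA (alW_mem_intClosure M q hq hqM hf)
    exact ⟨a, ha, by rw [show false = !true from rfl, ← emb_alW M q hq hqM true, Algebra.smul_def,
      map_mul (alW M q hq hqM), AlgEquiv.commutes, ← Algebra.smul_def]; exact h⟩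
  · exact exists_smul_int_true M q hq hqM hA hf

/-- Functions with poles bounded by a multiple of `A0` have bounded expansions. -/
theorem bdd (b : Bool) (m : ℕ) (f : FN (M * q) Qb) (hf : f ∈ riemannRochSpace (m • A0 M q)) :
    ∃ a : Qb, a ≠ 0 ∧ emb M q hq hqM b (a • f) ∈ intSeries A :=
  exists_smul_int_of_regular M q hq hqM hA b (mem_intClosure_of_mem_A0 M q hq hqM hf)

variable [IsAlgClosed (IsLocalRing.ResidueField A)]
  [FF.IsFunctionField (IsLocalRing.ResidueField A) (FX (IsLocalRing.ResidueField A) M)]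

/-- The reduction at `∞` keeps a bound by `N` times the poles of `j`. -/
theorem redF_true_mem_riemannRochSpace {N : ℕ} (f : FN (M * q) Qb)
    (h : ∀ b, emb M q hq hqM b f ∈ intSeries A)
    (hf : f ∈ riemannRochSpace (N • poleDiv Qb (aj M q)))
    (z : FX (IsLocalRing.ResidueField A) M)
    (hz : (z : LaurentSeries (IsLocalRing.ResidueField A)) =
      redF (IsLocalRing.residue A) (emb M q hq hqM true) f) :
    z ∈ riemannRochSpace (N • poleDiv (IsLocalRing.ResidueField A)
      (jX (IsLocalRing.ResidueField A) M)) := by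
  obtain ⟨y, h1, h2⟩ := trA_reduction M q hq hqM hA f h
  exact redF_mem_riemannRochSpace_level hq hqM hA _
    (trA_mem_riemannRochSpace (heckeAlphaBar Qb M q) (transcendental_jL M) hf) y h1 z
    (hz.trans h2.symm)

/-- The reductions of `L (m A0)` at either cusp have at most `m (q + 1)` times the poles of `j`. -/
theorem redF_mem_riemannRochSpace (b : Bool) (m : ℕ) (f : FN (M * q) Qb)
    (h : ∀ b, emb M q hq hqM b f ∈ intSeries A) (hf : f ∈ riemannRochSpace (m • A0 M q))
    (z : FX (IsLocalRing.ResidueField A) M)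
    (hz : (z : LaurentSeries (IsLocalRing.ResidueField A)) =
      redF (IsLocalRing.residue A) (emb M q hq hqM b) f) :
    z ∈ riemannRochSpace ((m * (q + 1)) • poleDiv (IsLocalRing.ResidueField A)
      (jX (IsLocalRing.ResidueField A) M)) := by
  cases b
  · have hf' : f ∈ riemannRochSpace ((m * (q + 1)) • poleDiv Qb (bj M q)) :=
      mem_nsmul_poleDiv_of_add (poleDiv_aj_le M q hq hqM) (by rwa [A0, add_comm] at hf)
    have hW : alW M q hq hqM f ∈ riemannRochSpace ((m * (q + 1)) • poleDiv Qb (aj M q)) := by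
      have := map_mem_riemannRochSpace (alW M q hq hqM).toAlgHom (transcendental_bj M q) hf'
      simpa only [AlgEquiv.coe_toAlgHom, alW_bj] using this
    refine redF_true_mem_riemannRochSpace M q hq hqM hA _ (fun b => by rw [emb_alW]; exact h _)
      hW z ?_
    rw [hz, redF_of_mem (h false), redF_of_mem (show emb M q hq hqM true (alW M q hq hqM f) ∈
      intSeries A by rw [emb_alW]; exact h false)]
    exact congrArg _ (Subtype.ext rfl)
  · exact redF_true_mem_riemannRochSpace M q hq hqM hA f h
      (mem_nsmul_poleDiv_of_add (poleDiv_bj_le M q hq hqM) hf) z hz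

end Bounded

end Fermat.BAD.X0

end
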