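import Fermat.Agent.BAD.X0.LevelChange
import Fermat.Agent.BAD.X0.Norm
import Fermat.Agent.BAD.Engine.Theorems

/-!
# Auxiliary facts for the torsion of `J₀ (M q)`

A class killed by the pushforward has a
principal norm, and its reductions scaled to level `M` multiply to an `n`-th power.
-/

set_option autoImplicit false
set_option linter.unusedSectionVars false

attribute [local instance 10000] SubalgebraClass.toAlgebra HahnSeries.powerSeriesAlgebra

noncomputable section

open ModularCurve AlgebraicCurve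

namespace Fermat.BAD.X0

open Fermat.FF Fermat.MC Fermat.JAC Fermat.RED.Model

section Generic

/-- If the pushforward of an `n`-torsion class vanishes, the norm of a function with divisor `n D`
is a constant times an `n`-th power. -/
theorem exists_norm_eq_of_pushPic {K F F' : Type*} [Field K] [Field F] [Field F'] [Algebra K F]
    [Algebra K F'] [IsAlgClosed K] [FF.IsFunctionField K F] [FF.IsFunctionField K F']
    (φ : F →ₐ[K] F') {n : ℕ} {D : Divisor K F'} {x : Pic0 K F'} (hD : Fermat.BAD.IsCls D x)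
    {y : F'} (hy : y ≠ 0) (hdiv : divOf K y = n • D) (hx : pushPic φ x = 0) :
    ∃ (c : K) (h : F), c ≠ 0 ∧ h ≠ 0 ∧ normAlong φ y = algebraMap K F c * h ^ n := by
  have hcls : Fermat.BAD.IsCls (pushDiv φ D) (pushPic φ x) := by
    obtain ⟨hD, rfl⟩ := hD
    exact ⟨Divisor.mem_degZero.mpr (by rw [degree_pushDiv]; exact Divisor.mem_degZero.mp hD),
      rfl⟩
  obtain ⟨h, hh, he⟩ := hcls.exists_div (n := 1) (by rw [one_smul]; exact hx)
  rw [one_smul] at he
  obtain ⟨c, hc, e⟩ := exists_eq_smul_of_divOf_eq (normAlong_ne_zero φ hy) (pow_ne_zero n hh)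
    (show divOf K (normAlong φ y) = divOf K (h ^ n) by
      rw [divOf_pow, he, ← map_nsmul, ← hdiv, pushDiv_divOf φ hy])
  exact ⟨c, h, hc, hh, e⟩

/-- The pullback of a representative represents the pullback. -/
theorem isCls_pullDiv {K F F' : Type*} [Field K] [Field F] [Field F'] [Algebra K F]
    [Algebra K F'] [IsAlgClosed K] [FF.IsFunctionField K F] [FF.IsFunctionField K F']
    (φ : F →ₐ[K] F') {D : Divisor K F} {x : Pic0 K F} (hD : Fermat.BAD.IsCls D x) :
    Fermat.BAD.IsCls (pullDiv φ D) (pullPic φ x) := by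
  obtain ⟨hD, rfl⟩ := hD
  exact ⟨Divisor.mem_degZero.mpr (by
    rw [degree_pullDiv, Divisor.mem_degZero.mp hD, mul_zero]), rfl⟩

/-- From the `n`-th power condition on both components, a product of the transforms of `y` has a
primitive scaling whose reduction is an `n`-th power. -/
theorem exists_pow_pair {L : Type*} [Field L] {A : ValuationSubring L} {k : Type*} [Field k]
    [IsAlgClosed L] [IsAlgClosed k] {F : Type*} [Field F] [Algebra L F] {π : A →+* k}
    {ι : Bool → F →+* LaurentSeries L} {K : IntermediateField k (LaurentSeries k)}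
    [FF.IsFunctionField L F] [FF.IsFunctionField k K] {X : Fermat.BAD.Degen π ι K}
    (Φ W : Fermat.BAD.Sym X) (hΦe : ∀ b, Φ.e b = b) (hWe : ∀ b, W.e b = !b)
    (hWb : SemilinearAut.baseAut W.s = 1) (hWτ : ∀ b, W.τ b = 1) {n : ℕ} {y : F} {t : Bool → L}
    (hf : ∀ b, X.Prim b (t b • y))
    (hw : ∀ b, ∃ z : K, (Φ.τ b • X.red b (t b • y)) * X.red (!b) (t (!b) • y) = z ^ n) (b : Bool) :
    ∃ (c : L) (z : K), X.Prim b (c • (Φ.s • y * W.s • y)) ∧
      X.red b (c • (Φ.s • y * W.s • y)) = z ^ n := by
  obtain ⟨z, hz⟩ := hw b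
  refine ⟨SemilinearAut.baseAut Φ.s (t b) * t (!b), z, ?_⟩
  have he : (SemilinearAut.baseAut Φ.s (t b) * t (!b)) • (Φ.s • y * W.s • y) =
      (Φ.s • (t b • y)) * (W.s • (t (!b) • y)) := by
    rw [Φ.smul_smul_scalar, W.smul_smul_scalar, hWb, RingAut.one_apply, Algebra.smul_def,
      Algebra.smul_def, Algebra.smul_def, map_mul]
    ring
  have h1 := Φ.prim (hf b)
  have h1r := Φ.red_eq b _ (hf b).1
  have h2 := W.prim (hf (!b))
  have h2r := W.red_eq (!b) _ (hf (!b)).1
  rw [hΦe] at h1 h1r
  rw [hWe, Bool.not_not] at h2 h2r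
  rw [hWτ, one_smul] at h2r
  rw [he]
  exact ⟨h1.mul h2, by rw [X.red_mul h1.1 h2.1, h1r, h2r, hz]⟩

end Generic

local notation "Qb" => AlgebraicClosure ℚ

variable (M q : ℕ) [NeZero M] [NeZero q] [Fact q.Prime] (hq : q.Prime) (hqM : ¬ q ∣ M)

/-- The involution is linear. -/
theorem alW_smul (c : Qb) (f : FN (M * q) Qb) :
    alW M q hq hqM (c • f) = c • alW M q hq hqM f := by
  rw [Algebra.smul_def, map_mul, AlgEquiv.commutes, Algebra.smul_def]

/-- The involution fixes constants. -/
theorem baseAut_alAut : SemilinearAut.baseAut (alAut M q hq hqM) = 1 :=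
  SemilinearAut.baseAut_ofAlgAut _

/-- The pushforward along `α` of the image under `W` is the pushforward along `β`. -/
theorem pushPic_alpha_alAut (x : JZero (M * q)) :
    pushPic (heckeAlphaBar Qb M q) (alAut M q hq hqM • x) = pushPic (heckeBetaBar Qb M q) x := by
  rw [pushPic_smul (φ := heckeBetaBar Qb M q) (ψ := heckeAlphaBar Qb M q)
    (s := (1 : SemilinearAut Qb (FN M Qb))) (s' := alAut M q hq hqM)
    (fun f => by rw [one_smul, alAut_smul, alW_beta]) x, one_smul]

variable {A : ValuationSubring (AlgebraicClosure ℚ)} (hA : A.LiesOverPrime q)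

local notation "kA" => IsLocalRing.ResidueField A

/-- The involution exchanges the reductions. -/
theorem redF_alW (b : Bool) {f : FN (M * q) Qb} (hf : emb M q hq hqM (!b) f ∈ intSeries A) :
    redF (IsLocalRing.residue A) (emb M q hq hqM b) (alW M q hq hqM f) =
      redF (IsLocalRing.residue A) (emb M q hq hqM (!b)) f := by
  rw [redF_of_mem hf, redF_of_mem (f := alW M q hq hqM f) (by rw [emb_alW]; exact hf)]
  exact congrArg _ (Subtype.ext (emb_alW M q hq hqM b f))

variable [IsAlgClosed (IsLocalRing.ResidueField A)] [CharP (IsLocalRing.ResidueField A) q]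

include hA in
/-- Scalings of numerator and denominator of a function with vanishing pushforwards: both
products of a reduction with the Frobenius of the other one are `n`-th powers at level `M`. -/
theorem exists_scaled_powers {n : ℕ} (hn : n ≠ 0) {D : Divisor Qb (FN (M * q) Qb)}
    {x : JZero (M * q)} (hD : Fermat.BAD.IsCls D x) {y : FN (M * q) Qb} (hy : y ≠ 0)
    (hdiv : divOf Qb y = n • D) (ha : pushPic (heckeAlphaBar Qb M q) x = 0)
    (hb : pushPic (heckeBetaBar Qb M q) x = 0) :
    ∃ (P Q : FN (M * q) Qb) (a c : Bool → Qb), y * Q = P ∧ (∀ i, c i ≠ 0) ∧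
      (∀ i, emb M q hq hqM i (a i • P) ∈ intSeries A) ∧
      (∀ i, redF (IsLocalRing.residue A) (emb M q hq hqM i) (a i • P) ≠ 0) ∧
      (∀ i, emb M q hq hqM i (c i • Q) ∈ intSeries A) ∧
      (∀ i, redF (IsLocalRing.residue A) (emb M q hq hqM i) (c i • Q) ≠ 0) ∧
      ∀ i, ∃ w : FX kA M, (w : LaurentSeries kA) ^ n =
        (redF (IsLocalRing.residue A) (emb M q hq hqM i) (a i • P) /
          redF (IsLocalRing.residue A) (emb M q hq hqM i) (c i • Q)) *
        coeffMap (frobenius kA q)
          (redF (IsLocalRing.residue A) (emb M q hq hqM (!i)) (a (!i) • P) /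
            redF (IsLocalRing.residue A) (emb M q hq hqM (!i)) (c (!i) • Q)) := by
  obtain ⟨P, hP, Q, hQ, hQ0, e⟩ := exists_eq_div M q y
  have hP0 : P ≠ 0 := by rw [← e]; exact mul_ne_zero hy hQ0
  choose a _ haI haR using exists_prim_poly M q hq hqM hA hP hP0
  choose c hc0 hcI hcR using exists_prim_poly M q hq hqM hA hQ hQ0
  -- at `0` apply the norm criterion to the image of `y` under the involution
  refine ⟨P, Q, a, c, e, hc0, haI, haR, hcI, hcR, fun i => ?_⟩
  cases i
  · obtain ⟨c', h, hc', hh, hN⟩ := exists_norm_eq_of_pushPic (n := n) (heckeAlphaBar Qb M q)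
      (hD.smul (alAut M q hq hqM)) (y := alW M q hq hqM y)
      ((map_ne_zero_iff _ (alW M q hq hqM).injective).mpr hy)
      (by rw [← alAut_smul, Fermat.JAC.divOf_smul, hdiv, smul_comm])
      (by rw [pushPic_alpha_alAut, hb])
    obtain ⟨w, hw⟩ := exists_pow_of_norm M q hq hqM hA hn (P := alW M q hq hqM P)
      (Q := alW M q hq hqM Q) (y := alW M q hq hqM y) (by rw [← map_mul, e]) hh hc' hN
      (a := fun i => a (!i)) (b := fun i => c (!i))
      (fun i => by rw [← alW_smul, emb_alW]; exact haI _)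
      (fun i => by rw [← alW_smul, redF_alW M q hq hqM i (haI _)]; exact haR _)
      (fun i => by rw [← alW_smul, emb_alW]; exact hcI _)
      (fun i => by rw [← alW_smul, redF_alW M q hq hqM i (hcI _)]; exact hcR _)
    refine ⟨w, hw.trans ?_⟩
    rw [← alW_smul, redF_alW M q hq hqM true (haI _), ← alW_smul,
      redF_alW M q hq hqM true (hcI _), ← alW_smul, redF_alW M q hq hqM false (haI _), ← alW_smul,
      redF_alW M q hq hqM false (hcI _)]
    rfl
  · obtain ⟨c', h, hc', hh, hN⟩ :=
      exists_norm_eq_of_pushPic (n := n) (heckeAlphaBar Qb M q) hD hy hdiv ha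
    exact exists_pow_of_norm M q hq hqM hA hn e hh hc' hN haI haR hcI hcR

end Fermat.BAD.X0

end
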