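import Fermat.Agent.BAD.X0.Glue
import Fermat.Agent.BAD.X0.Rational
import Fermat.Agent.FF.Duality

/-!
# Rational functions separate

At every point of the finite part of the reduced curve of level `M` the reduction of some function
with rational `q`-integral coefficients, regular away from the cusps, is a uniformiser up to a
constant.
-/

set_option autoImplicit false
set_option linter.unusedSectionVars false

attribute [local instance 10000] SubalgebraClass.toAlgebra HahnSeries.powerSeriesAlgebra

noncomputable section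

open ModularCurve AlgebraicCurve

namespace Fermat.BAD.X0

open Fermat.FF Fermat.MC Fermat.JAC.X0 Fermat.RED Fermat.RED.Model

local notation "Qb" => AlgebraicClosure ℚ

section Generic

variable {K F : Type*} [Field K] [Field F] [Algebra K F] [IsAlgClosed K] [FF.IsFunctionField K F]

/-- At a place where `x` is regular some function regular outside the poles of `x` is a
uniformiser. -/
theorem exists_intClosure_ord_one {x : F} (hx : Transcendental K x) {v : Place K F}
    (hv : OrdGE v x 0) : ∃ z : F, z ≠ 0 ∧ z ∈ intClosure K x ∧ v.ord z = 1 := by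
  classical
  have hx0 : x ≠ 0 := fun h => hx (h ▸ isAlgebraic_zero)
  set n := 2 * genusFF K F + 3
  set D := n • poleDiv K x
  have hDv : D v = 0 := by
    have := hv.le_ord hx0
    simp only [D, Finsupp.smul_apply, poleDiv_apply]
    rw [max_eq_right (by omega), smul_zero]
  have hdeg : (n : ℤ) ≤ Divisor.degree D := by
    have hp : 0 < Divisor.degree (poleDiv K x) := by
      rcases (FF.degree_nonneg (D := poleDiv K x) fun w => by simp).lt_or_eq with h | h
      · exact h
      · exfalso
        have h0 := FF.eq_zero_of_nonneg_of_degree (fun w => by simp) h.symm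
        obtain ⟨w, hw⟩ := exists_ord_neg (K := K) (f := x)
          (fun ⟨c, hc⟩ => hx (hc ▸ isAlgebraic_algebraMap c))
        have := congrArg (fun E : Divisor K F => E w) h0
        simp only [poleDiv_apply, Finsupp.coe_zero, Pi.zero_apply] at this
        omega
    simp only [D, map_nsmul, nsmul_eq_mul]
    nlinarith [Nat.cast_nonneg n (α := ℤ)]
  -- Riemann-Roch: a section of `D - v` which is not one of `D - 2 v`
  set E₁ := D - Finsupp.single v 1
  set E₂ := D - Finsupp.single v 2
  have hd1 : Divisor.degree E₁ = Divisor.degree D - 1 := by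
    simp [E₁, Divisor.degree_single, FF.deg_eq_one]
  have hd2 : Divisor.degree E₂ = Divisor.degree D - 2 := by
    simp [E₂, Divisor.degree_single, FF.deg_eq_one]
  have h1 := FF.ell_of_degree_ge (D := E₁) (by omega)
  have h2 := FF.ell_of_degree_ge (D := E₂) (by omega)
  have hlt : ell E₂ < ell E₁ := by omega
  obtain ⟨z, hz1, hz2⟩ : ∃ z, z ∈ riemannRochSpace E₁ ∧ z ∉ riemannRochSpace E₂ := by
    by_contra! h
    exact absurd (Submodule.finrank_mono (show riemannRochSpace E₁ ≤ riemannRochSpace E₂ from h))
      (not_le.mpr hlt)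
  have hz0 : z ≠ 0 := fun h => hz2 (h ▸ zero_mem _)
  rw [mem_riemannRochSpace_iff] at hz1 hz2
  push Not at hz2
  obtain ⟨w, -, hw⟩ := hz2
  have hw1 := (hz1 w).resolve_left hz0
  refine ⟨z, hz0, mem_intClosure_iff.mpr fun u hu => ordGE_iff.mpr (.inr ?_), ?_⟩
  · have := (hz1 u).resolve_left hz0
    have hux := hu.le_ord hx0
    simp only [E₁, D, Finsupp.sub_apply, Finsupp.smul_apply, poleDiv_apply,
      Finsupp.single_apply] at this
    rw [max_eq_right (by omega), smul_zero] at this
    split_ifs at this <;> omega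
  · rcases eq_or_ne v w with rfl | hne
    · simp only [E₁, E₂, Finsupp.sub_apply, hDv, Finsupp.single_eq_same] at hw hw1
      omega
    · simp only [E₁, E₂, Finsupp.sub_apply, Finsupp.single_eq_of_ne hne.symm] at hw hw1
      omega

/-- A function regular outside the poles of `x` has poles bounded by a multiple of them. -/
theorem exists_mem_riemannRochSpace_of_intClosure {x f : F}
    (hf : f ∈ intClosure K x) : ∃ n : ℕ, f ∈ riemannRochSpace (n • poleDiv K x) := by
  classical
  rcases eq_or_ne f 0 with rfl | hf0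
  · exact ⟨0, zero_mem _⟩
  obtain ⟨n, hn⟩ : ∃ n : ℕ, ∀ v : Place K F, -(n : ℤ) ≤ v.ord f := by
    refine ⟨((finite_setOf_ord_ne_zero (K := K) f).toFinset.sup fun v => (v.ord f).natAbs),
      fun v => ?_⟩
    by_cases hv : v.ord f = 0
    · rw [hv]; exact neg_nonpos.mpr (Nat.cast_nonneg _)
    · have := Finset.le_sup (f := fun v : Place K F => (v.ord f).natAbs)
        ((finite_setOf_ord_ne_zero (K := K) f).mem_toFinset.mpr hv)
      omega
  refine ⟨n, mem_riemannRochSpace_iff.mpr fun v => Or.inr ?_⟩
  rw [Finsupp.smul_apply, poleDiv_apply, nsmul_eq_mul]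
  rcases le_or_gt 0 (v.ord x) with h | h
  · have := (mem_intClosure_iff.mp hf v (ordGE_iff.mpr (.inr h))).le_ord hf0
    rw [max_eq_right (by omega), mul_zero, neg_zero]
    exact this
  · rw [max_eq_left (by omega)]
    have := hn v
    nlinarith [Nat.cast_nonneg n (α := ℤ)]

/-- If no `z - c` is a uniformiser, some `z - c` vanishes to order two. -/
theorem exists_ordGE_two {v : Place K F} {z : F} (hz : OrdGE v z 0)
    (h : ∀ c : K, z - algebraMap K F c ≠ 0 → v.ord (z - algebraMap K F c) ≠ 1) :
    ∃ c : K, OrdGE v (z - algebraMap K F c) 2 := by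
  refine ⟨evalAt v z, ?_⟩
  rcases eq_or_ne (z - algebraMap K F (evalAt v z)) 0 with h0 | h0
  · rw [h0]; exact ordGE_zero _ _
  · have h1 := (evalAt_spec hz).le_ord h0
    have h2 := h _ h0
    exact ordGE_iff.mpr (.inr (by omega))

/-- A function constant modulo the square of the maximal ideal has no simple zero. -/
theorem ord_ne_one_of_ordGE_two {v : Place K F} {z : F} (hz : z ≠ 0) {c : K}
    (hc : OrdGE v (z - algebraMap K F c) 2) : v.ord z ≠ 1 := fun h => by
  have h1 : OrdGE v z 1 := ordGE_iff.mpr (.inr h.ge)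
  have h3 : OrdGE v (algebraMap K F c) 1 := by
    have := h1.sub (hc.mono (by norm_num : (1 : ℤ) ≤ 2))
    rwa [sub_sub_cancel] at this
  have hc0 : c = 0 := by
    by_contra hc0
    have := h3.le_ord ((_root_.map_ne_zero _).mpr hc0)
    rw [ord_algebraMap] at this
    omega
  rw [hc0, map_zero, sub_zero] at hc
  have := hc.le_ord hz
  omega

end Generic

section RatUniformizer

variable {q : ℕ} [Fact q.Prime] (hq : q.Prime) {A : ValuationSubring (AlgebraicClosure ℚ)}
  (hA : A.LiesOverPrime q) [IsAlgClosed (IsLocalRing.ResidueField A)]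

local notation "kA" => IsLocalRing.ResidueField A

variable {FM : IntermediateField (AlgebraicClosure ℚ) (LaurentSeries (AlgebraicClosure ℚ))}
  [FF.IsFunctionField Qb FM]
variable {K : IntermediateField (IsLocalRing.ResidueField A)
  (LaurentSeries (IsLocalRing.ResidueField A))} [FF.IsFunctionField (IsLocalRing.ResidueField A) K]

/-- `z - c` is a uniformiser at `s`, `z` being the reduction of the integral expansion `y` of the
rational function `t`, integral over `Qb[j]`. -/
structure IsRatUniformizer (j : FM) (s : Place kA K) (t : FM) (y : LaurentSeries A) (z : K)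
    (c : kA) : Prop where
  /-- `t` is integral over the coordinate. -/
  mem_intClosure : t ∈ intClosure Qb j
  /-- `y` is the expansion of `t`. -/
  coe_eq : (t : LaurentSeries Qb) = coeffMap A.subtype y
  /-- The coefficients are rational. -/
  ratSeries : RatSeries (t : LaurentSeries Qb)
  /-- `z` is the reduction of `y`. -/
  red_eq : (z : LaurentSeries kA) = coeffMap (IsLocalRing.residue A) y
  /-- `z` is not the constant `c`. -/
  ne_zero : z - algebraMap kA K c ≠ 0
  /-- `z - c` vanishes once at `s`. -/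
  ord_eq_one : s.ord (z - algebraMap kA K c) = 1

/-- Being constant modulo the square of the maximal ideal at `s` passes to spans. -/
theorem exists_ordGE_two_of_mem_span {s : Place kA K} {S : Set (LaurentSeries kA)}
    (hS : ∀ w ∈ S, ∃ (z : K) (c : kA), (z : LaurentSeries kA) = w ∧
      OrdGE s (z - algebraMap kA K c) 2) :
    ∀ w ∈ Submodule.span kA S, ∃ (z : K) (c : kA), (z : LaurentSeries kA) = w ∧
      OrdGE s (z - algebraMap kA K c) 2 := by
  intro w hw
  induction hw using Submodule.span_induction with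
  | mem w hw => exact hS w hw
  | zero => exact ⟨0, 0, rfl, by rw [map_zero, sub_zero]; exact ordGE_zero _ _⟩
  | add a b _ _ ha hb =>
    obtain ⟨za, ca, rfl, ha⟩ := ha
    obtain ⟨zb, cb, rfl, hb⟩ := hb
    exact ⟨za + zb, ca + cb, rfl, by rw [map_add, add_sub_add_comm]; exact ha.add hb⟩
  | smul a b _ hb =>
    obtain ⟨zb, cb, rfl, hb⟩ := hb
    exact ⟨a • zb, a * cb, by rw [Algebra.smul_def, RED.laurent_smul_def]; rfl, by
      rw [map_mul, ← Algebra.smul_def, ← smul_sub]; exact hb.smul a⟩

include hq hA in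
/-- When the bounded functions are Galois stable, the reduction of an integral function regular
away from the cusps is a combination of reductions of rational ones. -/
theorem red_mem_span_rat_intClosure {j : FM} (hj : Transcendental Qb j)
    (act : (Qb ≃ₐ[ℚ] Qb) → SemilinearAut Qb FM)
    (hact : ∀ σ (t : FM), ((act σ • t : FM) : LaurentSeries Qb) =
      coeffMap (σ : Qb →+* Qb) (t : LaurentSeries Qb))
    (hjfix : ∀ σ, act σ • j = j)
    (hco : ∀ t : FM, ∃ L₀ : IntermediateField ℚ Qb, FiniteDimensional ℚ L₀ ∧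
      ∀ m, (t : LaurentSeries Qb).coeff m ∈ L₀)
    (hbdd : ∀ t : FM, t ∈ intClosure Qb j → ∃ a : Qb, a ≠ 0 ∧ a ∈ A ∧
      algebraMap Qb (LaurentSeries Qb) a * (t : LaurentSeries Qb) ∈ intSeries A)
    {g : FM} (hg : g ∈ intClosure Qb j) {y : LaurentSeries A}
    (hy : (g : LaurentSeries Qb) = coeffMap A.subtype y) :
    coeffMap (IsLocalRing.residue A) y ∈ Submodule.span kA {w | ∃ (t : FM) (r : LaurentSeries A),
      t ∈ intClosure Qb j ∧ (t : LaurentSeries Qb) = coeffMap A.subtype r ∧
        RatSeries (t : LaurentSeries Qb) ∧ w = coeffMap (IsLocalRing.residue A) r} := by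
  classical
  -- the bounded functions form a Galois stable space of series, to which `red_mem_span` applies
  obtain ⟨n, hn⟩ := exists_mem_riemannRochSpace_of_intClosure hg
  set R := riemannRochSpace (n • poleDiv Qb (j))
  set V : Submodule Qb (LaurentSeries Qb) :=
    { carrier := {w | ∃ t ∈ R, (t : LaurentSeries Qb) = w}
      add_mem' := by
        rintro _ _ ⟨t, ht, rfl⟩ ⟨t', ht', rfl⟩
        exact ⟨t + t', add_mem ht ht', rfl⟩
      zero_mem' := ⟨0, zero_mem _, rfl⟩
      smul_mem' := by
        rintro a _ ⟨t, ht, rfl⟩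
        exact ⟨a • t, R.smul_mem a ht, (by rw [Algebra.smul_def, RED.laurent_smul_def]; rfl)⟩ }
  have hVmem : ∀ {w : LaurentSeries Qb}, w ∈ V → ∃ t ∈ R, (t : LaurentSeries Qb) = w :=
    fun h => h
  have : FiniteDimensional Qb V := by
    let e : R →ₗ[Qb] V :=
      { toFun := fun t => ⟨((t : FM) : LaurentSeries Qb), t, t.2, rfl⟩
        map_add' := fun _ _ => rfl
        map_smul' := fun a t => Subtype.ext (by
          change ((a • (t : FM) : FM) : LaurentSeries Qb) = a • ((t : FM) : LaurentSeries Qb)
          rw [Algebra.smul_def, RED.laurent_smul_def]; rfl) }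
    exact Module.Finite.of_surjective e fun ⟨w, t, ht, h⟩ => ⟨⟨t, ht⟩, Subtype.ext h⟩
  have hV : ∀ σ : Qb ≃ₐ[ℚ] Qb, ∀ f ∈ V, coeffMap (σ : Qb →+* Qb) f ∈ V := by
    intro σ f hf
    obtain ⟨t, ht, rfl⟩ := hVmem hf
    refine ⟨act σ • t, ?_, hact σ t⟩
    obtain ⟨h1, h2⟩ := (mem_nsmul_poleDiv_iff hj n).mp ht
    refine (mem_nsmul_poleDiv_iff hj n).mpr
      ⟨smul_mem_intClosure _ (hjfix σ) h1, ?_⟩
    have h3 := smul_mem_intClosure (act σ)
      (x := (j)⁻¹)
      (by rw [smul_inv₀', (hjfix σ)]) h2
    rwa [smul_mul', smul_pow', smul_inv₀', (hjfix σ)] at h3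
  have hco : ∀ f ∈ V, ∃ L₀ : IntermediateField ℚ Qb, FiniteDimensional ℚ L₀ ∧
      ∀ m, f.coeff m ∈ L₀ := fun f hf => by
    obtain ⟨t, -, rfl⟩ := hVmem hf
    exact hco t
  have hbdd : ∀ f ∈ V, ∃ a : Qb, a ≠ 0 ∧ a ∈ A ∧ a • f ∈ intSeries A := fun f hf => by
    obtain ⟨t, ht, rfl⟩ := hVmem hf
    obtain ⟨a, ha, haA, h⟩ := hbdd t
      ((mem_nsmul_poleDiv_iff hj n).mp ht).1
    exact ⟨a, ha, haA, by rw [RED.laurent_smul_def]; exact h⟩
  refine Submodule.span_mono ?_ (red_mem_span hq hA V hV hco hbdd (y := y) ⟨g, hn, hy⟩)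
  rintro _ ⟨r, hrV, hrQ, rfl⟩
  obtain ⟨t, ht, hte⟩ := hVmem hrV
  exact ⟨t, r, ((mem_nsmul_poleDiv_iff hj n).mp ht).1, hte, hte ▸ hrQ, rfl⟩

include hq hA in
/-- When integral functions lift and the bounded ones are Galois stable, some rational integral
function reduces to a uniformiser at a given point of the finite part, up to a constant. -/
theorem exists_rat_uniformizer_of_lift {j : FM} (hj : Transcendental Qb j) {jk : K}
    (hjk : Transcendental kA jk) (act : (Qb ≃ₐ[ℚ] Qb) → SemilinearAut Qb FM)
    (hact : ∀ σ (t : FM), ((act σ • t : FM) : LaurentSeries Qb) =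
      coeffMap (σ : Qb →+* Qb) (t : LaurentSeries Qb))
    (hjfix : ∀ σ, act σ • j = j)
    (hco : ∀ t : FM, ∃ L₀ : IntermediateField ℚ Qb, FiniteDimensional ℚ L₀ ∧
      ∀ m, (t : LaurentSeries Qb).coeff m ∈ L₀)
    (hbdd : ∀ t : FM, t ∈ intClosure Qb j → ∃ a : Qb, a ≠ 0 ∧ a ∈ A ∧
      algebraMap Qb (LaurentSeries Qb) a * (t : LaurentSeries Qb) ∈ intSeries A)
    (hmem : ∀ (t : FM) (y : LaurentSeries A), (t : LaurentSeries Qb) = coeffMap A.subtype y →
      coeffMap (IsLocalRing.residue A) y ∈ K)
    (hint : ∀ t : FM, t ∈ intClosure Qb j → ∀ y : LaurentSeries A,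
      (t : LaurentSeries Qb) = coeffMap A.subtype y →
        ∀ z : K, (z : LaurentSeries kA) = coeffMap (IsLocalRing.residue A) y →
          z ∈ intClosure kA jk)
    (hlift : ∀ z : K, z ∈ intClosure kA jk → ∃ g : FM, g ∈ intClosure Qb j ∧
      ∃ y : LaurentSeries A, (g : LaurentSeries Qb) = coeffMap A.subtype y ∧
        coeffMap (IsLocalRing.residue A) y = (z : LaurentSeries kA))
    {s : Place kA K} (hs : OrdGE s jk 0) :
    ∃ (t : FM) (y : LaurentSeries A) (z : K) (c : kA), IsRatUniformizer j s t y z c := by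
  classical
  by_contra hno
  obtain ⟨z₁, hz₁0, hz₁, hz₁o⟩ := exists_intClosure_ord_one hjk hs
  obtain ⟨g', hg', y, hy, hz₁e⟩ := hlift z₁ hz₁
  have hspan := red_mem_span_rat_intClosure hq hA hj act hact hjfix hco hbdd hg' hy
  rw [hz₁e] at hspan
  -- every element of the span is constant modulo the square of the maximal ideal
  obtain ⟨z, c, hz, hc⟩ := exists_ordGE_two_of_mem_span (K := K) (s := s) (fun w hw => by
    obtain ⟨t, r, hti, hte, hrQ, rfl⟩ := hw
    set z : K := ⟨coeffMap (IsLocalRing.residue A) r, hmem t r hte⟩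
    obtain ⟨c, hc⟩ := exists_ordGE_two (mem_intClosure_iff.mp (hint t hti r hte z rfl) s hs)
      fun c hne hord => hno ⟨t, r, z, c, hti, hte, hrQ, rfl, hne, hord⟩
    exact ⟨z, c, rfl, hc⟩) _ hspan
  rw [show z = z₁ from Subtype.ext hz] at hc
  exact ord_ne_one_of_ordGE_two hz₁0 hc hz₁o

end RatUniformizer

section Level

variable {M q : ℕ} [NeZero M] [NeZero q] [Fact q.Prime] (hq : q.Prime) (hqM : ¬ q ∣ M)
variable [FF.IsFunctionField Qb (FN M Qb)]
variable {A : ValuationSubring (AlgebraicClosure ℚ)} (hA : A.LiesOverPrime q)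
  [IsAlgClosed (IsLocalRing.ResidueField A)]
  [FF.IsFunctionField (IsLocalRing.ResidueField A) (FX (IsLocalRing.ResidueField A) M)]

local notation "kA" => IsLocalRing.ResidueField A

include hq hqM hA

/-- Functions of the reduced curve regular where a coordinate is lift to integral functions of
level `M` with integral expansions, if the model is normal along that coordinate. -/
theorem exists_lift_of_normal {x' : FX Qb M} {d : ℕ}
    (hgm : GoodModel (IsLocalRing.residue A) (expX Qb M) x' d)
    (hnorm : Normal A (IsLocalRing.residue A) (expX Qb M) x') {xk : FX kA M}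
    (hxk : redF (IsLocalRing.residue A) (expX Qb M) x' = (xk : LaurentSeries kA)) {x : FN M Qb}
    (hx : (x : LaurentSeries Qb) = (x' : LaurentSeries Qb)) (z : FX kA M)
    (hz : z ∈ intClosure kA xk) :
    ∃ g : FN M Qb, g ∈ intClosure Qb x ∧ ∃ y : LaurentSeries A,
      (g : LaurentSeries Qb) = coeffMap A.subtype y ∧
      coeffMap (IsLocalRing.residue A) y = (z : LaurentSeries kA) := by
  have hM := natCast_ne_zero_residue A hq hA hqM
  obtain ⟨i1, i2⟩ := isFunctionField_X0 (L := Qb) (A := A) (π := IsLocalRing.residue A)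
    IsLocalRing.residue_surjective hM
  have := i1
  have := i2
  have hsp := specField_X0 (L := Qb) (A := A) (π := IsLocalRing.residue A)
    IsLocalRing.residue_surjective hM
  obtain ⟨g, hg, hgz⟩ := hnorm ⟨(z : LaurentSeries kA), by rw [hsp]; exact z.2⟩
    (intClosure_congr hsp.symm rfl hxk.symm hz)
  set g' : FN M Qb := ⟨g, by
    change (g : LaurentSeries Qb) ∈ laurentBaseChange Qb (modularFunctionFieldFull M)
    rw [fullC_eq_baseChange]
    exact g.2⟩
  have hg' : g' ∈ intClosure Qb x :=
    intClosure_congr (fullC_eq_baseChange Qb M).symm rfl hx.symm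
      (mem_intClosure_of_mem_chart hg)
  obtain ⟨y, hy⟩ := hgm.int_chart g hg
  refine ⟨g', hg', y, hy.symm, ?_⟩
  have h := congrArg Subtype.val hgz
  change redF (IsLocalRing.residue A) (expX Qb M) g = _ at h
  rw [← h, redF_of_mem (hgm.int_chart g hg),
    ← redHom_coeffMap (IsLocalRing.residue A) y ⟨y, rfl⟩]
  exact congrArg _ (Subtype.ext hy)

/-- Functions of the reduced curve regular away from the cusps lift to such functions of level
`M` with integral expansions. -/
theorem exists_lift_intClosure_level (z : FX kA M) (hz : z ∈ intClosure kA (jX kA M)) :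
    ∃ g : FN M Qb, g ∈ intClosure Qb (jL M Qb) ∧ ∃ y : LaurentSeries A,
      (g : LaurentSeries Qb) = coeffMap A.subtype y ∧
      coeffMap (IsLocalRing.residue A) y = (z : LaurentSeries kA) :=
  exists_lift_of_normal hq hqM hA (goodModel_level (M := M) hq hqM hA)
    (normal_X0 (L := Qb) (A := A) embC IsLocalRing.residue_surjective
      (natCast_ne_zero_residue A hq hA hqM)).1 redF_jX (coe_jL M) z hz

/-- Some rational integral function of level `M` regular away from the cusps reduces to a
uniformiser at a given finite point, up to a constant. -/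
theorem exists_rat_uniformizer {s : Place kA (FX kA M)} (hs : OrdGE s (jX kA M) 0) :
    ∃ (t : FN M Qb) (y : LaurentSeries A) (z : FX kA M) (c : kA),
      IsRatUniformizer (jL M Qb) s t y z c := by
  have hM := natCast_ne_zero_residue A hq hA hqM
  refine exists_rat_uniformizer_of_lift hq hA (transcendental_jL M) Cusps.transcendental_jX
    (arithmeticGalois (modularFunctionFieldFull M)) (fun σ t => coe_arithmeticGalois_smul _ σ t)
    arithmeticGalois_smul_jL (fun t => coeff_mem_of_fixed t) (exists_smul_int_level hq hqM hA)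
    (fun t r hte => mem_fullC_of_coe (L := Qb) (B := A) IsLocalRing.residue_surjective hM r
      (by rw [← hte, ← fullC_eq_baseChange Qb M]; exact t.2))
    (mem_intClosure_level hq hqM hA) (exists_lift_intClosure_level hq hqM hA) hs

end Level

end Fermat.BAD.X0

end
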