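import Fermat.Agent.BAD.X0.Regular
import Fermat.Agent.RED.Congruence.Frobenius

/-!
# The unit of level `q`

`un = G (j, j_q) / Φ' (j, j_q)` is regular away from the cusps, its expansions are
`q ^ 12 Δ (q z) / Δ (z)` at `∞` and `Δ (z) / Δ (q z)` at `0`.  The reduction `hSer` of the latter
is a polynomial of degree `q - 1` in `j`, and divides the reduction at `∞` of every regular
function whose expansion at `0` is divisible by `q ^ 12`.
-/

set_option autoImplicit false
set_option linter.unusedSectionVars false

attribute [local instance 10000] SubalgebraClass.toAlgebra HahnSeries.powerSeriesAlgebra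

noncomputable section

open ModularCurve

namespace Fermat.BAD.X0

open Fermat.FF Fermat.MC Fermat.RED Fermat.RED.Model

local notation "Qb" => AlgebraicClosure ℚ

/-- The interpolation formula at a node. -/
theorem div_eval_interp {C' : Type*} [Field C'] {α : Type*} [Fintype α] [DecidableEq α]
    (y u : α → C') (hy : Function.Injective y) (i : α) :
    (∑ m, Polynomial.C (u m) * ∏ l ∈ Finset.univ.erase m, (Polynomial.X - Polynomial.C (y l))).eval
      (y i) /
      (Polynomial.derivative (∏ m, (Polynomial.X - Polynomial.C (y m)))).eval (y i) = u i := by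
  rw [eval_derivative_prod, Polynomial.eval_finsetSum, Finset.sum_eq_single i]
  · rw [Polynomial.eval_mul, Polynomial.eval_C, Polynomial.eval_prod]
    simp only [Polynomial.eval_sub, Polynomial.eval_X, Polynomial.eval_C]
    exact mul_div_cancel_right₀ _ (Finset.prod_ne_zero_iff.mpr fun m hm =>
      sub_ne_zero.mpr fun h => Finset.ne_of_mem_erase hm (hy h).symm)
  · intro m _ hm
    rw [Polynomial.eval_mul, Polynomial.eval_prod,
      Finset.prod_eq_zero (Finset.mem_erase.mpr ⟨hm.symm, Finset.mem_univ _⟩) (by simp), mul_zero]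
  · exact fun h => absurd (Finset.mem_univ _) h

/-- The series of `Δ (z) / Δ (q z)` over a ring; in characteristic `q` it is the reduction of the
unit. -/
def hSer (k : Type*) [CommRing k] (q : ℕ) [NeZero q] : LaurentSeries k :=
  deltaSeries k * qExpand k q (deltaSeriesInv k)

/-- `hSer` is invertible, with inverse the series of `Δ (q z) / Δ (z)`. -/
theorem hSer_mul (k : Type*) [CommRing k] (q : ℕ) [NeZero q] :
    hSer k q * (qExpand k q (deltaSeries k) * deltaSeriesInv k) = 1 := by
  calc hSer k q * (qExpand k q (deltaSeries k) * deltaSeriesInv k)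
      = (deltaSeries k * deltaSeriesInv k) *
        qExpand k q (deltaSeries k * deltaSeriesInv k) := by rw [hSer, map_mul]; ring
    _ = 1 := by rw [deltaSeries_mul_inv, map_one, mul_one]

/-- `hSer` is nonzero. -/
theorem hSer_ne_zero (k : Type*) [CommRing k] [Nontrivial k] (q : ℕ) [NeZero q] : hSer k q ≠ 0 :=
  fun h => zero_ne_one (α := LaurentSeries k) (by rw [← hSer_mul k q, h, zero_mul])

/-- The series of `Δ` has first coefficient `1`. -/
theorem coeff_deltaSeries_one (k : Type*) [CommRing k] : (deltaSeries k).coeff 1 = 1 := by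
  have h : (deltaSeries ℤ).coeff 1 = 1 := by
    have hc := deltaSeries_order_lead.2.2
    rw [← coeffMap_deltaSeries (R := ℤ) (Int.castRingHom ℂ), coeffMap_coeff, eq_intCast] at hc
    exact_mod_cast hc
  rw [← coeffMap_deltaSeries (R := ℤ) (Int.castRingHom k), coeffMap_coeff, h, map_one]

/-- The series of `Δ` starts in degree `1`. -/
theorem orderTop_deltaSeries (k : Type*) [CommRing k] [Nontrivial k] :
    (deltaSeries k).orderTop = ((1 : ℤ) : WithTop ℤ) := by
  refine le_antisymm (HahnSeries.orderTop_le_of_coeff_ne_zero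
    (by rw [coeff_deltaSeries_one]; exact one_ne_zero)) (HahnSeries.le_orderTop_iff_forall.mpr ?_)
  intro n hn
  rw [deltaSeries, show n = (n - 1) + 1 by ring, HahnSeries.coeff_single_mul_add, one_mul]
  exact HahnSeries.embDomain_of_notMem_range (fun ⟨m, hm⟩ => by
    have := WithTop.coe_lt_coe.mp hn
    have hm' : (m : ℤ) = n - 1 := hm
    omega)

/-- The series `hSer` starts in degree `1 - q`. -/
theorem order_hSer (k : Type*) [Field k] (q : ℕ) [NeZero q] :
    (hSer k q).order = 1 - (q : ℤ) := by
  have h0 := hSer_ne_zero k q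
  have hd : deltaSeries k ≠ 0 := fun h => h0 (by rw [hSer, h, zero_mul])
  have hdi : deltaSeriesInv k ≠ 0 := fun h => h0 (by rw [hSer, h, map_zero, mul_zero])
  have ho : (deltaSeries k).order = 1 :=
    WithTop.coe_injective ((HahnSeries.order_eq_orderTop_of_ne_zero hd).trans
      (orderTop_deltaSeries k))
  have hqd : qExpand k q (deltaSeries k) ≠ 0 :=
    (map_ne_zero_iff _ (qExpand_injective q)).mpr hd
  have hoq : (qExpand k q (deltaSeries k)).order = q := by
    refine le_antisymm (HahnSeries.order_le_of_coeff_ne_zero ?_) ?_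
    · have := qExpand_coeff_mul q (deltaSeries k) 1
      rw [mul_one, coeff_deltaSeries_one] at this
      rw [this]
      exact one_ne_zero
    · refine (HahnSeries.le_order_iff_forall hqd).mpr fun n hn => ?_
      by_cases hdvd : (q : ℤ) ∣ n
      · obtain ⟨m, rfl⟩ := hdvd
        rw [qExpand_coeff_mul]
        refine HahnSeries.coeff_eq_zero_of_lt_order ?_
        rw [ho]
        nlinarith
      · exact qExpand_coeff_of_not_dvd q _ hdvd
  have h := congrArg HahnSeries.order (hSer_mul k q)
  rw [HahnSeries.order_mul h0 (mul_ne_zero hqd hdi), HahnSeries.order_mul hqd hdi,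
    HahnSeries.order_one, hoq] at h
  have h2 := congrArg HahnSeries.order (deltaSeries_mul_inv k)
  rw [HahnSeries.order_mul hd hdi, HahnSeries.order_one, ho] at h2
  linarith

variable (M q : ℕ) [NeZero M] [NeZero q] (hq : q.Prime) (hqM : ¬ q ∣ M)

section Un

variable [Fact q.Prime]

/-- The unit of level `q`, `q ^ 12 Δ (q z) / Δ (z)`, written as `G (j, j_q) / Φ' (j, j_q)` by
interpolation. -/
def un : FN (M * q) Qb :=
  ((levelOne q).G.map (ev (aj M q))).eval (bj M q) /
    (Polynomial.derivative ((levelOne q).Φ.map (ev (aj M q)))).eval (bj M q)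

/-- The branches of `j (q z)` are distinct. -/
theorem yRoot_injective {ζ : Qbˣ} (hζ : IsPrimitiveRoot (ζ : Qb) q) :
    Function.Injective (yRoot Qb q ζ) := fun o o' h => by
  have hq2 := Nat.mul_le_mul (Fact.out : q.Prime).two_le (Fact.out : q.Prime).two_le
  rcases o with _ | i <;> rcases o' with _ | j
  · rfl
  · exact absurd (jb_inj h).2 (by omega)
  · exact absurd (jb_inj h).2 (by omega)
  · exact congrArg some (Fin.ext (hζ.pow_inj i.2 j.2 (by
      rw [← Units.val_pow_eq_pow_val, ← Units.val_pow_eq_pow_val, (jb_inj h).1])))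

/-- A map sending `j (z), j (q z)` to a branch sends `un` to that branch's value of the unit. -/
theorem map_un (f : FN (M * q) Qb →+* LaurentSeries Qb) {ζ : Qbˣ}
    (hζ : IsPrimitiveRoot (ζ : Qb) q) (hf : f (aj M q) = jb Qb 1 q) (o : Option (Fin q))
    (ho : f (bj M q) = yRoot Qb q ζ o) : f (un M q) = uRoot Qb q ζ o := by
  have hid := (levelOne q).identities_of_isPrimitiveRoot (IsPrimitiveRoot.coe_units_iff.mp hζ)
  rw [un, map_div₀, map_eval_ev, Polynomial.derivative_map, map_eval_ev, hf, ho,
    ← Polynomial.derivative_map, show ev (jb Qb 1 q) = evalAt Qb (jb Qb 1 q) from rfl,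
    hid.eq_modular, hid.eq_interp]
  classical
  exact div_eval_interp _ _ (yRoot_injective q hζ) o

/-- `un` at `∞` is `q ^ 12 Δ (q z) / Δ (z)`. -/
theorem emb_true_un : emb M q hq hqM true (un M q) =
    (q : LaurentSeries Qb) ^ 12 * qExpand Qb q (deltaSeries Qb) * deltaSeriesInv Qb := by
  obtain ⟨ζ, hζ⟩ := exists_zeta q
  refine qExpand_injective q ?_
  have h := map_un M q ((qExpand Qb q).comp (emb M q hq hqM true)) hζ
    (by rw [RingHom.comp_apply, emb_true_aj, jb_one]) none
    (by rw [RingHom.comp_apply, emb_true_bj, qExpand_qExpand]; exact (jb_one (q * q)).symm)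
  rw [RingHom.comp_apply] at h
  rw [h]
  simp only [uRoot, map_mul, map_pow, map_natCast, qExpand_qExpand]

/-- `un` at `0` is `Δ (z) / Δ (q z)`. -/
theorem emb_false_un : emb M q hq hqM false (un M q) =
    deltaSeries Qb * qExpand Qb q (deltaSeriesInv Qb) := by
  obtain ⟨ζ, hζ⟩ := exists_zeta q
  have h := map_un M q (emb M q hq hqM false) hζ
    (by rw [aj, emb_false_alpha, coe_jL, jb_one]) (some ⟨0, NeZero.pos q⟩)
    (by rw [bj, emb_false_beta, coe_jL]; simp [yRoot, jb_one, qExpand_one_apply])
  rw [h]
  simp only [uRoot, pow_zero, twist_one_apply]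

/-- The image of `un` under `W`. -/
def wn : FN (M * q) Qb := alW M q hq hqM (un M q)

/-- The expansions of `wn` are those of `un` exchanged. -/
theorem emb_wn (b : Bool) :
    emb M q hq hqM b (wn M q hq hqM) = emb M q hq hqM (!b) (un M q) :=
  emb_alW M q hq hqM b _

/-- `un * W un = q ^ 12`. -/
theorem un_mul_wn : un M q * wn M q hq hqM = ((q : FN (M * q) Qb)) ^ 12 := by
  refine (emb M q hq hqM true).injective ?_
  rw [map_mul, emb_wn, Bool.not_true, emb_true_un, emb_false_un, map_pow, map_natCast]
  have h := deltaSeries_mul_inv Qb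
  have h2 := congrArg (qExpand Qb q) h
  rw [map_mul, map_one] at h2
  linear_combination ((q : LaurentSeries Qb) ^ 12 * qExpand Qb q (deltaSeries Qb) *
    qExpand Qb q (deltaSeriesInv Qb)) * h + (q : LaurentSeries Qb) ^ 12 * h2

variable [FF.IsFunctionField Qb (FN (M * q) Qb)] [FF.IsFunctionField Qb (FN M Qb)]

include hq hqM in
/-- The unit of level `q` is regular away from the cusps. -/
theorem un_mem_intClosure : un M q ∈ intClosure Qb (aj M q) := by
  obtain ⟨ζ, hζ⟩ := exists_zeta q
  have hid := (levelOne q).identities_of_isPrimitiveRoot (k := Qb)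
    (IsPrimitiveRoot.coe_units_iff.mp hζ)
  have h0 : ((levelOne q).Ψ.map (ev (aj M q))).eval (un M q) = 0 := by
    refine ((qExpand Qb q).comp (emb M q hq hqM true)).injective ?_
    rw [map_zero, map_eval_ev]
    simp only [RingHom.comp_apply]
    rw [emb_true_aj, ← jb_one q,
      show ev (jb Qb 1 q) = evalAt Qb (jb Qb 1 q) from rfl, hid.eq_unit, Polynomial.eval_prod]
    refine Finset.prod_eq_zero (Finset.mem_univ none) ?_
    rw [Polynomial.eval_sub, Polynomial.eval_X, Polynomial.eval_C, sub_eq_zero,
      ← RingHom.comp_apply (qExpand Qb q) (emb M q hq hqM true) (un M q),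
      map_un M q _ hζ (by rw [RingHom.comp_apply, emb_true_aj, jb_one]) none
        (by rw [RingHom.comp_apply, emb_true_bj, qExpand_qExpand]; exact (jb_one (q * q)).symm)]
  have hmem : ∀ P : Polynomial ℤ, ev (aj M q) P ∈ Algebra.adjoin Qb {aj M q} := fun P => by
    rw [ev, Polynomial.coe_eval₂RingHom, Polynomial.eval₂_eq_sum]
    exact sum_mem fun i _ => mul_mem (intCast_mem _ _)
      (pow_mem (Algebra.self_mem_adjoin_singleton Qb _) i)
  refine mem_intClosure.mpr ⟨(levelOne q).Ψ.map ((ev (aj M q)).codRestrict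
    (Algebra.adjoin Qb {aj M q}).toSubring hmem), (levelOne q).monic_Ψ.map _, ?_⟩
  rw [Polynomial.eval₂_map]
  rw [Polynomial.eval_map] at h0
  exact h0

/-- `wn` is regular away from the cusps. -/
theorem wn_mem_intClosure : wn M q hq hqM ∈ intClosure Qb (aj M q) :=
  alW_mem_intClosure M q hq hqM (un_mem_intClosure M q hq hqM)

end Un

section Red

variable [Fact q.Prime] [FF.IsFunctionField Qb (FN (M * q) Qb)] [FF.IsFunctionField Qb (FN M Qb)]
variable {A : ValuationSubring (AlgebraicClosure ℚ)} (hA : A.LiesOverPrime q)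
  [IsAlgClosed (IsLocalRing.ResidueField A)]

/-- `hSer` over `A` maps to that over `ℚ̄`. -/
theorem coeffMap_subtype_hSer :
    coeffMap A.subtype (hSer A q) = deltaSeries Qb * qExpand Qb q (deltaSeriesInv Qb) := by
  rw [hSer, map_mul, coeffMap_qExpand, coeffMap_deltaSeries, coeffMap_deltaSeriesInv]

/-- `hSer` over `A` reduces to that over the residue field. -/
theorem coeffMap_residue_hSer :
    coeffMap (IsLocalRing.residue A) (hSer A q) = hSer (IsLocalRing.ResidueField A) q := by
  rw [hSer, map_mul, coeffMap_qExpand, coeffMap_deltaSeries, coeffMap_deltaSeriesInv]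
  rfl

/-- `wn` has integral expansions. -/
theorem emb_wn_int (b : Bool) : emb M q hq hqM b (wn M q hq hqM) ∈ intSeries A := by
  cases b
  · rw [emb_wn, Bool.not_false, emb_true_un]
    refine mul_mem (mul_mem (pow_mem (natCast_mem _ q) 12) ?_) ?_
    · exact ⟨qExpand A q (deltaSeries A), by rw [coeffMap_qExpand, coeffMap_deltaSeries]⟩
    · exact ⟨deltaSeriesInv A, coeffMap_deltaSeriesInv _ _⟩
  · rw [emb_wn, Bool.not_true, emb_false_un]
    exact ⟨hSer A q, coeffMap_subtype_hSer q⟩

/-- `wn` reduces to `hSer` at `∞`. -/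
theorem redF_wn :
    redF (IsLocalRing.residue A) (emb M q hq hqM true) (wn M q hq hqM) =
      hSer (IsLocalRing.ResidueField A) q := by
  rw [redF_of_mem (emb_wn_int M q hq hqM true), ← coeffMap_residue_hSer q,
    ← redHom_coeffMap (IsLocalRing.residue A) (hSer A q) ⟨_, rfl⟩]
  refine congrArg _ (Subtype.ext ?_)
  exact ((emb_wn M q hq hqM true).trans (emb_false_un M q hq hqM)).trans
    (coeffMap_subtype_hSer (A := A) q).symm

include hq hqM hA

/-- `hSer` lies in the reduced field of level `M`. -/
theorem hSer_mem : hSer (IsLocalRing.ResidueField A) q ∈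
    modularFunctionFieldFullC (IsLocalRing.ResidueField A) M := by
  rw [← redF_wn M q hq hqM]
  exact redF_mem M q hq hqM hA true _ (emb_wn_int M q hq hqM true)

/-- The reduction at `∞` of a regular function with both expansions integral is regular. -/
theorem redF_true_mem_intClosure (f : FN (M * q) Qb)
    (h : ∀ b, emb M q hq hqM b f ∈ intSeries A) (hf : f ∈ intClosure Qb (aj M q))
    (z : FX (IsLocalRing.ResidueField A) M)
    (hz : (z : LaurentSeries (IsLocalRing.ResidueField A)) =
      redF (IsLocalRing.residue A) (emb M q hq hqM true) f) :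
    z ∈ intClosure (IsLocalRing.ResidueField A) (jX (IsLocalRing.ResidueField A) M) := by
  obtain ⟨y, h1, h2⟩ := trA_reduction M q hq hqM hA f h
  exact mem_intClosure_level hq hqM hA _ (trA_mem_intClosure (heckeAlphaBar Qb M q) hf) y h1 z
    (hz.trans h2.symm)

omit hqM [FF.IsFunctionField Qb (FN (M * q) Qb)] [FF.IsFunctionField Qb (FN M Qb)] in
/-- If the expansion at `0` of a regular `g` is divisible by `q ^ 12`, then `hSer` divides the
reduction at `∞`, for any pair of expansions with a unit of scale twelve. -/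
theorem exists_mul_hSer_of_unit {F : Type*} [Field F] [Algebra Qb F]
    {ι : Bool → F →+* LaurentSeries Qb}
    (hι : ∀ b c, ι b (algebraMap Qb F c) = algebraMap Qb (LaurentSeries Qb) c)
    {K : IntermediateField (IsLocalRing.ResidueField A)
      (LaurentSeries (IsLocalRing.ResidueField A))}
    {j : K} {S : Subalgebra Qb F} {u g : F}
    (hut : ι true u = (q : LaurentSeries Qb) ^ 12 * qExpand Qb q (deltaSeries Qb) *
      deltaSeriesInv Qb)
    (huf : ι false u = deltaSeries Qb * qExpand Qb q (deltaSeriesInv Qb))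
    (hred : ∀ y ∈ S, (∀ b, ι b y ∈ intSeries A) → ∃ z : K,
      z ∈ intClosure (IsLocalRing.ResidueField A) j ∧
        (z : LaurentSeries (IsLocalRing.ResidueField A)) =
          redF (IsLocalRing.residue A) (ι true) y)
    (hu : u ∈ S) (hg : g ∈ S) (hinf : ι true g ∈ intSeries A) {w : LaurentSeries Qb}
    (hw : w ∈ intSeries A) (h0 : ι false g = (q : LaurentSeries Qb) ^ 12 * w) :
    ∃ z : K, z ∈ intClosure (IsLocalRing.ResidueField A) j ∧
      (z : LaurentSeries (IsLocalRing.ResidueField A)) * hSer (IsLocalRing.ResidueField A) q =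
        redF (IsLocalRing.residue A) (ι true) g := by
  have := charP_residue hq hA
  -- `y = g u / q ^ 12` is integral at both cusps
  set c : Qb := ((q : Qb) ^ 12)⁻¹
  set y := c • (g * u)
  have hq0 : ((q : Qb) ^ 12) ≠ 0 := pow_ne_zero _ (Nat.cast_ne_zero.mpr hq.ne_zero)
  have hqS : (q : LaurentSeries Qb) ^ 12 = algebraMap Qb (LaurentSeries Qb) ((q : Qb) ^ 12) := by
    rw [map_pow, map_natCast]
  have hcq : algebraMap Qb (LaurentSeries Qb) c * (q : LaurentSeries Qb) ^ 12 = 1 := by
    rw [hqS, ← map_mul, inv_mul_cancel₀ hq0, map_one]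
  set D := qExpand A q (deltaSeries A) * deltaSeriesInv A
  have hD : coeffMap A.subtype D = qExpand Qb q (deltaSeries Qb) * deltaSeriesInv Qb := by
    rw [map_mul, coeffMap_qExpand, coeffMap_deltaSeries, coeffMap_deltaSeriesInv]
  have hyt : ι true y = ι true g * coeffMap A.subtype D := by
    rw [emb_smul (hι true), map_mul, hut, hD]
    linear_combination (ι true g * qExpand Qb q (deltaSeries Qb) *
      deltaSeriesInv Qb) * hcq
  have hyf : ι false y = w * coeffMap A.subtype (hSer A q) := by
    rw [emb_smul (hι false), map_mul, huf, h0,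
      coeffMap_subtype_hSer]
    linear_combination (w * deltaSeries Qb * qExpand Qb q (deltaSeriesInv Qb)) * hcq
  have hy : ∀ b, ι b y ∈ intSeries A := fun b => by
    cases b
    · rw [hyf]; exact mul_mem hw ⟨_, rfl⟩
    · rw [hyt]; exact mul_mem hinf ⟨_, rfl⟩
  -- so it reduces to some `z`, which at `true` is `g` times the reduction of `D`
  obtain ⟨z, hz, hzy⟩ := hred _ (S.smul_mem (mul_mem hg hu) c) hy
  refine ⟨z, hz, ?_⟩
  have hD' : coeffMap (IsLocalRing.residue A) D =
      qExpand (IsLocalRing.ResidueField A) q (deltaSeries _) * deltaSeriesInv _ := by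
    rw [map_mul, coeffMap_qExpand, coeffMap_deltaSeries, coeffMap_deltaSeriesInv]
  have hredy : redF (IsLocalRing.residue A) (ι true) y =
      redF (IsLocalRing.residue A) (ι true) g * coeffMap (IsLocalRing.residue A) D := by
    rw [redF_of_mem (hy true), redF_of_mem hinf,
      ← redHom_coeffMap (IsLocalRing.residue A) D ⟨_, rfl⟩, ← map_mul]
    exact congrArg _ (Subtype.ext hyt)
  -- and `hSer` inverts `D`
  rw [hzy, hredy, hD', mul_assoc, mul_comm _ (hSer _ q), hSer_mul, mul_one]

/-- If the expansion at `0` of a regular `g` is divisible by `q ^ 12`, then `hSer` divides the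
reduction at `∞`. -/
theorem exists_mul_hSer_eq (g : FN (M * q) Qb) (hg : g ∈ intClosure Qb (aj M q))
    (hinf : emb M q hq hqM true g ∈ intSeries A) {w : LaurentSeries Qb} (hw : w ∈ intSeries A)
    (h0 : emb M q hq hqM false g = (q : LaurentSeries Qb) ^ 12 * w) :
    ∃ z : FX (IsLocalRing.ResidueField A) M,
      z ∈ intClosure (IsLocalRing.ResidueField A) (jX (IsLocalRing.ResidueField A) M) ∧
      (z : LaurentSeries (IsLocalRing.ResidueField A)) * hSer (IsLocalRing.ResidueField A) q =
        redF (IsLocalRing.residue A) (emb M q hq hqM true) g :=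
  exists_mul_hSer_of_unit q hq hA (emb_algebraMap M q hq hqM) (emb_true_un M q hq hqM)
    (emb_false_un M q hq hqM)
    (fun y hy hi => ⟨⟨_, redF_mem M q hq hqM hA true y (hi true)⟩,
      redF_true_mem_intClosure M q hq hqM hA y hi hy _ rfl, rfl⟩)
    (un_mem_intClosure M q hq hqM) hg hinf hw h0

end Red

end Fermat.BAD.X0

end
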