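import Fermat.Agent.GR.ES.JZeroGalois
import Fermat.Agent.RED.Model.Basic
import Mathlib.FieldTheory.Galois.Infinite

/-!
# Values at a place of `ℚ̄` over a prime

The values of the elements of a number field are, up to a bounded exponent, powers of the value
of the prime; hence bounded expansions of modular functions attain their maximum.
-/

set_option autoImplicit false

noncomputable section

open ModularCurve

namespace Fermat.BAD.X0

open Fermat.RED.Model

local notation "ℚbar" => AlgebraicClosure ℚ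

variable {A : ValuationSubring ℚbar} {q : ℕ} (hq : q.Prime) (hA : A.LiesOverPrime q)

include hA in
/-- The prime under the place has value less than one. -/
theorem valuation_q_lt_one : A.valuation (q : ℚbar) < 1 := by
  have h : ((q : A) : ℚbar) ∈ A.nonunits := by push_cast; exact hA
  exact A.mem_nonunits_iff.mp (by push_cast at h; exact h)

include hq in
/-- `q` has nonzero value. -/
theorem valuation_q_ne_zero : A.valuation (q : ℚbar) ≠ 0 := by
  rw [ne_eq, map_eq_zero]
  exact Nat.cast_ne_zero.mpr hq.ne_zero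

include hq hA

/-- An integer prime to `q` has value one. -/
theorem valuation_natCast {n : ℕ} (hn : ¬ q ∣ n) : A.valuation (n : ℚbar) = 1 := by
  refine le_antisymm ((A.valuation_le_one_iff _).mpr (natCast_mem A n)) (not_lt.mp fun hlt => ?_)
  obtain ⟨a, b, hab⟩ := (Nat.Coprime.isCoprime (hq.coprime_iff_not_dvd.mpr hn))
  have h1 : (a : ℚbar) * (q : ℚbar) + (b : ℚbar) * (n : ℚbar) = 1 := by exact_mod_cast hab
  have h2 : A.valuation (1 : ℚbar) < 1 := by
    rw [← h1]
    refine Valuation.map_add_lt _ ?_ ?_ <;> rw [map_mul]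
    · exact mul_lt_one_of_nonneg_of_lt_one_right
        ((A.valuation_le_one_iff _).mpr (intCast_mem A a)) zero_le (valuation_q_lt_one hA)
    · exact mul_lt_one_of_nonneg_of_lt_one_right
        ((A.valuation_le_one_iff _).mpr (intCast_mem A b)) zero_le hlt
  rw [map_one] at h2
  exact lt_irrefl _ h2

/-- The value of a nonzero integer is a power of that of `q`. -/
theorem valuation_intCast {z : ℤ} (hz : z ≠ 0) :
    ∃ e : ℕ, A.valuation (z : ℚbar) = A.valuation (q : ℚbar) ^ e := by
  obtain ⟨e, m, hm, he⟩ := Nat.exists_eq_pow_mul_and_not_dvd (Int.natAbs_ne_zero.mpr hz) q hq.ne_one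
  refine ⟨e, ?_⟩
  have h : A.valuation (z : ℚbar) = A.valuation ((z.natAbs : ℕ) : ℚbar) := by
    rcases Int.natAbs_eq z with h | h <;> conv_lhs => rw [h]
    · rw [Int.cast_natCast]
    · rw [Int.cast_neg, Int.cast_natCast, Valuation.map_neg]
  rw [h, he, Nat.cast_mul, Nat.cast_pow, map_mul, map_pow, valuation_natCast hq hA hm, mul_one]

/-- The value of a nonzero rational is a power of that of `q`. -/
theorem valuation_ratCast {c : ℚ} (hc : c ≠ 0) :
    ∃ e : ℤ, A.valuation (c : ℚbar) = A.valuation (q : ℚbar) ^ e := by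
  obtain ⟨a, ha⟩ := valuation_intCast hq hA (z := c.num) (by simpa using hc)
  obtain ⟨b, hb⟩ := valuation_intCast hq hA (z := (c.den : ℤ)) (by simp)
  refine ⟨(a : ℤ) - b, ?_⟩
  rw [Int.cast_natCast] at hb
  rw [Rat.cast_def, map_div₀, ha, hb, zpow_sub₀ (valuation_q_ne_zero (A := A) hq), zpow_natCast,
    zpow_natCast]

/-- The value of an element of degree at most `d`, raised to `d!`, is a power of that of `q`. -/
theorem valuation_pow_factorial {x : ℚbar} (hx : x ≠ 0) {d : ℕ}
    (hd : (minpoly ℚ x).natDegree ≤ d) :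
    ∃ e : ℤ, A.valuation x ^ d.factorial = A.valuation (q : ℚbar) ^ e := by
  classical
  set P := minpoly ℚ x
  have hP : P ≠ 0 := minpoly.ne_zero (Algebra.IsAlgebraic.isAlgebraic (R := ℚ) x).isIntegral
  set t : ℕ → ℚbar := fun i => (P.coeff i : ℚbar) * x ^ i
  have hsum : ∑ i ∈ P.support, t i = 0 := by
    have h := minpoly.aeval ℚ x
    rw [Polynomial.aeval_def, Polynomial.eval₂_eq_sum, Polynomial.sum_def] at h
    simpa [t] using h
  -- two terms of the minimal equation share the largest value
  obtain ⟨i, hi, hmax⟩ := Finset.exists_max_image P.support (fun i => A.valuation (t i))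
    (Polynomial.support_nonempty.mpr hP)
  have hti : A.valuation (t i) ≠ 0 := by
    simp only [t, map_ne_zero, ne_eq, mul_eq_zero, pow_eq_zero_iff', Rat.cast_eq_zero,
      hx, false_and, or_false]
    exact Polynomial.mem_support_iff.mp hi
  obtain ⟨j, hj, hne, heq⟩ : ∃ j ∈ P.support, j ≠ i ∧ A.valuation (t j) = A.valuation (t i) := by
    by_contra! hlt
    have h := Valuation.map_sum_eq_of_lt A.valuation (f := t) hi fun j hj => by
      obtain ⟨h1, h2⟩ := Finset.mem_sdiff.mp hj
      exact lt_of_le_of_ne (hmax j h1) (hlt j h1 (by simpa using h2))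
    rw [hsum, map_zero] at h
    exact hti h.symm
  clear hmax hsum hti
  wlog hij : i < j generalizing i j
  · exact this j hj i hi hne.symm heq.symm (by omega)
  obtain ⟨a, ha⟩ := valuation_ratCast hq hA (Polynomial.mem_support_iff.mp hi)
  obtain ⟨b, hb⟩ := valuation_ratCast hq hA (Polynomial.mem_support_iff.mp hj)
  have hd' : j - i ∣ d.factorial := Nat.dvd_factorial (by omega)
    ((Nat.sub_le j i).trans ((Polynomial.le_natDegree_of_mem_supp j hj).trans hd))
  obtain ⟨w, hw⟩ := hd'
  refine ⟨(a - b) * w, ?_⟩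
  have hq0 := valuation_q_ne_zero (A := A) hq
  have h1 : A.valuation x ^ (j - i) = A.valuation (q : ℚbar) ^ (a - b) := by
    simp only [t, map_mul, map_pow, ha, hb] at heq
    rw [zpow_sub₀ hq0, eq_div_iff (zpow_ne_zero _ hq0)]
    refine mul_right_cancel₀ (pow_ne_zero i ((map_ne_zero A.valuation).mpr hx)) ?_
    rw [← heq, mul_comm (A.valuation x ^ (j - i)), mul_assoc, ← pow_add,
      Nat.sub_add_cancel hij.le]
  rw [hw, pow_mul, h1, zpow_mul, zpow_natCast]

/-- For an integral element the power is a natural one. -/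
theorem valuation_pow_factorial_of_mem {x : ℚbar} (hx : x ≠ 0) (hxA : x ∈ A) {d : ℕ}
    (hd : (minpoly ℚ x).natDegree ≤ d) :
    ∃ e : ℕ, A.valuation x ^ d.factorial = A.valuation (q : ℚbar) ^ e := by
  obtain ⟨e, he⟩ := valuation_pow_factorial hq hA hx hd
  rcases le_or_gt 0 e with h | h
  · exact ⟨e.toNat, by rw [he, ← zpow_natCast, Int.toNat_of_nonneg h]⟩
  · have h1 : A.valuation x ^ d.factorial ≤ 1 :=
      pow_le_one₀ zero_le ((A.valuation_le_one_iff _).mpr hxA)
    rw [he, show e = -((-e).toNat : ℤ) by omega, zpow_neg, zpow_natCast] at h1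
    have h2 := (inv_le_one₀ (pow_pos (zero_lt_iff.mpr (valuation_q_ne_zero (A := A) hq)) _)).mp h1
    exact absurd h2 (not_le.mpr (pow_lt_one₀ zero_le (valuation_q_lt_one hA) (by omega)))

/-- The valuation is archimedean: an element reducing to zero has a power divisible by any given
nonzero one. -/
theorem arch (a : A) (ha : IsLocalRing.residue A a = 0) (c : A) (hc : c ≠ 0) :
    ∃ N : ℕ, c ∣ a ^ N := by
  rcases eq_or_ne a 0 with rfl | ha0
  · exact ⟨1, by rw [pow_one]; exact dvd_zero c⟩
  have hlt : A.valuation (a : ℚbar) < 1 := (A.valuation_lt_one_iff a).mp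
    (by rwa [IsLocalRing.residue_eq_zero_iff] at ha)
  have hc' : (c : ℚbar) ≠ 0 := fun h => hc (Subtype.ext h)
  obtain ⟨e, he⟩ := valuation_pow_factorial_of_mem hq hA (fun h => ha0 (Subtype.ext h)) a.2
    (d := (minpoly ℚ (a : ℚbar)).natDegree) le_rfl
  obtain ⟨e', he'⟩ := valuation_pow_factorial_of_mem hq hA hc' c.2
    (d := (minpoly ℚ (c : ℚbar)).natDegree) le_rfl
  have he1 : 1 ≤ e := Nat.one_le_iff_ne_zero.mpr fun h => by
    rw [h, pow_zero] at he
    exact absurd he (pow_lt_one₀ zero_le hlt (Nat.factorial_ne_zero _)).ne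
  refine ⟨(minpoly ℚ (a : ℚbar)).natDegree.factorial * e', ?_⟩
  have hle : A.valuation ((a : ℚbar) ^ ((minpoly ℚ (a : ℚbar)).natDegree.factorial * e')) ≤
      A.valuation (c : ℚbar) := by
    rw [map_pow, pow_mul, he, ← pow_mul]
    refine le_trans ?_ (pow_le_of_le_one zero_le ((A.valuation_le_one_iff _).mpr c.2)
      (Nat.factorial_ne_zero (minpoly ℚ (c : ℚbar)).natDegree))
    rw [he']
    exact pow_le_pow_of_le_one zero_le (valuation_q_lt_one hA).le (Nat.le_mul_of_pos_left _ he1)
  have hmem : (a : ℚbar) ^ ((minpoly ℚ (a : ℚbar)).natDegree.factorial * e') / c ∈ A := by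
    rw [← A.valuation_le_one_iff, map_div₀]
    exact div_le_one_of_le₀ hle zero_le
  exact ⟨⟨_, hmem⟩, Subtype.ext (by
    rw [SubmonoidClass.coe_pow, MulMemClass.coe_mul, mul_div_cancel₀ _ hc'])⟩

/-- An element of the maximal ideal has a power divisible by any given power of `q`. -/
theorem exists_pow_dvd (a : A) (ha : IsLocalRing.residue A a = 0) (m : ℕ) :
    ∃ N : ℕ, ((q : A)) ^ m ∣ a ^ N :=
  arch hq hA a ha _ (pow_ne_zero m fun h => hq.ne_zero (by
    have := congrArg Subtype.val h
    push_cast at this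
    exact_mod_cast this))

/-- A nonzero integral series over a number field has a coefficient of maximal value. -/
theorem exists_scale_of_finite (L₀ : IntermediateField ℚ ℚbar) [FiniteDimensional ℚ L₀]
    {f : LaurentSeries ℚbar} (hf : f ∈ intSeries A) (hne : f ≠ 0) (hL : ∀ n, f.coeff n ∈ L₀) :
    ∃ n, f.coeff n ≠ 0 ∧ (f.coeff n)⁻¹ • f ∈ intSeries A := by
  classical
  have hint := mem_intSeries_iff.mp hf
  have hdeg : ∀ n, (minpoly ℚ (f.coeff n)).natDegree ≤ Module.finrank ℚ L₀ := fun n => by
    rw [show f.coeff n = L₀.val ⟨_, hL n⟩ from rfl, minpoly.algHom_eq _ L₀.val.injective]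
    exact minpoly.natDegree_le _
  obtain ⟨n₁, hn₁⟩ : ∃ n, f.coeff n ≠ 0 := by
    by_contra! h
    exact hne (HahnSeries.ext (funext fun n => by simpa using h n))
  have hex : ∃ e : ℕ, ∃ n, f.coeff n ≠ 0 ∧
      A.valuation (f.coeff n) ^ (Module.finrank ℚ L₀).factorial = A.valuation (q : ℚbar) ^ e := by
    obtain ⟨e, he⟩ := valuation_pow_factorial_of_mem hq hA hn₁ (hint n₁) (hdeg n₁)
    exact ⟨e, n₁, hn₁, he⟩
  obtain ⟨n, hn, hne'⟩ := Nat.find_spec hex
  refine ⟨n, hn, mem_intSeries_iff.mpr fun m => ?_⟩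
  rw [HahnSeries.coeff_smul, smul_eq_mul]
  rcases eq_or_ne (f.coeff m) 0 with h0 | h0
  · rw [h0, mul_zero]; exact zero_mem A
  obtain ⟨e, he⟩ := valuation_pow_factorial_of_mem hq hA h0 (hint m) (hdeg m)
  have hle : Nat.find hex ≤ e := Nat.find_min' hex ⟨m, h0, he⟩
  have h1 : A.valuation (f.coeff m) ^ (Module.finrank ℚ L₀).factorial ≤
      A.valuation (f.coeff n) ^ (Module.finrank ℚ L₀).factorial := by
    rw [he, hne']
    exact pow_le_pow_of_le_one zero_le (valuation_q_lt_one hA).le hle
  rw [← A.valuation_le_one_iff, map_mul, map_inv₀, inv_mul_eq_div]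
  exact div_le_one_of_le₀ ((pow_le_pow_iff_left₀ zero_le zero_le
    (Nat.factorial_ne_zero _)).mp h1) zero_le

omit hq hA in
/-- A function of the base change has coefficients in a number field. -/
theorem coeff_mem_of_fixed {F₀ : IntermediateField ℚ (LaurentSeries ℚ)}
    (f : laurentBaseChange ℚbar F₀) :
    ∃ L₀ : IntermediateField ℚ ℚbar, FiniteDimensional ℚ L₀ ∧
      ∀ n, (f : LaurentSeries ℚbar).coeff n ∈ L₀ := by
  obtain ⟨S, hS⟩ := Fermat.JAC.exists_finset_fix F₀ f
  refine ⟨IntermediateField.adjoin ℚ (S : Set ℚbar),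
    IntermediateField.finiteDimensional_adjoin fun a _ => Algebra.IsIntegral.isIntegral a,
    fun n => ?_⟩
  rw [← InfiniteGalois.fixedField_fixingSubgroup (IntermediateField.adjoin ℚ (S : Set ℚbar)),
    IntermediateField.mem_fixedField_iff]
  intro σ hσ
  have h := congrArg (fun z : laurentBaseChange ℚbar F₀ => (z : LaurentSeries ℚbar).coeff n)
    (hS σ fun a ha => (IntermediateField.mem_fixingSubgroup_iff _ σ).mp hσ a
      (IntermediateField.subset_adjoin ℚ _ ha))
  simp only [coe_arithmeticGalois_smul, coeffMap_coeff] at h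
  exact h

end Fermat.BAD.X0

end
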